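/-
S34 / Program B', leaf L6-(U2) (helper19): the `branch` fields of `S18.H19.DSetup` for the top
function `x = j(q^{N'})` and for `x⁻¹`, over EVERY subfield `K₀ ⊆ ℚ̄` (in particular `K₀ = ℚ`)
and every intermediate field `F₀ ∋ x` of `F_{N'}/K₀`.

The landed `H28.branchOK_top` hides the branch sets; here they are re-exposed as RATIONAL
(`{0, 1728}` and `{0, 1/1728}`: members of every subfield), and fed to the landed
`H61.dsetup_branch`, which is stated for every `K₀` containing the branch set.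
-/
import Mathlib
import Fermat.Agent.S18.H28.ExistsSetup
import Fermat.Agent.S18.H61.DescPlaces

set_option autoImplicit false

open AlgebraicCurve IntermediateField ModularCurve Polynomial

noncomputable section

namespace Fermat.Agent.S34.H19

open Fermat.Agent.S18.H74 Fermat.Agent.S18.H28 Fermat.Agent.S18

section Generic

variable {K F : Type*} [Field K] [Field F] [Algebra K F] (A : ValuationSubring K)

theorem ofNat_mem_subfield (L : Subfield K) (n : ℕ) [n.AtLeastTwo] : (OfNat.ofNat n : K) ∈ L := by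
  have : (OfNat.ofNat n : K) = ((n : ℕ) : K) := (Nat.cast_ofNat).symm
  rw [this]
  exact natCast_mem L n

/-- `Setup.branch` for `x = j` with a RATIONAL branch set (`{0, 1728}`). -/
theorem branch_rat_of_branchJ {j : F} (hj : H50.BranchJ K j) (h2 : (2 : K)⁻¹ ∈ A)
    (h3 : (3 : K)⁻¹ ∈ A) :
    ∃ S : Finset K, (∀ c ∈ S, c ∈ A) ∧
      (∀ c ∈ S, ∀ c' ∈ S, c ≠ c' → (c - c')⁻¹ ∈ A) ∧
      (∀ (P : Place K F) (c : K), c ∉ S →
        0 < P.ord (j - algebraMap K F c) → P.ord (j - algebraMap K F c) = 1) ∧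
      ∀ c ∈ S, ∀ L : Subfield K, c ∈ L := by
  classical
  have h1728 : (1728 : K)⁻¹ ∈ A := by
    have : (1728 : K)⁻¹ = (2 : K)⁻¹ ^ 6 * (3 : K)⁻¹ ^ 3 := by
      rw [inv_pow, inv_pow, ← mul_inv]; norm_num
    rw [this]
    exact A.mul_mem _ _ (A.pow_mem h2 6) (A.pow_mem h3 3)
  refine ⟨{0, 1728}, ?_, ?_, ?_, ?_⟩
  · intro c hc
    simp only [Finset.mem_insert, Finset.mem_singleton] at hc
    rcases hc with rfl | rfl
    · exact A.zero_mem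
    · exact H50.ofNat_mem_valuationSubring A 1728
  · intro c hc c' hc' hne
    simp only [Finset.mem_insert, Finset.mem_singleton] at hc hc'
    rcases hc with rfl | rfl <;> rcases hc' with rfl | rfl
    · exact absurd rfl hne
    · rw [zero_sub, inv_neg]; exact A.neg_mem _ h1728
    · rw [sub_zero]; exact h1728
    · exact absurd rfl hne
  · intro P c hc h
    simp only [Finset.mem_insert, Finset.mem_singleton, not_or] at hc
    exact hj.gen P c hc.1 hc.2 h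
  · intro c hc L
    simp only [Finset.mem_insert, Finset.mem_singleton] at hc
    rcases hc with rfl | rfl
    · exact L.zero_mem
    · exact ofNat_mem_subfield L 1728

/-- `Setup.branch_inv` for `x = j` with a RATIONAL branch set (`{0, 1/1728}`). -/
theorem branch_inv_rat_of_branchJ {j : F} (hj : H50.BranchJ K j) (h2 : (2 : K) ≠ 0)
    (h3 : (3 : K) ≠ 0) (h2A : (2 : K)⁻¹ ∈ A) (h3A : (3 : K)⁻¹ ∈ A) :
    ∃ S : Finset K, (∀ c ∈ S, c ∈ A) ∧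
      (∀ c ∈ S, ∀ c' ∈ S, c ≠ c' → (c - c')⁻¹ ∈ A) ∧
      (∀ (P : Place K F) (c : K), c ∉ S →
        0 < P.ord (j⁻¹ - algebraMap K F c) → P.ord (j⁻¹ - algebraMap K F c) = 1) ∧
      ∀ c ∈ S, ∀ L : Subfield K, c ∈ L := by
  classical
  have h1728 : (1728 : K)⁻¹ ∈ A := by
    have : (1728 : K)⁻¹ = (2 : K)⁻¹ ^ 6 * (3 : K)⁻¹ ^ 3 := by
      rw [inv_pow, inv_pow, ← mul_inv]; norm_num
    rw [this]
    exact A.mul_mem _ _ (A.pow_mem h2A 6) (A.pow_mem h3A 3)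
  have h1728ne : (1728 : K) ≠ 0 := by
    have : (1728 : K) = 2 ^ 6 * 3 ^ 3 := by norm_num
    rw [this]
    exact mul_ne_zero (pow_ne_zero _ h2) (pow_ne_zero _ h3)
  refine ⟨{0, (1728 : K)⁻¹}, ?_, ?_, ?_, ?_⟩
  · intro c hc
    simp only [Finset.mem_insert, Finset.mem_singleton] at hc
    rcases hc with rfl | rfl
    · exact A.zero_mem
    · exact h1728
  · intro c hc c' hc' hne
    simp only [Finset.mem_insert, Finset.mem_singleton] at hc hc'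
    rcases hc with rfl | rfl <;> rcases hc' with rfl | rfl
    · exact absurd rfl hne
    · rw [zero_sub, inv_neg, inv_inv]
      exact A.neg_mem _ (H50.ofNat_mem_valuationSubring A 1728)
    · rw [sub_zero, inv_inv]; exact H50.ofNat_mem_valuationSubring A 1728
    · exact absurd rfl hne
  · intro P c hc h
    simp only [Finset.mem_insert, Finset.mem_singleton, not_or] at hc
    have e := H50.ord_sub_inv_eq P hc.1 h
    rw [← e]
    refine hj.gen P c⁻¹ (inv_ne_zero hc.1) ?_ (by rw [e]; exact h)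
    intro h0
    exact hc.2 (by rw [← h0, inv_inv])
  · intro c hc L
    simp only [Finset.mem_insert, Finset.mem_singleton] at hc
    rcases hc with rfl | rfl
    · exact L.zero_mem
    · exact L.inv_mem (ofNat_mem_subfield L 1728)

end Generic

section Package

variable {k K : Type*} [Field k] [Field K] [Algebra k K] {F : Type*} [Field F] [Algebra K F]

/-- **The two `branch` fields of `H19.DSetup`** (for `x` and `x⁻¹`), verbatim the first two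
conjuncts of `H61.exists_places_package`, for EVERY intermediate field `K₀` of `K/k` and every
`F₀ ∋ x`, when the branch sets of `x` and `x⁻¹` consist of elements of the prime field. -/
theorem dsetup_branch_pair [Algebra.IsAlgebraic k K] [IsAlgClosed K] [CharZero K]
    (A : ValuationSubring K) (x : F) [FiniteDimensional K⟮x⟯ F]
    (hbranch : ∃ S : Finset K, (∀ c ∈ S, c ∈ A) ∧
      (∀ c ∈ S, ∀ c' ∈ S, c ≠ c' → (c - c')⁻¹ ∈ A) ∧
      (∀ (P : Place K F) (c : K), c ∉ S →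
        0 < P.ord (x - algebraMap K F c) → P.ord (x - algebraMap K F c) = 1) ∧
      ∀ c ∈ S, ∀ L : Subfield K, c ∈ L)
    (hbranch_inv : ∃ S : Finset K, (∀ c ∈ S, c ∈ A) ∧
      (∀ c ∈ S, ∀ c' ∈ S, c ≠ c' → (c - c')⁻¹ ∈ A) ∧
      (∀ (P : Place K F) (c : K), c ∉ S →
        0 < P.ord (x⁻¹ - algebraMap K F c) → P.ord (x⁻¹ - algebraMap K F c) = 1) ∧
      ∀ c ∈ S, ∀ L : Subfield K, c ∈ L)
    (K₀ : IntermediateField k K) (F₀ : IntermediateField K₀ F) (hx₀ : x ∈ F₀) :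
    letI := H19.algComap (A.comap (algebraMap K₀ K)) F₀
    (∃ S₀ : Finset ↥(A.comap (algebraMap K₀ K)),
      (∀ a ∈ S₀, ∀ b ∈ S₀, a ≠ b → IsUnit (a - b)) ∧
      ∀ V : ValuationSubring F₀,
        (∀ a : ↥(A.comap (algebraMap K₀ K)), a ≠ 0 →
          (algebraMap ↥(A.comap (algebraMap K₀ K)) F₀ a)⁻¹ ∈ V) →
        IsDiscreteValuationRing V → (⟨x, hx₀⟩ : F₀) ∈ V →
        (∀ a ∈ S₀,
          ((⟨x, hx₀⟩ : F₀) - algebraMap ↥(A.comap (algebraMap K₀ K)) F₀ a)⁻¹ ∈ V) →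
        ∃ g : (↥(A.comap (algebraMap K₀ K)))[X],
          aeval (⟨x, hx₀⟩ : F₀) g ∈ V ∧ (aeval (⟨x, hx₀⟩ : F₀) g)⁻¹ ∉ V ∧
          ∀ t ∈ V, t⁻¹ ∉ V → t / aeval (⟨x, hx₀⟩ : F₀) g ∈ V) ∧
    (∃ S₀ : Finset ↥(A.comap (algebraMap K₀ K)),
      (∀ a ∈ S₀, ∀ b ∈ S₀, a ≠ b → IsUnit (a - b)) ∧
      ∀ V : ValuationSubring F₀,
        (∀ a : ↥(A.comap (algebraMap K₀ K)), a ≠ 0 →
          (algebraMap ↥(A.comap (algebraMap K₀ K)) F₀ a)⁻¹ ∈ V) →
        IsDiscreteValuationRing V → (⟨x, hx₀⟩ : F₀)⁻¹ ∈ V →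
        (∀ a ∈ S₀,
          ((⟨x, hx₀⟩ : F₀)⁻¹ - algebraMap ↥(A.comap (algebraMap K₀ K)) F₀ a)⁻¹ ∈ V) →
        ∃ g : (↥(A.comap (algebraMap K₀ K)))[X],
          aeval (⟨x, hx₀⟩ : F₀)⁻¹ g ∈ V ∧ (aeval (⟨x, hx₀⟩ : F₀)⁻¹ g)⁻¹ ∉ V ∧
          ∀ t ∈ V, t⁻¹ ∉ V → t / aeval (⟨x, hx₀⟩ : F₀)⁻¹ g ∈ V) := by
  classical
  obtain ⟨S, hSA, hSd, hbr, hSrat⟩ := hbranch
  obtain ⟨S', hSA', hSd', hbr', hSrat'⟩ := hbranch_inv
  have : Algebra.IsAlgebraic K₀ K := Algebra.IsAlgebraic.tower_top (K := k) K₀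
  have hfd : FiniteDimensional K⟮x⁻¹⟯ F := by
    rw [Fermat.Agent.S18.H78.adjoin_simple_inv_eq]
    infer_instance
  have hfd' : FiniteDimensional K⟮(((⟨x, hx₀⟩ : F₀)⁻¹ : F₀) : F)⟯ F := hfd
  refine ⟨?_, ?_⟩
  · have : FiniteDimensional K⟮((⟨x, hx₀⟩ : F₀) : F)⟯ F := ‹FiniteDimensional K⟮x⟯ F›
    exact H61.dsetup_branch K₀ F₀ A (⟨x, hx₀⟩ : F₀) S hSA hSd hbr
      (fun c hc => hSrat c hc K₀.toSubfield)
  · exact H61.dsetup_branch K₀ F₀ A ((⟨x, hx₀⟩ : F₀)⁻¹) S' hSA' hSd' hbr'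
      (fun c hc => hSrat' c hc K₀.toSubfield)

end Package

section Top

/-- The rational branch data of the top function `j(q^{N'})` (`ℓ ≥ 5`). -/
theorem branch_rat_top (N' : ℕ) [NeZero N'] {ℓ : ℕ} [Fact ℓ.Prime] (A : ValuationSubring Kb)
    (hA : A.LiesOverPrime ℓ) (h2 : ℓ ≠ 2) (h3 : ℓ ≠ 3) :
    (∃ S : Finset Kb, (∀ c ∈ S, c ∈ A) ∧
      (∀ c ∈ S, ∀ c' ∈ S, c ≠ c' → (c - c')⁻¹ ∈ A) ∧
      (∀ (P : Place Kb (FN N')) (c : Kb), c ∉ S →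
        0 < P.ord (jtop N' - algebraMap Kb (FN N') c) →
          P.ord (jtop N' - algebraMap Kb (FN N') c) = 1) ∧
      ∀ c ∈ S, ∀ L : Subfield Kb, c ∈ L) ∧
    (∃ S : Finset Kb, (∀ c ∈ S, c ∈ A) ∧
      (∀ c ∈ S, ∀ c' ∈ S, c ≠ c' → (c - c')⁻¹ ∈ A) ∧
      (∀ (P : Place Kb (FN N')) (c : Kb), c ∉ S →
        0 < P.ord ((jtop N')⁻¹ - algebraMap Kb (FN N') c) →
          P.ord ((jtop N')⁻¹ - algebraMap Kb (FN N') c) = 1) ∧
      ∀ c ∈ S, ∀ L : Subfield Kb, c ∈ L) :=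
  ⟨branch_rat_of_branchJ A (branchJ_jtop N') (two_inv_mem A hA h2) (three_inv_mem A hA h3),
    branch_inv_rat_of_branchJ A (branchJ_jtop N') two_ne_zero_Kb three_ne_zero_Kb
      (two_inv_mem A hA h2) (three_inv_mem A hA h3)⟩

/-- **(U2)**: the two `branch` fields of `H19.DSetup` for the top function `j(q^{N'})` and its
inverse, over `A ∩ K₀` for EVERY subfield `K₀` of `ℚ̄` and every `F₀ ∋ j(q^{N'})` (`ℓ ≥ 5`). -/
theorem dsetup_branch_top (N' : ℕ) [NeZero N'] {ℓ : ℕ} [Fact ℓ.Prime] (A : ValuationSubring Kb)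
    (hA : A.LiesOverPrime ℓ) (h2 : ℓ ≠ 2) (h3 : ℓ ≠ 3)
    (K₀ : IntermediateField ℚ Kb) (F₀ : IntermediateField K₀ (FN N')) (hx₀ : jtop N' ∈ F₀) :
    letI := H19.algComap (A.comap (algebraMap K₀ Kb)) F₀
    (∃ S₀ : Finset ↥(A.comap (algebraMap K₀ Kb)),
      (∀ a ∈ S₀, ∀ b ∈ S₀, a ≠ b → IsUnit (a - b)) ∧
      ∀ V : ValuationSubring F₀,
        (∀ a : ↥(A.comap (algebraMap K₀ Kb)), a ≠ 0 →
          (algebraMap ↥(A.comap (algebraMap K₀ Kb)) F₀ a)⁻¹ ∈ V) →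
        IsDiscreteValuationRing V → (⟨jtop N', hx₀⟩ : F₀) ∈ V →
        (∀ a ∈ S₀,
          ((⟨jtop N', hx₀⟩ : F₀) - algebraMap ↥(A.comap (algebraMap K₀ Kb)) F₀ a)⁻¹ ∈ V) →
        ∃ g : (↥(A.comap (algebraMap K₀ Kb)))[X],
          aeval (⟨jtop N', hx₀⟩ : F₀) g ∈ V ∧ (aeval (⟨jtop N', hx₀⟩ : F₀) g)⁻¹ ∉ V ∧
          ∀ t ∈ V, t⁻¹ ∉ V → t / aeval (⟨jtop N', hx₀⟩ : F₀) g ∈ V) ∧
    (∃ S₀ : Finset ↥(A.comap (algebraMap K₀ Kb)),
      (∀ a ∈ S₀, ∀ b ∈ S₀, a ≠ b → IsUnit (a - b)) ∧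
      ∀ V : ValuationSubring F₀,
        (∀ a : ↥(A.comap (algebraMap K₀ Kb)), a ≠ 0 →
          (algebraMap ↥(A.comap (algebraMap K₀ Kb)) F₀ a)⁻¹ ∈ V) →
        IsDiscreteValuationRing V → (⟨jtop N', hx₀⟩ : F₀)⁻¹ ∈ V →
        (∀ a ∈ S₀,
          ((⟨jtop N', hx₀⟩ : F₀)⁻¹ - algebraMap ↥(A.comap (algebraMap K₀ Kb)) F₀ a)⁻¹ ∈ V) →
        ∃ g : (↥(A.comap (algebraMap K₀ Kb)))[X],
          aeval (⟨jtop N', hx₀⟩ : F₀)⁻¹ g ∈ V ∧ (aeval (⟨jtop N', hx₀⟩ : F₀)⁻¹ g)⁻¹ ∉ V ∧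
          ∀ t ∈ V, t⁻¹ ∉ V → t / aeval (⟨jtop N', hx₀⟩ : F₀)⁻¹ g ∈ V) := by
  have := H61.isAlgebraic_rat_algebraicClosure
  have := finite_top N'
  obtain ⟨hb, hb'⟩ := branch_rat_top N' A hA h2 h3
  exact dsetup_branch_pair (k := ℚ) A (jtop N') hb hb' K₀ F₀ hx₀

end Top

end Fermat.Agent.S34.H19
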