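/-
S34 / Program B', leaf L6-(U1) (helper19): a RATIONAL orthonormal basis of the smooth model.

For a level `N'` prime to `ℓ`, the Gauss ring `O = gaussO` of `F_{N'} = ℚ̄(X₀(N'))` and the base
function `x = j(q^{N'})`:  there is an orthonormal `ℚ̄(x)`-basis `θ` of `F_{N'}` with unit Gram
determinant, all of whose members lie in the rational function field
`F_{N',ℚ} = ratEmb (modularFunctionFieldFull N')`, and such that every element of `F_{N',ℚ}` is a
`ℚ(x)`-linear combination of `θ`  (`ℚ(x) = (⊥ : IntermediateField ℚ ℚ̄)⟮x⟯`).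
Consequently `1` and the products `θ i * θ j` lie in the `ℚ(x)`-span of `θ`: the descent of the
setup can be run over `K₀ = ℚ` (base ring `A ∩ ℚ = ℤ_(ℓ)`, unramified) and over every larger
`K₀` with the SAME `θ`.
-/
import Mathlib
import Fermat.Agent.S18.H28.ExistsSetup
import Fermat.Agent.S28.H85.Indep
import Fermat.Agent.S28.H50.Final
import Fermat.Agent.S28.H23.HasModPolys

set_option autoImplicit false

open AlgebraicCurve IntermediateField ModularCurve

noncomputable section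

namespace Fermat.Agent.S34.H19

open Fermat.Agent.S18.H74 Fermat.Agent.S18.H28 Fermat.Agent.S18

/-! ### Generic: orthonormality and unit Gram determinant of GIVEN lifts -/

section Generic

variable {K : Type*} [Field K] (A : ValuationSubring K) {F : Type*} [Field F] [Algebra K F]
  (O : ValuationSubring F) (x : F)
  {L : Type*} [Field L] (φ : ↥O →+* L) {k : Type*} [Field k] [Algebra k L] (ρ : ↥A →+* k)

/-- `H85.setup_basis_of_residue` for a GIVEN family of lifts. -/
theorem setup_basis_of_lifts [FiniteDimensional K⟮x⟯ F]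
    (hφ : ∀ f : ↥O, φ f = 0 ↔ (f : F) ∈ O.nonunits)
    (hρ : Function.Surjective ρ)
    (hmem : ∀ a : K, algebraMap K F a ∈ O ↔ a ∈ A) (hx : x ∈ O)
    (hφρ : ∀ (a : ↥A) (h : algebraMap K F (a : K) ∈ O), φ ⟨_, h⟩ = algebraMap k L (ρ a))
    (hgauss : ∀ p : Polynomial K, (∀ i, p.coeff i ∈ A) →
      (∃ i, p.coeff i ≠ 0 ∧ (p.coeff i)⁻¹ ∈ A) →
        Polynomial.aeval x p ∈ O ∧ (Polynomial.aeval x p)⁻¹ ∈ O)
    (hA : A ≠ ⊤)
    (hscale : ∀ f : F, f ≠ 0 →
      ∃ c : K, c ≠ 0 ∧ algebraMap K F c * f ∈ O ∧ (algebraMap K F c * f)⁻¹ ∈ O)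
    (t : Fin (Module.finrank K⟮x⟯ F) → ↥O)
    (ht : LinearIndependent ↥(k⟮φ ⟨x, hx⟩⟯) (fun i => φ (t i)))
    (hsep : ∀ f : ↥O, IsSeparable ↥(k⟮φ ⟨x, hx⟩⟯) (φ f)) :
    (∀ r : Fin (Module.finrank K⟮x⟯ F) → K⟮x⟯,
        (∑ i, (r i : F) * (t i : F)) ∈ O ↔ ∀ i, (r i : F) ∈ O) ∧
      ((H74.gramDet K F x (fun i => (t i : F)) : K⟮x⟯) : F)⁻¹ ∈ O ∧
      LinearIndependent K⟮x⟯ (fun i => (t i : F)) := by
  have horth := H85.orth_of_lift A O x φ ρ hφ hmem hx hφρ hgauss t ht
  have hnt : ∃ e : K⟮x⟯, algebraMap (↥K⟮x⟯) F e ∉ O := by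
    have h1 : ∃ a : K, a ∉ A := by
      by_contra hcon
      push Not at hcon
      exact hA (eq_top_iff.2 fun a _ => hcon a)
    obtain ⟨a, ha⟩ := h1
    exact ⟨algebraMap K (↥K⟮x⟯) a, fun h => ha ((hmem a).1 h)⟩
  refine ⟨horth, ?_, H85.linearIndependent_of_orth O (fun i => (t i : F)) hnt horth⟩
  have hval : ∀ g : F, g ≠ 0 → ∃ c : K⟮x⟯, c ≠ 0 ∧ algebraMap (↥K⟮x⟯) F c * g ∈ O ∧
      (algebraMap (↥K⟮x⟯) F c * g)⁻¹ ∈ O := by
    intro g hg
    obtain ⟨c, hc, h1, h2⟩ := hscale g hg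
    exact ⟨algebraMap K (↥K⟮x⟯) c, by simpa using hc, h1, h2⟩
  have h1 : ∀ (r : K⟮x⟯) (hr : algebraMap (↥K⟮x⟯) F r ∈ O),
      φ ⟨_, hr⟩ ∈ (algebraMap (↥(k⟮φ ⟨x, hx⟩⟯)) L).range := by
    intro r hr
    exact ⟨⟨_, H85.res_mem_adjoin A O x φ ρ hmem hx hφρ hgauss _ r.2 hr⟩, rfl⟩
  have h2 : ∀ y : ↥(k⟮φ ⟨x, hx⟩⟯), ∃ (r : K⟮x⟯) (hr : algebraMap (↥K⟮x⟯) F r ∈ O),
      φ ⟨_, hr⟩ = algebraMap (↥(k⟮φ ⟨x, hx⟩⟯)) L y := by
    intro y
    obtain ⟨r, hrx, hr, hry⟩ := H85.exists_res_eq A O x φ ρ hφ hρ hmem hx hφρ (y : L) y.2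
    exact ⟨⟨r, hrx⟩, hr, hry⟩
  exact (H85.gram_unit O φ hφ h1 h2 hsep hnt hval (fun i => (t i : F)) horth).2

/-- A linearly independent family of `μ` vectors inside a subspace of dimension `≤ μ` spans it. -/
theorem span_eq_of_linearIndependent_of_finrank_le {E V : Type*} [Field E] [AddCommGroup V]
    [Module E V] (W : Submodule E V) [FiniteDimensional E W] {μ : ℕ} (v : Fin μ → V)
    (hv : ∀ i, v i ∈ W) (hli : LinearIndependent E v) (h : Module.finrank E W ≤ μ) :
    Submodule.span E (Set.range v) = W := by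
  have hle : Submodule.span E (Set.range v) ≤ W := by
    rw [Submodule.span_le]
    rintro _ ⟨i, rfl⟩
    exact hv i
  refine Submodule.eq_of_le_of_finrank_le hle ?_
  rw [finrank_span_eq_card hli, Fintype.card_fin]
  exact h

end Generic

/-! ### The rational function field inside `F_{N'}` -/

section Rat

/-- The rational function field `F_{N',ℚ}` of level `N'`, embedded in `F_{N'} = ℚ̄ · F_{N',ℚ}`
(base change of the coefficients of the `q`-expansion). -/
def ratEmb (N' : ℕ) : ↥(modularFunctionFieldFull N') →+* FN N' :=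
  ((coeffEmb Kb).comp (algebraMap ↥(modularFunctionFieldFull N') (LaurentSeries ℚ))).codRestrict
    (modularFunctionFieldBar N') (fun f => coeffEmb_mem_laurentBaseChange Kb f.2)

theorem coe_ratEmb (N' : ℕ) (f : ↥(modularFunctionFieldFull N')) :
    ((ratEmb N' f : FN N') : LaurentSeries Kb) = coeffEmb Kb (f : LaurentSeries ℚ) := rfl

theorem ratEmb_injective (N' : ℕ) : Function.Injective (ratEmb N') := (ratEmb N').injective

/-- `j(q^d)` is rational. -/
theorem jFN_eq_ratEmb (N' d : ℕ) [NeZero d] (hd : d ∣ N') :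
    jFN N' d hd = ratEmb N' ⟨qExpand ℚ d jq, jqd_mem_full N' hd⟩ := rfl

/-- Ring homomorphisms between `ℚ`-algebras commute with `aeval` of rational polynomials
(whatever the `ℚ`-algebra structures). -/
theorem ringHom_aeval_rat {R S : Type*} [CommRing R] [CommRing S] [Algebra ℚ R] [Algebra ℚ S]
    (f : R →+* S) (y : R) (P : Polynomial ℚ) :
    f (Polynomial.aeval y P) = Polynomial.aeval (f y) P := by
  rw [Polynomial.aeval_def, Polynomial.aeval_def, Polynomial.hom_eval₂]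
  congr 1
  exact Subsingleton.elim _ _

/-- `ratEmb` commutes with evaluation of rational polynomials. -/
theorem ratEmb_aeval (N' : ℕ) (K₀ : IntermediateField ℚ Kb) (y : ↥(modularFunctionFieldFull N'))
    (P : Polynomial ℚ) :
    ratEmb N' (Polynomial.aeval y P) =
      Polynomial.aeval (ratEmb N' y) (P.map (algebraMap ℚ ↥K₀)) := by
  rw [Polynomial.aeval_def, Polynomial.aeval_def, Polynomial.eval₂_map, Polynomial.hom_eval₂]
  congr 1
  exact Subsingleton.elim _ _

/-- `ratEmb` maps `ℚ(y)` into `K₀(ratEmb y)` for every `K₀ ⊆ ℚ̄`. -/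
theorem ratEmb_mem_adjoin_simple (N' : ℕ) (K₀ : IntermediateField ℚ Kb)
    (y c : ↥(modularFunctionFieldFull N'))
    (hc : (c : LaurentSeries ℚ) ∈ IntermediateField.adjoin ℚ {(y : LaurentSeries ℚ)}) :
    ratEmb N' c ∈ K₀⟮ratEmb N' y⟯ := by
  obtain ⟨P, Q, hPQ⟩ := (IntermediateField.mem_adjoin_simple_iff ℚ _).1 hc
  have hc' : c = Polynomial.aeval y P / Polynomial.aeval y Q := by
    apply Subtype.ext
    have h1 : ∀ R : Polynomial ℚ, ((Polynomial.aeval y R : ↥(modularFunctionFieldFull N')) :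
        LaurentSeries ℚ) = Polynomial.aeval (y : LaurentSeries ℚ) R := fun R =>
      ringHom_aeval_rat (algebraMap ↥(modularFunctionFieldFull N') (LaurentSeries ℚ)) y R
    rw [hPQ]
    change _ = ((Polynomial.aeval y P : ↥(modularFunctionFieldFull N')) : LaurentSeries ℚ) /
      ((Polynomial.aeval y Q : ↥(modularFunctionFieldFull N')) : LaurentSeries ℚ)
    rw [h1, h1]
  rw [IntermediateField.mem_adjoin_simple_iff]
  refine ⟨P.map (algebraMap ℚ ↥K₀), Q.map (algebraMap ℚ ↥K₀), ?_⟩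
  rw [hc', map_div₀, ratEmb_aeval N' K₀, ratEmb_aeval N' K₀]

end Rat

/-! ### Rational lifts of a residue basis -/

section Lifts

variable (N' : ℕ) [NeZero N'] {ℓ : ℕ} [Fact ℓ.Prime] (hℓN' : ¬ ℓ ∣ N')
  (A : ValuationSubring Kb) (hA : A.LiesOverPrime ℓ)

/-- The residue map of the Gauss ring, with values in `k((q))`. -/
def resPhi : ↥(H66.gaussO A N' hA hℓN') →+* LaurentSeries (kA A) :=
  (algebraMap ↥(modularFunctionFieldFullC (kA A) N') (LaurentSeries (kA A))).comp
    (H66.gaussResO A N' hA hℓN')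

theorem resPhi_apply (f : ↥(H66.gaussO A N' hA hℓN')) :
    resPhi N' hℓN' A hA f = ((H66.gaussResO A N' hA hℓN' f :
      ↥(modularFunctionFieldFullC (kA A) N')) : LaurentSeries (kA A)) := rfl

/-- `A`-integral series in `F_{N'}` lie in the Gauss ring and reduce coefficientwise. -/
theorem resPhi_integral (X0 : LaurentSeries A) (x : FN N')
    (hx : (x : LaurentSeries Kb) = incA A X0) :
    ∃ hxO : x ∈ H66.gaussO A N' hA hℓN', resPhi N' hℓN' A hA ⟨x, hxO⟩ = redA A X0 := by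
  have hxF : incA A X0 ∈ modularFunctionFieldBar N' := hx ▸ x.2
  have hx' : x = ⟨incA A X0, hxF⟩ := Subtype.ext hx
  subst hx'
  exact ⟨H66.integral_mem_gaussO A N' hA hℓN' X0 hxF,
    H66.coe_gaussResO_integral A N' hA hℓN' X0 hxF⟩

/-- Monomials in the `j̄(q^d)`, `d ∣ N'`, are residues of RATIONAL elements of the Gauss ring. -/
theorem exists_rat_lift_of_mem_closure {y : LaurentSeries (kA A)}
    (hy : y ∈ Submonoid.closure (divisorExpansionsC (kA A) N')) :
    ∃ t : ↥(H66.gaussO A N' hA hℓN'), (t : FN N') ∈ Set.range (ratEmb N') ∧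
      resPhi N' hℓN' A hA t = y := by
  induction hy using Submonoid.closure_induction with
  | mem y hy =>
    obtain ⟨d, hne, hd, rfl⟩ := hy
    obtain ⟨hO, hres⟩ := resPhi_integral N' hℓN' A hA (jA A d) (jFN N' d hd)
      (by rw [coe_jFN, incA_jA])
    refine ⟨⟨jFN N' d hd, hO⟩, ⟨_, (jFN_eq_ratEmb N' d hd).symm⟩, ?_⟩
    rw [hres, redA_jA]
    rfl
  | one =>
    exact ⟨1, ⟨1, map_one _⟩, map_one _⟩
  | mul y₁ y₂ _ _ h₁ h₂ =>
    obtain ⟨t₁, ⟨s₁, hs₁⟩, rfl⟩ := h₁
    obtain ⟨t₂, ⟨s₂, hs₂⟩, rfl⟩ := h₂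
    refine ⟨t₁ * t₂, ⟨s₁ * s₂, ?_⟩, map_mul _ _ _⟩
    rw [map_mul, hs₁, hs₂]
    rfl

include hℓN' hA in
/-- **Rational lifts with linearly independent residues.** -/
theorem exists_rat_lifts (x : FN N') (hxO : x ∈ H66.gaussO A N' hA hℓN')
    (hxk : resPhi N' hℓN' A hA ⟨x, hxO⟩ ∈ modularFunctionFieldFullC (kA A) N') {n : ℕ}
    (hdeg : n ≤ IntermediateField.relfinrank
      (IntermediateField.adjoin (kA A) {resPhi N' hℓN' A hA ⟨x, hxO⟩})
      (modularFunctionFieldFullC (kA A) N')) :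
    ∃ t : Fin n → ↥(H66.gaussO A N' hA hℓN'), (∀ i, (t i : FN N') ∈ Set.range (ratEmb N')) ∧
      LinearIndependent ↥((kA A)⟮resPhi N' hℓN' A hA ⟨x, hxO⟩⟯)
        (fun i => resPhi N' hℓN' A hA (t i)) := by
  have hE : (kA A)⟮resPhi N' hℓN' A hA ⟨x, hxO⟩⟯ ≤
      IntermediateField.adjoin (kA A) (divisorExpansionsC (kA A) N') := by
    rw [IntermediateField.adjoin_le_iff, Set.singleton_subset_iff]
    exact hxk
  obtain ⟨v, hv, hlin⟩ := Fermat.Agent.S28.H85.exists_linearIndependent_monomials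
    ((kA A)⟮resPhi N' hℓN' A hA ⟨x, hxO⟩⟯) (divisorExpansionsC (kA A) N') hE hdeg
  choose t ht_rat ht_res using fun i =>
    exists_rat_lift_of_mem_closure N' hℓN' A hA (hv i)
  refine ⟨t, ht_rat, ?_⟩
  have h3 : (fun i => resPhi N' hℓN' A hA (t i)) = v := funext ht_res
  rw [h3]
  exact hlin

end Lifts

/-! ### The rational orthonormal basis -/

section Main

variable (N' : ℕ) [NeZero N'] {ℓ : ℕ} [Fact ℓ.Prime] (hℓN' : ¬ ℓ ∣ N')
  (A : ValuationSubring Kb) (hA : A.LiesOverPrime ℓ)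

include hℓN' hA in
/-- **Rational orthonormal basis with unit Gram determinant**, for a base function as in
`H85.basis_of_degree`. -/
theorem exists_rat_orth (X0 : LaurentSeries A) (x : FN N')
    (hx : (x : LaurentSeries Kb) = incA A X0)
    (hxk : redA A X0 ∈ modularFunctionFieldFullC (kA A) N')
    (htr : Transcendental (kA A) (redA A X0))
    (hfin : FiniteDimensional Kb⟮x⟯ (FN N'))
    (hdeg : Module.finrank Kb⟮x⟯ (FN N') ≤
      IntermediateField.relfinrank (IntermediateField.adjoin (kA A) {redA A X0})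
        (modularFunctionFieldFullC (kA A) N'))
    (hsep : ∀ y ∈ modularFunctionFieldFullC (kA A) N',
      IsSeparable (IntermediateField.adjoin (kA A) {redA A X0}) y) :
    ∃ θ : Fin (Module.finrank Kb⟮x⟯ (FN N')) → FN N',
      (∀ r : Fin (Module.finrank Kb⟮x⟯ (FN N')) → Kb⟮x⟯,
        (∑ i, (r i : FN N') * θ i) ∈ H66.gaussO A N' hA hℓN' ↔
          ∀ i, (r i : FN N') ∈ H66.gaussO A N' hA hℓN') ∧
      ((gramDet Kb (FN N') x θ : Kb⟮x⟯) : FN N')⁻¹ ∈ H66.gaussO A N' hA hℓN' ∧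
      LinearIndependent Kb⟮x⟯ θ ∧
      ∀ i, θ i ∈ Set.range (ratEmb N') := by
  have hφ : ∀ f : ↥(H66.gaussO A N' hA hℓN'),
      resPhi N' hℓN' A hA f = 0 ↔ (f : FN N') ∈ (H66.gaussO A N' hA hℓN').nonunits := by
    intro f
    rw [ValuationSubring.coe_mem_nonunits_iff, IsLocalRing.mem_maximalIdeal, mem_nonunits_iff,
      ← H66.gaussResO_eq_zero_iff A N' hA hℓN' f, resPhi_apply]
    constructor
    · intro h
      exact Subtype.ext h
    · intro h
      rw [h]
      rfl
  have hmem := H66.algebraMap_mem_gaussO_iff A N' hA hℓN'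
  obtain ⟨hxO, hφx⟩ := resPhi_integral N' hℓN' A hA X0 x hx
  have hφρ : ∀ (a : ↥A) (h : algebraMap Kb (FN N') (a : Kb) ∈ H66.gaussO A N' hA hℓN'),
      resPhi N' hℓN' A hA ⟨_, h⟩ = algebraMap (kA A) (LaurentSeries (kA A))
        (IsLocalRing.residue A a) := by
    intro a h
    obtain ⟨h', hres⟩ := resPhi_integral N' hℓN' A hA (HahnSeries.C a)
      (algebraMap Kb (FN N') (a : Kb)) (by
        change algebraMap Kb (LaurentSeries Kb) (a : Kb)
          = coeffMap A.subtype (HahnSeries.C a : LaurentSeries A)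
        rw [H66.coeffMap_C, H66.C_eq_algebraMap]
        rfl)
    rw [hres]
    change coeffMap (IsLocalRing.residue A) (HahnSeries.C a : LaurentSeries A) = _
    rw [H66.coeffMap_C, H66.C_eq_algebraMap]
  have hA' : A ≠ ⊤ := by
    rintro rfl
    have h1 : ((ℓ : ℕ) : Kb) ∈ (⊤ : ValuationSubring Kb).nonunits := hA
    rw [ValuationSubring.mem_nonunits_iff_or] at h1
    rcases h1 with h1 | h1
    · exact (Nat.cast_ne_zero.mpr (Fact.out : ℓ.Prime).ne_zero) h1
    · exact h1 (ValuationSubring.mem_top _)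
  have hscale := H66.exists_scale_gaussO A N' hA hℓN'
  rw [← hφx] at hxk htr hdeg hsep
  obtain ⟨t, ht_rat, ht⟩ := exists_rat_lifts N' hℓN' A hA x hxO hxk hdeg
  have hg := H85.gauss_of_transcendental A (H66.gaussO A N' hA hℓN') x (resPhi N' hℓN' A hA)
    (IsLocalRing.residue A) hφ hmem hxO hφρ htr
  obtain ⟨horth, hgram, hli⟩ := setup_basis_of_lifts A (H66.gaussO A N' hA hℓN') x
    (resPhi N' hℓN' A hA) (IsLocalRing.residue A) hφ IsLocalRing.residue_surjective hmem hxO hφρ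
    hg hA' hscale t ht (fun f => hsep _ (H66.gaussResO A N' hA hℓN' f).2)
  exact ⟨fun i => (t i : FN N'), horth, hgram, hli, ht_rat⟩

end Main

/-! ### Rational coordinates -/

section Span

/-- `K₀(x) ⊆ K(x)`. -/
theorem mem_adjoin_simple_of_mem {k K F : Type*} [Field k] [Field K] [Algebra k K] [Field F]
    [Algebra K F] (K₀ : IntermediateField k K) (x r : F) (hr : r ∈ K₀⟮x⟯) : r ∈ K⟮x⟯ := by
  obtain ⟨P', Q', hPQ⟩ := (IntermediateField.mem_adjoin_simple_iff K₀ r).1 hr
  rw [IntermediateField.mem_adjoin_simple_iff]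
  refine ⟨P'.map (algebraMap K₀ K), Q'.map (algebraMap K₀ K), ?_⟩
  rw [hPQ, Polynomial.aeval_map_algebraMap, Polynomial.aeval_map_algebraMap]

/-- **Rational coordinates.**  Let `θ` be a family of `μ` rational elements of `F_{N'}`, linearly
independent over `ℚ̄(x)` for a rational function `x = ratEmb x₀`, and suppose
`[F_{N',ℚ} : ℚ(x₀)] ≤ μ`.  Then every rational element of `F_{N'}` is a `K₀(x)`-linear combination
of `θ`, for every subfield `K₀` of `ℚ̄` (in particular for `K₀ = ℚ`). -/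
theorem rat_span (N' : ℕ) (x₀ : ↥(modularFunctionFieldFull N')) {μ : ℕ}
    (hpos : 0 < IntermediateField.relfinrank
      (IntermediateField.adjoin ℚ {(x₀ : LaurentSeries ℚ)}) (modularFunctionFieldFull N'))
    (hle : IntermediateField.relfinrank
      (IntermediateField.adjoin ℚ {(x₀ : LaurentSeries ℚ)}) (modularFunctionFieldFull N') ≤ μ)
    (θ : Fin μ → FN N') (hθ : ∀ i, θ i ∈ Set.range (ratEmb N'))
    (hli : LinearIndependent Kb⟮ratEmb N' x₀⟯ θ)
    (K₀ : IntermediateField ℚ Kb) (f : ↥(modularFunctionFieldFull N')) :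
    ratEmb N' f ∈ Submodule.span K₀⟮ratEmb N' x₀⟯ (Set.range θ) := by
  classical
  choose s hs using hθ
  have hE₀ : IntermediateField.adjoin ℚ {(x₀ : LaurentSeries ℚ)} ≤ modularFunctionFieldFull N' := by
    rw [IntermediateField.adjoin_le_iff, Set.singleton_subset_iff]
    exact x₀.2
  -- the coefficients, as elements of the rational function field
  let up : ↥(IntermediateField.adjoin ℚ {(x₀ : LaurentSeries ℚ)}) →
      ↥(modularFunctionFieldFull N') := fun c => ⟨(c : LaurentSeries ℚ), hE₀ c.2⟩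
  have hup : ∀ (c : ↥(IntermediateField.adjoin ℚ {(x₀ : LaurentSeries ℚ)}))
      (K₁ : IntermediateField ℚ Kb), ratEmb N' (up c) ∈ K₁⟮ratEmb N' x₀⟯ := fun c K₁ =>
    ratEmb_mem_adjoin_simple N' K₁ x₀ (up c) c.2
  have hsum : ∀ c : Fin μ → ↥(IntermediateField.adjoin ℚ {(x₀ : LaurentSeries ℚ)}),
      (((∑ i, up (c i) * s i : ↥(modularFunctionFieldFull N')) :
        ↥(modularFunctionFieldFull N')) : LaurentSeries ℚ)
        = ∑ i, c i • ((s i : ↥(modularFunctionFieldFull N')) : LaurentSeries ℚ) := by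
    intro c
    have h := map_sum (algebraMap ↥(modularFunctionFieldFull N') (LaurentSeries ℚ))
      (fun i => up (c i) * s i) Finset.univ
    exact h
  -- linear independence over `ℚ(x₀)`
  have hli₀ : LinearIndependent ↥(IntermediateField.adjoin ℚ {(x₀ : LaurentSeries ℚ)})
      (fun i => ((s i : ↥(modularFunctionFieldFull N')) : LaurentSeries ℚ)) := by
    rw [Fintype.linearIndependent_iff]
    intro c hc i
    have h0 : (∑ j, up (c j) * s j : ↥(modularFunctionFieldFull N')) = 0 := by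
      apply Subtype.ext
      rw [hsum c, hc]
      rfl
    have h1 : ∑ j, (⟨ratEmb N' (up (c j)),
        mem_adjoin_simple_of_mem (⊥ : IntermediateField ℚ Kb) _ _ (hup (c j) ⊥)⟩ :
          Kb⟮ratEmb N' x₀⟯) • θ j = 0 := by
      have h2 := congrArg (ratEmb N') h0
      rw [map_sum, map_zero] at h2
      rw [← h2]
      refine Finset.sum_congr rfl fun j _ => ?_
      rw [map_mul, hs j]
      rfl
    have h3 := Fintype.linearIndependent_iff.1 hli _ h1 i
    have h4 : ratEmb N' (up (c i)) = 0 := congrArg Subtype.val h3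
    have h5 : up (c i) = 0 := ratEmb_injective N' (by rw [h4, map_zero])
    apply Subtype.ext
    exact congrArg (fun z : ↥(modularFunctionFieldFull N') => (z : LaurentSeries ℚ)) h5
  -- the span over `ℚ(x₀)` is the whole rational function field
  let W : Submodule ↥(IntermediateField.adjoin ℚ {(x₀ : LaurentSeries ℚ)}) (LaurentSeries ℚ) :=
    Subalgebra.toSubmodule (IntermediateField.extendScalars hE₀).toSubalgebra
  have hWmem : ∀ g : LaurentSeries ℚ, g ∈ W ↔ g ∈ modularFunctionFieldFull N' := fun g => Iff.rfl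
  have hWrank : Module.finrank ↥(IntermediateField.adjoin ℚ {(x₀ : LaurentSeries ℚ)}) ↥W
      = IntermediateField.relfinrank
        (IntermediateField.adjoin ℚ {(x₀ : LaurentSeries ℚ)}) (modularFunctionFieldFull N') := by
    rw [IntermediateField.relfinrank_eq_finrank_of_le hE₀]
    rfl
  have hWfin : FiniteDimensional ↥(IntermediateField.adjoin ℚ {(x₀ : LaurentSeries ℚ)}) ↥W :=
    Module.finite_of_finrank_pos (by rw [hWrank]; exact hpos)
  have hspan := span_eq_of_linearIndependent_of_finrank_le W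
    (fun i => ((s i : ↥(modularFunctionFieldFull N')) : LaurentSeries ℚ))
    (fun i => (hWmem _).2 (s i).2) hli₀ (by rw [hWrank]; exact hle)
  have hf : (f : LaurentSeries ℚ) ∈ Submodule.span
      ↥(IntermediateField.adjoin ℚ {(x₀ : LaurentSeries ℚ)})
      (Set.range fun i => ((s i : ↥(modularFunctionFieldFull N')) : LaurentSeries ℚ)) := by
    rw [hspan]
    exact (hWmem _).2 f.2
  obtain ⟨c, hc⟩ := (Submodule.mem_span_range_iff_exists_fun _).1 hf
  have hf' : f = ∑ i, up (c i) * s i := by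
    apply Subtype.ext
    rw [hsum c, hc]
  rw [hf', map_sum]
  refine Submodule.sum_mem _ fun i _ => ?_
  rw [map_mul, hs i]
  have h6 : ratEmb N' (up (c i)) * θ i
      = (⟨ratEmb N' (up (c i)), hup (c i) K₀⟩ : K₀⟮ratEmb N' x₀⟯) • θ i := rfl
  rw [h6]
  exact Submodule.smul_mem _ _ (Submodule.subset_span ⟨i, rfl⟩)

end Span

/-! ### The top function `j(q^{N'})` -/

section Top

variable (N' : ℕ) [NeZero N'] {ℓ : ℕ} [Fact ℓ.Prime] (hℓN' : ¬ ℓ ∣ N')
  (A : ValuationSubring Kb) (hA : A.LiesOverPrime ℓ)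

/-- `j(q^{N'})` as an element of the rational function field. -/
def jqNFull : ↥(modularFunctionFieldFull N') := ⟨qExpand ℚ N' jq, jqd_mem_full N' dvd_rfl⟩

theorem ratEmb_jqNFull : ratEmb N' (jqNFull N') = jtop N' := rfl

/-- **(U1) for the top function**: an orthonormal `ℚ̄(j(q^{N'}))`-basis `θ` of `F_{N'}` with unit
Gram determinant, consisting of RATIONAL functions, such that every rational function is a
`K₀(j(q^{N'}))`-combination of `θ` for every subfield `K₀` of `ℚ̄` (e.g. `K₀ = ⊥ = ℚ`); in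
particular `1` and the products `θ i * θ j` are. -/
theorem exists_rat_basis_top :
    ∃ θ : Fin (Module.finrank Kb⟮jtop N'⟯ (FN N')) → FN N',
      (∀ r : Fin (Module.finrank Kb⟮jtop N'⟯ (FN N')) → Kb⟮jtop N'⟯,
        (∑ i, (r i : FN N') * θ i) ∈ H66.gaussO A N' hA hℓN' ↔
          ∀ i, (r i : FN N') ∈ H66.gaussO A N' hA hℓN') ∧
      ((gramDet Kb (FN N') (jtop N') θ : Kb⟮jtop N'⟯) : FN N')⁻¹ ∈ H66.gaussO A N' hA hℓN' ∧
      (∀ i, θ i ∈ Set.range (ratEmb N')) ∧
      (∀ (K₀ : IntermediateField ℚ Kb) (f : ↥(modularFunctionFieldFull N')),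
        ratEmb N' f ∈ Submodule.span K₀⟮jtop N'⟯ (Set.range θ)) ∧
      (∀ K₀ : IntermediateField ℚ Kb,
        (1 : FN N') ∈ Submodule.span K₀⟮jtop N'⟯ (Set.range θ)) ∧
      ∀ (K₀ : IntermediateField ℚ Kb) (i j : Fin (Module.finrank Kb⟮jtop N'⟯ (FN N'))),
        θ i * θ j ∈ Submodule.span K₀⟮jtop N'⟯ (Set.range θ) := by
  have hfin := finite_top N'
  obtain ⟨θ, horth, hgram, hli, hrat⟩ := exists_rat_orth N' hℓN' A hA (jA A N') (jtop N')
    (incA_jA A N').symm (by rw [redA_jA]; exact jqModCd_mem_full (kA A) N' dvd_rfl)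
    (by rw [redA_jA]; exact transcendental_jqNModC (kA A) N') hfin
    (by rw [redA_jA]; exact (finrank_top_le N').trans (psi_le_relfinrank_kA N' hℓN' A hA))
    (by rw [redA_jA]; exact separable_kA N' hℓN' A hA)
  obtain ⟨hpos, hle⟩ :=
    Fermat.Agent.S28.relfinrank_le_dedekindPsi Fermat.Agent.S28.H23.hasModPolys N'
  have hspan : ∀ (K₀ : IntermediateField ℚ Kb) (f : ↥(modularFunctionFieldFull N')),
      ratEmb N' f ∈ Submodule.span K₀⟮jtop N'⟯ (Set.range θ) := fun K₀ f =>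
    rat_span N' (jqNFull N') hpos (hle.trans (finrank_top N').ge) θ hrat hli K₀ f
  refine ⟨θ, horth, hgram, hrat, hspan, fun K₀ => ?_, fun K₀ i j => ?_⟩
  · have h := hspan K₀ 1
    rwa [map_one] at h
  · obtain ⟨si, hsi⟩ := hrat i
    obtain ⟨sj, hsj⟩ := hrat j
    have h := hspan K₀ (si * sj)
    rwa [map_mul, hsi, hsj] at h

include hℓN' hA in
/-- The abstract setup of Theorem D for the Gauss ring `gaussO` and the top function (`ℓ ≥ 5`). -/
theorem setup_top (h2 : ℓ ≠ 2) (h3 : ℓ ≠ 3) :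
    Setup Kb A (FN N') (H66.gaussO A N' hA hℓN') (jtop N') := by
  obtain ⟨O, hO, hscale⟩ := exists_isGaussRing N' hℓN' A hA
  obtain rfl := H85.eq_gaussO N' hℓN' A hA O hO
  obtain ⟨hAtop, -, -, -⟩ := Fermat.Agent.S18.H60.unit_facts A hA 1 (by
    intro h
    exact (Fact.out : ℓ.Prime).one_lt.ne' (Nat.dvd_one.mp h))
  exact setup_of_base N' hℓN' A hA hAtop _ hO hscale (jA A N') (jtop N')
    (incA_jA A N').symm (by rw [redA_jA]; exact jqModCd_mem_full (kA A) N' dvd_rfl)
    (by rw [redA_jA]; exact transcendental_jqNModC (kA A) N') (finite_top N')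
    (by rw [redA_jA]; exact (finrank_top_le N').trans (psi_le_relfinrank_kA N' hℓN' A hA))
    (by rw [redA_jA]; exact separable_kA N' hℓN' A hA)
    (branchOK_top N' A (two_inv_mem A hA h2) (three_inv_mem A hA h3))

end Top

end Fermat.Agent.S34.H19
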