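/-
S34 / Program B', leaf L6 (helper19): LINEAR DISJOINTNESS of the rational function field
`F_{N',ℚ}` and `ℚ̄(x)` over `ℚ(x)`, for any transcendental rational function `x = ratEmb x₀`:
rational functions that are linearly independent over `ℚ(x₀)` stay linearly independent over
`ℚ̄(x)`  (`linearIndependent_ratEmb`).  Consequence (`rat_span_of_finrank`): a `ℚ̄(x)`-basis of
`F_{N'}` consisting of rational functions spans `F_{N',ℚ}` over `K₀(x)` for every `K₀ ⊆ ℚ̄` —
with no degree computation, so it applies to every rational base function (top function,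
Hauptmoduln of levels two and three).
-/
import Mathlib
import Fermat.Agent.S34.H19.RatBasis

set_option autoImplicit false

open AlgebraicCurve IntermediateField ModularCurve

noncomputable section

namespace Fermat.Agent.S34.H19

open Fermat.Agent.S18.H74 Fermat.Agent.S18.H28 Fermat.Agent.S18

section Coeff

/-- A `ℚ`-linear functional applied to the coefficients of `c · g`, `g` rational. -/
theorem lam_coeff_mul (lam : Kb →ₗ[ℚ] ℚ) (c : Kb) (g : LaurentSeries ℚ) (k : ℤ) :
    lam ((algebraMap Kb (LaurentSeries Kb) c * coeffEmb Kb g).coeff k) = lam c * g.coeff k := by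
  rw [algebraMap_laurentSeries_eq_single, ← HahnSeries.C_apply, HahnSeries.C_mul_eq_smul,
    HahnSeries.coeff_smul, coeffEmb_coeff, smul_eq_mul, mul_comm, ← Algebra.smul_def, map_smul,
    smul_eq_mul, mul_comm]

theorem rat_coeff_mul (a : ℚ) (g : LaurentSeries ℚ) (k : ℤ) :
    (algebraMap ℚ (LaurentSeries ℚ) a * g).coeff k = a * g.coeff k := by
  rw [algebraMap_laurentSeries_eq_single, ← HahnSeries.C_apply, HahnSeries.C_mul_eq_smul,
    HahnSeries.coeff_smul, smul_eq_mul]

/-- A `ℚ`-linear functional applied to the coefficients of a polynomial. -/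
def lamPoly (lam : Kb →ₗ[ℚ] ℚ) (R : Polynomial Kb) : Polynomial ℚ :=
  ∑ d ∈ R.support, Polynomial.monomial d (lam (R.coeff d))

theorem lamPoly_coeff (lam : Kb →ₗ[ℚ] ℚ) (R : Polynomial Kb) (d : ℕ) :
    (lamPoly lam R).coeff d = lam (R.coeff d) := by
  classical
  rw [lamPoly, Polynomial.finsetSum_coeff]
  simp only [Polynomial.coeff_monomial]
  rw [Finset.sum_ite_eq' R.support d]
  split_ifs with h
  · rfl
  · rw [Polynomial.notMem_support_iff.mp h, map_zero]

/-- The key computation: a `ℚ̄[x]`-linear relation between rational series gives, for every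
`ℚ`-linear functional `lam` on `ℚ̄`, a `ℚ[x₀]`-linear relation. -/
theorem lam_sum_eq_zero (lam : Kb →ₗ[ℚ] ℚ) (x₀ : LaurentSeries ℚ) {n : ℕ}
    (s : Fin n → LaurentSeries ℚ) (R : Fin n → Polynomial Kb)
    (h : ∑ i, Polynomial.aeval (coeffEmb Kb x₀) (R i) * coeffEmb Kb (s i) = 0) :
    ∑ i, Polynomial.aeval x₀ (lamPoly lam (R i)) * s i = 0 := by
  have e1 : ∀ i, Polynomial.aeval (coeffEmb Kb x₀) (R i) * coeffEmb Kb (s i)
      = ∑ d ∈ (R i).support,
          algebraMap Kb (LaurentSeries Kb) ((R i).coeff d) * coeffEmb Kb (x₀ ^ d * s i) := by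
    intro i
    rw [Polynomial.aeval_def, Polynomial.eval₂_eq_sum, Polynomial.sum_def, Finset.sum_mul]
    refine Finset.sum_congr rfl fun d _ => ?_
    rw [map_mul, map_pow, mul_assoc]
  have e2 : ∀ i, Polynomial.aeval x₀ (lamPoly lam (R i)) * s i
      = ∑ d ∈ (R i).support,
          algebraMap ℚ (LaurentSeries ℚ) (lam ((R i).coeff d)) * (x₀ ^ d * s i) := by
    intro i
    rw [lamPoly, map_sum, Finset.sum_mul]
    refine Finset.sum_congr rfl fun d _ => ?_
    rw [Polynomial.aeval_monomial, mul_assoc]
  simp only [e1] at h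
  simp only [e2]
  ext k
  have hk := congrArg (fun y : LaurentSeries Kb => lam (y.coeff k)) h
  simp only [HahnSeries.coeff_sum, map_sum, lam_coeff_mul, HahnSeries.coeff_zero, map_zero] at hk
  simp only [HahnSeries.coeff_sum, rat_coeff_mul, HahnSeries.coeff_zero]
  exact hk

end Coeff

section LD

/-- Ring homomorphisms commuting with the structure maps commute with `aeval`. -/
theorem ringHom_aeval_of_comp {A R S : Type*} [CommRing A] [CommRing R] [CommRing S]
    [Algebra A R] [Algebra A S] (f : R →+* S) (hf : f.comp (algebraMap A R) = algebraMap A S)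
    (y : R) (P : Polynomial A) : f (Polynomial.aeval y P) = Polynomial.aeval (f y) P := by
  rw [Polynomial.aeval_def, Polynomial.aeval_def, Polynomial.hom_eval₂, hf]

open scoped IntermediateField.algebraAdjoinAdjoin in
/-- **Linear disjointness.**  Rational functions of level `N'` which are linearly independent over
`ℚ(x₀)` (`x₀` a transcendental rational function) are linearly independent over `ℚ̄(x)`,
`x = ratEmb x₀`. -/
theorem linearIndependent_ratEmb (N' : ℕ) (x₀ : ↥(modularFunctionFieldFull N'))
    (hx₀ : Transcendental ℚ (x₀ : LaurentSeries ℚ)) {n : ℕ}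
    (s : Fin n → ↥(modularFunctionFieldFull N'))
    (hs : LinearIndependent ↥(IntermediateField.adjoin ℚ {(x₀ : LaurentSeries ℚ)})
      (fun i => ((s i : ↥(modularFunctionFieldFull N')) : LaurentSeries ℚ))) :
    LinearIndependent Kb⟮ratEmb N' x₀⟯ (fun i => ratEmb N' (s i)) := by
  have h0 : LinearIndependent ↥(Algebra.adjoin Kb {ratEmb N' x₀})
      (fun i => ratEmb N' (s i)) := by
    rw [Fintype.linearIndependent_iff]
    intro a ha i
    have hR' : ∀ z ∈ Algebra.adjoin Kb {ratEmb N' x₀}, ∃ R : Polynomial Kb,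
        Polynomial.aeval (ratEmb N' x₀) R = z := by
      intro z hz
      rw [Algebra.adjoin_singleton_eq_range_aeval] at hz
      exact hz
    have hR : ∀ j, ∃ R : Polynomial Kb,
        Polynomial.aeval (ratEmb N' x₀) R = (a j : FN N') := fun j => hR' _ (a j).2
    choose R hR using hR
    -- the relation, as an identity of Laurent series over `ℚ̄`
    have hrel : ∑ j, Polynomial.aeval (coeffEmb Kb (x₀ : LaurentSeries ℚ)) (R j) *
        coeffEmb Kb ((s j : ↥(modularFunctionFieldFull N')) : LaurentSeries ℚ) = 0 := by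
      have h1 := congrArg (fun z : FN N' => (z : LaurentSeries Kb)) ha
      have h2 : ((∑ j, a j • ratEmb N' (s j) : FN N') : LaurentSeries Kb)
          = ∑ j, (((a j : FN N') : LaurentSeries Kb)) *
              ((ratEmb N' (s j) : FN N') : LaurentSeries Kb) :=
        map_sum (algebraMap (FN N') (LaurentSeries Kb)) (fun j => a j • ratEmb N' (s j))
          Finset.univ
      have h3 : (∑ j, (((a j : FN N') : LaurentSeries Kb)) *
              ((ratEmb N' (s j) : FN N') : LaurentSeries Kb)) = 0 := h2.symm.trans h1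
      rw [← h3]
      refine Finset.sum_congr rfl fun j _ => ?_
      rw [← hR j, coe_ratEmb]
      congr 1
      exact (ringHom_aeval_of_comp (A := Kb) (algebraMap (FN N') (LaurentSeries Kb)) rfl
        (ratEmb N' x₀) (R j)).symm
    -- every functional kills `R j`
    have hzero : ∀ j, R j = 0 := by
      intro j
      ext d
      rw [Polynomial.coeff_zero, ← Module.forall_dual_apply_eq_zero_iff ℚ]
      intro lam
      have h2 := lam_sum_eq_zero lam (x₀ : LaurentSeries ℚ)
        (fun j => ((s j : ↥(modularFunctionFieldFull N')) : LaurentSeries ℚ)) R hrel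
      have h3 := Fintype.linearIndependent_iff.1 hs
        (fun j => ⟨Polynomial.aeval (x₀ : LaurentSeries ℚ) (lamPoly lam (R j)),
          H85.aeval_mem_adjoin_simple _ _⟩) h2 j
      have h4 : Polynomial.aeval (x₀ : LaurentSeries ℚ) (lamPoly lam (R j)) = 0 :=
        congrArg Subtype.val h3
      have h5 := (transcendental_iff.1 hx₀) _ h4
      have h6 := congrArg (fun P : Polynomial ℚ => P.coeff d) h5
      simp only [lamPoly_coeff, Polynomial.coeff_zero] at h6
      exact h6
    apply Subtype.ext
    rw [← hR i, hzero i, map_zero]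
    rfl
  exact h0.localization Kb⟮ratEmb N' x₀⟯ (nonZeroDivisors _)

/-- Conversely (easy direction): rational functions whose images are `ℚ̄(x)`-independent are
`ℚ(x₀)`-independent. -/
theorem linearIndependent_of_ratEmb (N' : ℕ) (x₀ : ↥(modularFunctionFieldFull N')) {n : ℕ}
    (s : Fin n → ↥(modularFunctionFieldFull N'))
    (hli : LinearIndependent Kb⟮ratEmb N' x₀⟯ (fun i => ratEmb N' (s i))) :
    LinearIndependent ↥(IntermediateField.adjoin ℚ {(x₀ : LaurentSeries ℚ)})
      (fun i => ((s i : ↥(modularFunctionFieldFull N')) : LaurentSeries ℚ)) := by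
  have hE₀ : IntermediateField.adjoin ℚ {(x₀ : LaurentSeries ℚ)} ≤ modularFunctionFieldFull N' := by
    rw [IntermediateField.adjoin_le_iff, Set.singleton_subset_iff]
    exact x₀.2
  let up : ↥(IntermediateField.adjoin ℚ {(x₀ : LaurentSeries ℚ)}) →
      ↥(modularFunctionFieldFull N') := fun c => ⟨(c : LaurentSeries ℚ), hE₀ c.2⟩
  rw [Fintype.linearIndependent_iff]
  intro c hc i
  have h0 : (∑ j, up (c j) * s j : ↥(modularFunctionFieldFull N')) = 0 := by
    apply Subtype.ext
    have h := map_sum (algebraMap ↥(modularFunctionFieldFull N') (LaurentSeries ℚ))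
      (fun i => up (c i) * s i) Finset.univ
    exact h.trans hc
  have h1 : ∑ j, (⟨ratEmb N' (up (c j)),
      mem_adjoin_simple_of_mem (⊥ : IntermediateField ℚ Kb) _ _
        (ratEmb_mem_adjoin_simple N' ⊥ x₀ (up (c j)) (c j).2)⟩ :
        Kb⟮ratEmb N' x₀⟯) • ratEmb N' (s j) = 0 := by
    have h2 := congrArg (ratEmb N') h0
    rw [map_sum, map_zero] at h2
    rw [← h2]
    refine Finset.sum_congr rfl fun j _ => ?_
    rw [map_mul]
    rfl
  have h3 := Fintype.linearIndependent_iff.1 hli _ h1 i
  have h4 : ratEmb N' (up (c i)) = 0 := congrArg Subtype.val h3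
  have h5 : up (c i) = 0 := ratEmb_injective N' (by rw [h4, map_zero])
  apply Subtype.ext
  exact congrArg (fun z : ↥(modularFunctionFieldFull N') => (z : LaurentSeries ℚ)) h5

/-- A `ℚ(x₀)`-combination of rational functions maps to a `K₀(x)`-combination, for every `K₀`. -/
theorem ratEmb_mem_span_of_mem_span (N' : ℕ) (x₀ : ↥(modularFunctionFieldFull N')) {n : ℕ}
    (s : Fin n → ↥(modularFunctionFieldFull N')) (K₀ : IntermediateField ℚ Kb)
    (f : ↥(modularFunctionFieldFull N'))
    (hf : (f : LaurentSeries ℚ) ∈ Submodule.span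
      ↥(IntermediateField.adjoin ℚ {(x₀ : LaurentSeries ℚ)})
      (Set.range fun i => ((s i : ↥(modularFunctionFieldFull N')) : LaurentSeries ℚ))) :
    ratEmb N' f ∈ Submodule.span K₀⟮ratEmb N' x₀⟯ (Set.range fun i => ratEmb N' (s i)) := by
  have hE₀ : IntermediateField.adjoin ℚ {(x₀ : LaurentSeries ℚ)} ≤ modularFunctionFieldFull N' := by
    rw [IntermediateField.adjoin_le_iff, Set.singleton_subset_iff]
    exact x₀.2
  let up : ↥(IntermediateField.adjoin ℚ {(x₀ : LaurentSeries ℚ)}) →
      ↥(modularFunctionFieldFull N') := fun c => ⟨(c : LaurentSeries ℚ), hE₀ c.2⟩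
  obtain ⟨c, hc⟩ := (Submodule.mem_span_range_iff_exists_fun _).1 hf
  have hf' : f = ∑ i, up (c i) * s i := by
    apply Subtype.ext
    have h := map_sum (algebraMap ↥(modularFunctionFieldFull N') (LaurentSeries ℚ))
      (fun i => up (c i) * s i) Finset.univ
    exact hc.symm.trans h.symm
  rw [hf', map_sum]
  refine Submodule.sum_mem _ fun i _ => ?_
  rw [map_mul]
  have h6 : ratEmb N' (up (c i)) * ratEmb N' (s i)
      = (⟨ratEmb N' (up (c i)), ratEmb_mem_adjoin_simple N' K₀ x₀ (up (c i)) (c i).2⟩ :
          K₀⟮ratEmb N' x₀⟯) • ratEmb N' (s i) := rfl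
  rw [h6]
  exact Submodule.smul_mem _ _ (Submodule.subset_span ⟨i, rfl⟩)

/-- **Rational coordinates, without degree hypotheses.**  Let `x = ratEmb x₀` be a transcendental
rational function with `F_{N'}/ℚ̄(x)` finite, and `θ` a family of `[F_{N'} : ℚ̄(x)]` rational
functions, linearly independent over `ℚ̄(x)`.  Then every rational function is a
`K₀(x)`-combination of `θ`, for every subfield `K₀` of `ℚ̄`. -/
theorem rat_span_of_finrank (N' : ℕ) (x₀ : ↥(modularFunctionFieldFull N'))
    (hx₀ : Transcendental ℚ (x₀ : LaurentSeries ℚ))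
    [FiniteDimensional Kb⟮ratEmb N' x₀⟯ (FN N')]
    (θ : Fin (Module.finrank Kb⟮ratEmb N' x₀⟯ (FN N')) → FN N')
    (hθ : ∀ i, θ i ∈ Set.range (ratEmb N'))
    (hli : LinearIndependent Kb⟮ratEmb N' x₀⟯ θ)
    (K₀ : IntermediateField ℚ Kb) (f : ↥(modularFunctionFieldFull N')) :
    ratEmb N' f ∈ Submodule.span K₀⟮ratEmb N' x₀⟯ (Set.range θ) := by
  classical
  choose s hs using hθ
  obtain rfl : (fun i => ratEmb N' (s i)) = θ := funext hs
  have hli₀ := linearIndependent_of_ratEmb N' x₀ s hli
  refine ratEmb_mem_span_of_mem_span N' x₀ s K₀ f ?_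
  by_contra hf
  have h1 : LinearIndependent ↥(IntermediateField.adjoin ℚ {(x₀ : LaurentSeries ℚ)})
      (Fin.snoc (fun i => ((s i : ↥(modularFunctionFieldFull N')) : LaurentSeries ℚ))
        (f : LaurentSeries ℚ) : Fin (Module.finrank Kb⟮ratEmb N' x₀⟯ (FN N') + 1) →
          LaurentSeries ℚ) :=
    linearIndependent_finSnoc.2 ⟨hli₀, hf⟩
  have h2 : (Fin.snoc (fun i => ((s i : ↥(modularFunctionFieldFull N')) : LaurentSeries ℚ))
        (f : LaurentSeries ℚ) : Fin (Module.finrank Kb⟮ratEmb N' x₀⟯ (FN N') + 1) →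
          LaurentSeries ℚ)
      = fun i => (((Fin.snoc s f : Fin (Module.finrank Kb⟮ratEmb N' x₀⟯ (FN N') + 1) →
          ↥(modularFunctionFieldFull N')) i : ↥(modularFunctionFieldFull N')) :
            LaurentSeries ℚ) := by
    funext i
    refine Fin.lastCases ?_ (fun j => ?_) i
    · simp only [Fin.snoc_last]
    · simp only [Fin.snoc_castSucc]
  rw [h2] at h1
  have h3 := linearIndependent_ratEmb N' x₀ hx₀ _ h1
  have h4 := h3.fintype_card_le_finrank
  rw [Fintype.card_fin] at h4
  omega

end LD

end Fermat.Agent.S34.H19
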