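/-
S34 / Program B', leaf L6-HAUPT (helper19): the rational setup for a GENERAL rational base
function, and its instances for the Hauptmoduln of levels two and three (the charts used at the
primes `ℓ = 3`, resp. `ℓ = 2`, where the `j`-line has two congruent branch points).

* `exists_rat_basis_of_base` : for a rational base function `x = ratEmb x₀` with the degree and
  separability data of `H85.basis_of_degree`: an orthonormal `ℚ̄(x)`-basis `θ` of `F_{N'}` with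
  unit Gram determinant, consisting of rational functions, spanning the rational function field
  over `K₀(x)` for every `K₀ ⊆ ℚ̄`; in particular `1`, `θ i * θ j ∈ span_{K₀(x)} θ`.
* `setup_of_base_gaussO` : `H74.Setup` for the EXPLICIT Gauss ring `gaussO` and base function.
* `hauptTwo`, `hauptThree` : the Hauptmoduln as explicit rational elements of `F_{N'}`;
  `exists_rat_basis_haupt_two/three`, `setup_haupt_two/three`, `dsetup_branch_haupt_two/three`
  (the two `branch` fields of `H19.DSetup` over every `K₀`, with rational branch sets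
  `{0, -64}`, `{0, -1/64}`, resp. `{0, -27}`, `{0, -1/27}`).
-/
import Mathlib
import Fermat.Agent.S34.H19.RatLD
import Fermat.Agent.S34.H19.RatBranch

set_option autoImplicit false

open AlgebraicCurve IntermediateField ModularCurve Polynomial

noncomputable section

namespace Fermat.Agent.S34.H19

open Fermat.Agent.S18.H74 Fermat.Agent.S18.H28 Fermat.Agent.S18

/-! ### A general rational base function -/

section General

variable (N' : ℕ) [NeZero N'] {ℓ : ℕ} [Fact ℓ.Prime] (hℓN' : ¬ ℓ ∣ N')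
  (A : ValuationSubring Kb) (hA : A.LiesOverPrime ℓ)

include hℓN' hA in
/-- **Rational orthonormal basis for a rational base function.** -/
theorem exists_rat_basis_of_base (X0 : LaurentSeries A) (x₀ : ↥(modularFunctionFieldFull N'))
    (hx : ((ratEmb N' x₀ : FN N') : LaurentSeries Kb) = incA A X0)
    (hx₀ : Transcendental ℚ (x₀ : LaurentSeries ℚ))
    (hxk : redA A X0 ∈ modularFunctionFieldFullC (kA A) N')
    (htr : Transcendental (kA A) (redA A X0))
    (hfin : FiniteDimensional Kb⟮ratEmb N' x₀⟯ (FN N'))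
    (hdeg : Module.finrank Kb⟮ratEmb N' x₀⟯ (FN N') ≤
      IntermediateField.relfinrank (IntermediateField.adjoin (kA A) {redA A X0})
        (modularFunctionFieldFullC (kA A) N'))
    (hsep : ∀ y ∈ modularFunctionFieldFullC (kA A) N',
      IsSeparable (IntermediateField.adjoin (kA A) {redA A X0}) y) :
    ∃ θ : Fin (Module.finrank Kb⟮ratEmb N' x₀⟯ (FN N')) → FN N',
      (∀ r : Fin (Module.finrank Kb⟮ratEmb N' x₀⟯ (FN N')) → Kb⟮ratEmb N' x₀⟯,
        (∑ i, (r i : FN N') * θ i) ∈ H66.gaussO A N' hA hℓN' ↔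
          ∀ i, (r i : FN N') ∈ H66.gaussO A N' hA hℓN') ∧
      ((gramDet Kb (FN N') (ratEmb N' x₀) θ : Kb⟮ratEmb N' x₀⟯) : FN N')⁻¹ ∈
        H66.gaussO A N' hA hℓN' ∧
      (∀ i, θ i ∈ Set.range (ratEmb N')) ∧
      (∀ (K₀ : IntermediateField ℚ Kb) (f : ↥(modularFunctionFieldFull N')),
        ratEmb N' f ∈ Submodule.span K₀⟮ratEmb N' x₀⟯ (Set.range θ)) ∧
      (∀ K₀ : IntermediateField ℚ Kb,
        (1 : FN N') ∈ Submodule.span K₀⟮ratEmb N' x₀⟯ (Set.range θ)) ∧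
      ∀ (K₀ : IntermediateField ℚ Kb) (i j : Fin (Module.finrank Kb⟮ratEmb N' x₀⟯ (FN N'))),
        θ i * θ j ∈ Submodule.span K₀⟮ratEmb N' x₀⟯ (Set.range θ) := by
  obtain ⟨θ, horth, hgram, hli, hrat⟩ := exists_rat_orth N' hℓN' A hA X0 (ratEmb N' x₀)
    hx hxk htr hfin hdeg hsep
  have hspan : ∀ (K₀ : IntermediateField ℚ Kb) (f : ↥(modularFunctionFieldFull N')),
      ratEmb N' f ∈ Submodule.span K₀⟮ratEmb N' x₀⟯ (Set.range θ) := fun K₀ f =>
    rat_span_of_finrank N' x₀ hx₀ θ hrat hli K₀ f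
  refine ⟨θ, horth, hgram, hrat, hspan, fun K₀ => ?_, fun K₀ i j => ?_⟩
  · have h := hspan K₀ 1
    rwa [map_one] at h
  · obtain ⟨si, hsi⟩ := hrat i
    obtain ⟨sj, hsj⟩ := hrat j
    have h := hspan K₀ (si * sj)
    rwa [map_mul, hsi, hsj] at h

include hℓN' hA in
/-- `H74.Setup` for the explicit Gauss ring `gaussO` and an explicit base function. -/
theorem setup_of_base_gaussO (X0 : LaurentSeries A) (x : FN N')
    (hx : (x : LaurentSeries Kb) = incA A X0)
    (hxk : redA A X0 ∈ modularFunctionFieldFullC (kA A) N')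
    (htr : Transcendental (kA A) (redA A X0))
    (hfin : FiniteDimensional Kb⟮x⟯ (FN N'))
    (hdeg : Module.finrank Kb⟮x⟯ (FN N') ≤
      IntermediateField.relfinrank (IntermediateField.adjoin (kA A) {redA A X0})
        (modularFunctionFieldFullC (kA A) N'))
    (hsep : ∀ y ∈ modularFunctionFieldFullC (kA A) N',
      IsSeparable (IntermediateField.adjoin (kA A) {redA A X0}) y)
    (hbr : BranchOK A x) :
    Setup Kb A (FN N') (H66.gaussO A N' hA hℓN') x := by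
  obtain ⟨O, hO, hscale⟩ := exists_isGaussRing N' hℓN' A hA
  obtain rfl := H85.eq_gaussO N' hℓN' A hA O hO
  obtain ⟨hAtop, -, -, -⟩ := Fermat.Agent.S18.H60.unit_facts A hA 1 (by
    intro h
    exact (Fact.out : ℓ.Prime).one_lt.ne' (Nat.dvd_one.mp h))
  exact setup_of_base N' hℓN' A hA hAtop _ hO hscale X0 x hx hxk htr hfin hdeg hsep hbr

end General

/-! ### Rational branch sets `{0, a}` -/

section BranchPair

variable {K F : Type*} [Field K] [Field F] [Algebra K F] (A : ValuationSubring K)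

/-- A branch statement off `{0, a}` with `a` a unit of `A` lying in the prime field. -/
theorem branch_rat_pair {x : F} (a : K) (haA : a ∈ A) (haI : a⁻¹ ∈ A)
    (haL : ∀ L : Subfield K, a ∈ L)
    (hbr : ∀ (P : Place K F) (c : K), c ≠ 0 → c ≠ a →
      0 < P.ord (x - algebraMap K F c) → P.ord (x - algebraMap K F c) = 1) :
    ∃ S : Finset K, (∀ c ∈ S, c ∈ A) ∧
      (∀ c ∈ S, ∀ c' ∈ S, c ≠ c' → (c - c')⁻¹ ∈ A) ∧
      (∀ (P : Place K F) (c : K), c ∉ S →
        0 < P.ord (x - algebraMap K F c) → P.ord (x - algebraMap K F c) = 1) ∧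
      ∀ c ∈ S, ∀ L : Subfield K, c ∈ L := by
  classical
  refine ⟨{0, a}, ?_, ?_, ?_, ?_⟩
  · intro c hc
    simp only [Finset.mem_insert, Finset.mem_singleton] at hc
    rcases hc with rfl | rfl
    · exact A.zero_mem
    · exact haA
  · intro c hc c' hc' hne
    simp only [Finset.mem_insert, Finset.mem_singleton] at hc hc'
    rcases hc with rfl | rfl <;> rcases hc' with rfl | rfl
    · exact absurd rfl hne
    · rw [zero_sub, inv_neg]; exact A.neg_mem _ haI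
    · rw [sub_zero]; exact haI
    · exact absurd rfl hne
  · intro P c hc h
    simp only [Finset.mem_insert, Finset.mem_singleton, not_or] at hc
    exact hbr P c hc.1 hc.2 h
  · intro c hc L
    simp only [Finset.mem_insert, Finset.mem_singleton] at hc
    rcases hc with rfl | rfl
    · exact L.zero_mem
    · exact haL L

end BranchPair

/-! ### The Hauptmodul of level two (`ℓ ≠ 2`; used for `ℓ = 3`) -/

section Two

variable (n N' : ℕ) [NeZero n] [NeZero N'] (hN' : N' = n * 2)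

/-- The Hauptmodul of `X₀(2)` in the variable `qⁿ`, as a rational function of level `N' = 2n`. -/
def hauptTwoRat : ↥(modularFunctionFieldFull N') :=
  ⟨H24.hauptX2 ℚ n, H24.hauptX2_mem_full ℚ (by norm_num) n N' hN'⟩

/-- The Hauptmodul of `X₀(2)` in the variable `qⁿ`, as an element of `F_{N'}`. -/
def hauptTwo : FN N' := ratEmb N' (hauptTwoRat n N' hN')

theorem coe_hauptTwo :
    ((hauptTwo n N' hN' : FN N') : LaurentSeries Kb) = H24.hauptX2 Kb n :=
  H24.coeffMap_hauptX2 (algebraMap ℚ Kb) n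

theorem hauptTwo_eq :
    hauptTwo n N' hN' = ⟨H24.hauptX2 Kb n, H24.hauptX2_mem_bar n N' hN'⟩ :=
  Subtype.ext (coe_hauptTwo n N' hN')

theorem transcendental_hauptTwoRat :
    Transcendental ℚ ((hauptTwoRat n N' hN' : ↥(modularFunctionFieldFull N')) : LaurentSeries ℚ) :=
  H24.transcendental_hauptX2 ℚ n

/-- `j(q^{N'}) · x = (x + 16)³`. -/
theorem hauptTwo_rel : jtop N' * hauptTwo n N' hN' = (hauptTwo n N' hN' + 16) ^ 3 := by
  rw [hauptTwo_eq]
  apply Subtype.ext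
  have h := H24.hauptX2_rel2 Kb n N' hN'
  rw [← H24.coeffEmb_qExpand_jq] at h
  have h16 : ((16 : FN N') : LaurentSeries Kb) = 16 := rfl
  simpa [h16] using h

variable {ℓ : ℕ} [Fact ℓ.Prime] (hℓN' : ¬ ℓ ∣ N') (A : ValuationSubring Kb)
  (hA : A.LiesOverPrime ℓ)

omit [NeZero n] [NeZero N'] in
include hN' hℓN' in
theorem ne_two_of_level_two : ℓ ≠ 2 := by
  rintro rfl
  exact hℓN' ⟨n, by rw [hN', mul_comm]⟩

include hℓN' hA in
/-- The data of `H85.basis_of_degree` / `H28.setup_of_base` for the Hauptmodul of level two. -/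
theorem hauptTwo_data :
    ((hauptTwo n N' hN' : FN N') : LaurentSeries Kb) = incA A (H24.hauptX2 A n) ∧
    redA A (H24.hauptX2 A n) ∈ modularFunctionFieldFullC (kA A) N' ∧
    Transcendental (kA A) (redA A (H24.hauptX2 A n)) ∧
    FiniteDimensional Kb⟮hauptTwo n N' hN'⟯ (FN N') ∧
    Module.finrank Kb⟮hauptTwo n N' hN'⟯ (FN N') ≤
      IntermediateField.relfinrank
        (IntermediateField.adjoin (kA A) {redA A (H24.hauptX2 A n)})
        (modularFunctionFieldFullC (kA A) N') ∧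
    (∀ y ∈ modularFunctionFieldFullC (kA A) N',
      IsSeparable (IntermediateField.adjoin (kA A) {redA A (H24.hauptX2 A n)}) y) ∧
    BranchOK A (hauptTwo n N' hN') := by
  have hℓ2 : ℓ ≠ 2 := ne_two_of_level_two n N' hN' hℓN'
  have hℓp : ℓ.Prime := Fact.out
  have h2k : (2 : kA A) ≠ 0 := by
    have := H24.natCast_kA_ne_zero A hA 2
      (fun h => hℓ2 ((Nat.prime_dvd_prime_iff_eq hℓp Nat.prime_two).mp h))
    exact_mod_cast this
  have hred : redA A (H24.hauptX2 A n) = H24.hauptX2 (kA A) n := H24.coeffMap_hauptX2 _ n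
  have hx : ((hauptTwo n N' hN' : FN N') : LaurentSeries Kb) = incA A (H24.hauptX2 A n) := by
    rw [coe_hauptTwo]
    exact (H24.coeffMap_hauptX2 A.subtype n).symm
  have hxk : redA A (H24.hauptX2 A n) ∈ modularFunctionFieldFullC (kA A) N' := by
    rw [hred]
    exact H24.hauptX2_mem_full (kA A) h2k n N' hN'
  have htr : Transcendental (kA A) (redA A (H24.hauptX2 A n)) := by
    rw [hred]
    exact H24.transcendental_hauptX2 (kA A) n
  have hrel := hauptTwo_rel n N' hN'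
  have hrelk : jqNModC (kA A) N' * redA A (H24.hauptX2 A n) =
      (redA A (H24.hauptX2 A n) + 16) ^ 3 := by
    rw [hred]
    exact H24.hauptX2_rel2 (kA A) n N' hN'
  have h4096 : ¬ (ℓ : ℤ) ∣ nmTwo.eval 0 := by
    rw [nmTwo_eval_zero]
    intro h
    have h1 : ℓ ∣ 2 ^ 12 := by
      have h2 : ((ℓ : ℕ) : ℤ) ∣ ((2 ^ 12 : ℕ) : ℤ) := by
        norm_num
        exact h
      exact Int.natCast_dvd_natCast.mp h2
    exact hℓ2 ((Nat.prime_dvd_prime_iff_eq hℓp Nat.prime_two).mp (hℓp.dvd_of_dvd_pow h1))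
  obtain ⟨hfin, hdeg, hsep⟩ := Fermat.Agent.S18.H25.degree_data_of_rel N' hℓN' A hA
    (H24.hauptX2 A n) (hauptTwo n N' hN') hx hxk htr nmTwo nmTwo_monic
    (by rw [nmTwo_natDegree]; norm_num) h4096
    (hrel.trans (eval₂_nmTwo _).symm) (hrelk.trans (eval₂_nmTwo _).symm)
  exact ⟨hx, hxk, htr, hfin, hdeg, hsep,
    branchOK_two N' A (two_inv_mem A hA hℓ2) (hauptTwo n N' hN') hrel⟩

include hℓN' hA in
/-- **Rational orthonormal basis for the Hauptmodul chart of level two.** -/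
theorem exists_rat_basis_haupt_two :
    ∃ θ : Fin (Module.finrank Kb⟮hauptTwo n N' hN'⟯ (FN N')) → FN N',
      (∀ r : Fin (Module.finrank Kb⟮hauptTwo n N' hN'⟯ (FN N')) → Kb⟮hauptTwo n N' hN'⟯,
        (∑ i, (r i : FN N') * θ i) ∈ H66.gaussO A N' hA hℓN' ↔
          ∀ i, (r i : FN N') ∈ H66.gaussO A N' hA hℓN') ∧
      ((gramDet Kb (FN N') (hauptTwo n N' hN') θ : Kb⟮hauptTwo n N' hN'⟯) : FN N')⁻¹ ∈
        H66.gaussO A N' hA hℓN' ∧
      (∀ i, θ i ∈ Set.range (ratEmb N')) ∧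
      (∀ (K₀ : IntermediateField ℚ Kb) (f : ↥(modularFunctionFieldFull N')),
        ratEmb N' f ∈ Submodule.span K₀⟮hauptTwo n N' hN'⟯ (Set.range θ)) ∧
      (∀ K₀ : IntermediateField ℚ Kb,
        (1 : FN N') ∈ Submodule.span K₀⟮hauptTwo n N' hN'⟯ (Set.range θ)) ∧
      ∀ (K₀ : IntermediateField ℚ Kb)
        (i j : Fin (Module.finrank Kb⟮hauptTwo n N' hN'⟯ (FN N'))),
        θ i * θ j ∈ Submodule.span K₀⟮hauptTwo n N' hN'⟯ (Set.range θ) := by
  obtain ⟨hx, hxk, htr, hfin, hdeg, hsep, -⟩ := hauptTwo_data n N' hN' hℓN' A hA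
  exact exists_rat_basis_of_base N' hℓN' A hA (H24.hauptX2 A n) (hauptTwoRat n N' hN') hx
    (transcendental_hauptTwoRat n N' hN') hxk htr hfin hdeg hsep

include hℓN' hA in
/-- `H74.Setup` for the explicit Gauss ring and the Hauptmodul of level two. -/
theorem setup_haupt_two :
    Setup Kb A (FN N') (H66.gaussO A N' hA hℓN') (hauptTwo n N' hN') := by
  obtain ⟨hx, hxk, htr, hfin, hdeg, hsep, hbr⟩ := hauptTwo_data n N' hN' hℓN' A hA
  exact setup_of_base_gaussO N' hℓN' A hA (H24.hauptX2 A n) (hauptTwo n N' hN') hx hxk htr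
    hfin hdeg hsep hbr

include hℓN' hA in
/-- The rational branch data of the Hauptmodul of level two: `{0, -64}` and `{0, -1/64}`. -/
theorem branch_rat_haupt_two :
    (∃ S : Finset Kb, (∀ c ∈ S, c ∈ A) ∧
      (∀ c ∈ S, ∀ c' ∈ S, c ≠ c' → (c - c')⁻¹ ∈ A) ∧
      (∀ (P : Place Kb (FN N')) (c : Kb), c ∉ S →
        0 < P.ord (hauptTwo n N' hN' - algebraMap Kb (FN N') c) →
          P.ord (hauptTwo n N' hN' - algebraMap Kb (FN N') c) = 1) ∧
      ∀ c ∈ S, ∀ L : Subfield Kb, c ∈ L) ∧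
    (∃ S : Finset Kb, (∀ c ∈ S, c ∈ A) ∧
      (∀ c ∈ S, ∀ c' ∈ S, c ≠ c' → (c - c')⁻¹ ∈ A) ∧
      (∀ (P : Place Kb (FN N')) (c : Kb), c ∉ S →
        0 < P.ord ((hauptTwo n N' hN')⁻¹ - algebraMap Kb (FN N') c) →
          P.ord ((hauptTwo n N' hN')⁻¹ - algebraMap Kb (FN N') c) = 1) ∧
      ∀ c ∈ S, ∀ L : Subfield Kb, c ∈ L) := by
  have hℓ2 : ℓ ≠ 2 := ne_two_of_level_two n N' hN' hℓN'
  have h2A := two_inv_mem A hA hℓ2
  have h64 : (64 : Kb)⁻¹ ∈ A := by
    have : (64 : Kb)⁻¹ = (2 : Kb)⁻¹ ^ 6 := by rw [inv_pow]; norm_num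
    rw [this]
    exact A.pow_mem h2A 6
  have h64A : (-64 : Kb) ∈ A := A.neg_mem _ (H50.ofNat_mem_valuationSubring A 64)
  have h64I : (-64 : Kb)⁻¹ ∈ A := by rw [inv_neg]; exact A.neg_mem _ h64
  have h64L : ∀ L : Subfield Kb, (-64 : Kb) ∈ L := fun L =>
    L.neg_mem (ofNat_mem_subfield L 64)
  have hrel := hauptTwo_rel n N' hN'
  refine ⟨branch_rat_pair A (-64) h64A h64I h64L
      (H50.ord_eq_one_of_level_two (branchJ_jtop N') two_ne_zero_Kb three_ne_zero_Kb hrel),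
    branch_rat_pair A ((-64 : Kb)⁻¹) h64I (by rw [inv_inv]; exact h64A)
      (fun L => L.inv_mem (h64L L))
      (H50.ord_inv_eq_one_of_level_two (branchJ_jtop N') two_ne_zero_Kb three_ne_zero_Kb hrel)⟩

include hℓN' hA in
/-- The two `branch` fields of `H19.DSetup` for the Hauptmodul of level two and its inverse, over
`A ∩ K₀` for EVERY subfield `K₀` of `ℚ̄` and every `F₀` containing the Hauptmodul. -/
theorem dsetup_branch_haupt_two (K₀ : IntermediateField ℚ Kb)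
    (F₀ : IntermediateField K₀ (FN N')) (hx₀ : hauptTwo n N' hN' ∈ F₀) :
    letI := H19.algComap (A.comap (algebraMap K₀ Kb)) F₀
    (∃ S₀ : Finset ↥(A.comap (algebraMap K₀ Kb)),
      (∀ a ∈ S₀, ∀ b ∈ S₀, a ≠ b → IsUnit (a - b)) ∧
      ∀ V : ValuationSubring F₀,
        (∀ a : ↥(A.comap (algebraMap K₀ Kb)), a ≠ 0 →
          (algebraMap ↥(A.comap (algebraMap K₀ Kb)) F₀ a)⁻¹ ∈ V) →
        IsDiscreteValuationRing V → (⟨hauptTwo n N' hN', hx₀⟩ : F₀) ∈ V →
        (∀ a ∈ S₀,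
          ((⟨hauptTwo n N' hN', hx₀⟩ : F₀) - algebraMap ↥(A.comap (algebraMap K₀ Kb)) F₀ a)⁻¹ ∈ V) →
        ∃ g : (↥(A.comap (algebraMap K₀ Kb)))[X],
          aeval (⟨hauptTwo n N' hN', hx₀⟩ : F₀) g ∈ V ∧ (aeval (⟨hauptTwo n N' hN', hx₀⟩ : F₀) g)⁻¹ ∉ V ∧
          ∀ t ∈ V, t⁻¹ ∉ V → t / aeval (⟨hauptTwo n N' hN', hx₀⟩ : F₀) g ∈ V) ∧
    (∃ S₀ : Finset ↥(A.comap (algebraMap K₀ Kb)),
      (∀ a ∈ S₀, ∀ b ∈ S₀, a ≠ b → IsUnit (a - b)) ∧
      ∀ V : ValuationSubring F₀,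
        (∀ a : ↥(A.comap (algebraMap K₀ Kb)), a ≠ 0 →
          (algebraMap ↥(A.comap (algebraMap K₀ Kb)) F₀ a)⁻¹ ∈ V) →
        IsDiscreteValuationRing V → (⟨hauptTwo n N' hN', hx₀⟩ : F₀)⁻¹ ∈ V →
        (∀ a ∈ S₀,
          ((⟨hauptTwo n N' hN', hx₀⟩ : F₀)⁻¹ - algebraMap ↥(A.comap (algebraMap K₀ Kb)) F₀ a)⁻¹ ∈ V) →
        ∃ g : (↥(A.comap (algebraMap K₀ Kb)))[X],
          aeval (⟨hauptTwo n N' hN', hx₀⟩ : F₀)⁻¹ g ∈ V ∧ (aeval (⟨hauptTwo n N' hN', hx₀⟩ : F₀)⁻¹ g)⁻¹ ∉ V ∧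
          ∀ t ∈ V, t⁻¹ ∉ V → t / aeval (⟨hauptTwo n N' hN', hx₀⟩ : F₀)⁻¹ g ∈ V) := by
  have := H61.isAlgebraic_rat_algebraicClosure
  obtain ⟨-, -, -, hfin, -, -, -⟩ := hauptTwo_data n N' hN' hℓN' A hA
  obtain ⟨hb, hb'⟩ := branch_rat_haupt_two n N' hN' hℓN' A hA
  exact dsetup_branch_pair (k := ℚ) A (hauptTwo n N' hN') hb hb' K₀ F₀ hx₀

end Two

/-! ### The Hauptmodul of level three (`ℓ ≠ 3`; used for `ℓ = 2`) -/

section Three

variable (n N' : ℕ) [NeZero n] [NeZero N'] (hN' : N' = n * 3)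

/-- The Hauptmodul of `X₀(3)` in the variable `qⁿ`, as a rational function of level `N' = 3n`. -/
def hauptThreeRat : ↥(modularFunctionFieldFull N') :=
  ⟨H24.hauptX3 ℚ n, H24.hauptX3_mem_full ℚ (by norm_num) n N' hN'⟩

/-- The Hauptmodul of `X₀(3)` in the variable `qⁿ`, as an element of `F_{N'}`. -/
def hauptThree : FN N' := ratEmb N' (hauptThreeRat n N' hN')

theorem coe_hauptThree :
    ((hauptThree n N' hN' : FN N') : LaurentSeries Kb) = H24.hauptX3 Kb n :=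
  H24.coeffMap_hauptX3 (algebraMap ℚ Kb) n

theorem hauptThree_eq :
    hauptThree n N' hN' = ⟨H24.hauptX3 Kb n, H24.hauptX3_mem_bar n N' hN'⟩ :=
  Subtype.ext (coe_hauptThree n N' hN')

theorem transcendental_hauptThreeRat :
    Transcendental ℚ ((hauptThreeRat n N' hN' : ↥(modularFunctionFieldFull N')) : LaurentSeries ℚ) :=
  H24.transcendental_hauptX3 ℚ n

/-- `j(q^{N'}) · x = (x + 27)(x + 3)³`. -/
theorem hauptThree_rel :
    jtop N' * hauptThree n N' hN' = (hauptThree n N' hN' + 27) * (hauptThree n N' hN' + 3) ^ 3 := by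
  rw [hauptThree_eq]
  apply Subtype.ext
  have h := H24.hauptX3_rel2 Kb n N' hN'
  rw [← H24.coeffEmb_qExpand_jq] at h
  have h27 : ((27 : FN N') : LaurentSeries Kb) = 27 := rfl
  have h3' : ((3 : FN N') : LaurentSeries Kb) = 3 := rfl
  simpa [h27, h3'] using h

variable {ℓ : ℕ} [Fact ℓ.Prime] (hℓN' : ¬ ℓ ∣ N') (A : ValuationSubring Kb)
  (hA : A.LiesOverPrime ℓ)

omit [NeZero n] [NeZero N'] in
include hN' hℓN' in
theorem ne_three_of_level_three : ℓ ≠ 3 := by
  rintro rfl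
  exact hℓN' ⟨n, by rw [hN', mul_comm]⟩

include hℓN' hA in
/-- The data of `H85.basis_of_degree` / `H28.setup_of_base` for the Hauptmodul of level three. -/
theorem hauptThree_data :
    ((hauptThree n N' hN' : FN N') : LaurentSeries Kb) = incA A (H24.hauptX3 A n) ∧
    redA A (H24.hauptX3 A n) ∈ modularFunctionFieldFullC (kA A) N' ∧
    Transcendental (kA A) (redA A (H24.hauptX3 A n)) ∧
    FiniteDimensional Kb⟮hauptThree n N' hN'⟯ (FN N') ∧
    Module.finrank Kb⟮hauptThree n N' hN'⟯ (FN N') ≤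
      IntermediateField.relfinrank
        (IntermediateField.adjoin (kA A) {redA A (H24.hauptX3 A n)})
        (modularFunctionFieldFullC (kA A) N') ∧
    (∀ y ∈ modularFunctionFieldFullC (kA A) N',
      IsSeparable (IntermediateField.adjoin (kA A) {redA A (H24.hauptX3 A n)}) y) ∧
    BranchOK A (hauptThree n N' hN') := by
  have hℓ2 : ℓ ≠ 3 := ne_three_of_level_three n N' hN' hℓN'
  have hℓp : ℓ.Prime := Fact.out
  have h2k : (3 : kA A) ≠ 0 := by
    have := H24.natCast_kA_ne_zero A hA 3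
      (fun h => hℓ2 ((Nat.prime_dvd_prime_iff_eq hℓp Nat.prime_three).mp h))
    exact_mod_cast this
  have hred : redA A (H24.hauptX3 A n) = H24.hauptX3 (kA A) n := H24.coeffMap_hauptX3 _ n
  have hx : ((hauptThree n N' hN' : FN N') : LaurentSeries Kb) = incA A (H24.hauptX3 A n) := by
    rw [coe_hauptThree]
    exact (H24.coeffMap_hauptX3 A.subtype n).symm
  have hxk : redA A (H24.hauptX3 A n) ∈ modularFunctionFieldFullC (kA A) N' := by
    rw [hred]
    exact H24.hauptX3_mem_full (kA A) h2k n N' hN'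
  have htr : Transcendental (kA A) (redA A (H24.hauptX3 A n)) := by
    rw [hred]
    exact H24.transcendental_hauptX3 (kA A) n
  have hrel := hauptThree_rel n N' hN'
  have hrelk : jqNModC (kA A) N' * redA A (H24.hauptX3 A n) =
      (redA A (H24.hauptX3 A n) + 27) * (redA A (H24.hauptX3 A n) + 3) ^ 3 := by
    rw [hred]
    exact H24.hauptX3_rel2 (kA A) n N' hN'
  have h4096 : ¬ (ℓ : ℤ) ∣ nmThree.eval 0 := by
    rw [nmThree_eval_zero]
    intro h
    have h1 : ℓ ∣ 3 ^ 6 := by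
      have h2 : ((ℓ : ℕ) : ℤ) ∣ ((3 ^ 6 : ℕ) : ℤ) := by
        norm_num
        exact h
      exact Int.natCast_dvd_natCast.mp h2
    exact hℓ2 ((Nat.prime_dvd_prime_iff_eq hℓp Nat.prime_three).mp (hℓp.dvd_of_dvd_pow h1))
  obtain ⟨hfin, hdeg, hsep⟩ := Fermat.Agent.S18.H25.degree_data_of_rel N' hℓN' A hA
    (H24.hauptX3 A n) (hauptThree n N' hN') hx hxk htr nmThree nmThree_monic
    (by rw [nmThree_natDegree]; norm_num) h4096
    (hrel.trans (eval₂_nmThree _).symm) (hrelk.trans (eval₂_nmThree _).symm)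
  exact ⟨hx, hxk, htr, hfin, hdeg, hsep,
    branchOK_three N' A (three_inv_mem A hA hℓ2) (hauptThree n N' hN') hrel⟩

include hℓN' hA in
/-- **Rational orthonormal basis for the Hauptmodul chart of level three.** -/
theorem exists_rat_basis_haupt_three :
    ∃ θ : Fin (Module.finrank Kb⟮hauptThree n N' hN'⟯ (FN N')) → FN N',
      (∀ r : Fin (Module.finrank Kb⟮hauptThree n N' hN'⟯ (FN N')) → Kb⟮hauptThree n N' hN'⟯,
        (∑ i, (r i : FN N') * θ i) ∈ H66.gaussO A N' hA hℓN' ↔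
          ∀ i, (r i : FN N') ∈ H66.gaussO A N' hA hℓN') ∧
      ((gramDet Kb (FN N') (hauptThree n N' hN') θ : Kb⟮hauptThree n N' hN'⟯) : FN N')⁻¹ ∈
        H66.gaussO A N' hA hℓN' ∧
      (∀ i, θ i ∈ Set.range (ratEmb N')) ∧
      (∀ (K₀ : IntermediateField ℚ Kb) (f : ↥(modularFunctionFieldFull N')),
        ratEmb N' f ∈ Submodule.span K₀⟮hauptThree n N' hN'⟯ (Set.range θ)) ∧
      (∀ K₀ : IntermediateField ℚ Kb,
        (1 : FN N') ∈ Submodule.span K₀⟮hauptThree n N' hN'⟯ (Set.range θ)) ∧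
      ∀ (K₀ : IntermediateField ℚ Kb)
        (i j : Fin (Module.finrank Kb⟮hauptThree n N' hN'⟯ (FN N'))),
        θ i * θ j ∈ Submodule.span K₀⟮hauptThree n N' hN'⟯ (Set.range θ) := by
  obtain ⟨hx, hxk, htr, hfin, hdeg, hsep, -⟩ := hauptThree_data n N' hN' hℓN' A hA
  exact exists_rat_basis_of_base N' hℓN' A hA (H24.hauptX3 A n) (hauptThreeRat n N' hN') hx
    (transcendental_hauptThreeRat n N' hN') hxk htr hfin hdeg hsep

include hℓN' hA in
/-- `H74.Setup` for the explicit Gauss ring and the Hauptmodul of level three. -/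
theorem setup_haupt_three :
    Setup Kb A (FN N') (H66.gaussO A N' hA hℓN') (hauptThree n N' hN') := by
  obtain ⟨hx, hxk, htr, hfin, hdeg, hsep, hbr⟩ := hauptThree_data n N' hN' hℓN' A hA
  exact setup_of_base_gaussO N' hℓN' A hA (H24.hauptX3 A n) (hauptThree n N' hN') hx hxk htr
    hfin hdeg hsep hbr

include hℓN' hA in
/-- The rational branch data of the Hauptmodul of level three: `{0, -27}` and `{0, -1/27}`. -/
theorem branch_rat_haupt_three :
    (∃ S : Finset Kb, (∀ c ∈ S, c ∈ A) ∧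
      (∀ c ∈ S, ∀ c' ∈ S, c ≠ c' → (c - c')⁻¹ ∈ A) ∧
      (∀ (P : Place Kb (FN N')) (c : Kb), c ∉ S →
        0 < P.ord (hauptThree n N' hN' - algebraMap Kb (FN N') c) →
          P.ord (hauptThree n N' hN' - algebraMap Kb (FN N') c) = 1) ∧
      ∀ c ∈ S, ∀ L : Subfield Kb, c ∈ L) ∧
    (∃ S : Finset Kb, (∀ c ∈ S, c ∈ A) ∧
      (∀ c ∈ S, ∀ c' ∈ S, c ≠ c' → (c - c')⁻¹ ∈ A) ∧
      (∀ (P : Place Kb (FN N')) (c : Kb), c ∉ S →
        0 < P.ord ((hauptThree n N' hN')⁻¹ - algebraMap Kb (FN N') c) →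
          P.ord ((hauptThree n N' hN')⁻¹ - algebraMap Kb (FN N') c) = 1) ∧
      ∀ c ∈ S, ∀ L : Subfield Kb, c ∈ L) := by
  have hℓ2 : ℓ ≠ 3 := ne_three_of_level_three n N' hN' hℓN'
  have h2A := three_inv_mem A hA hℓ2
  have h64 : (27 : Kb)⁻¹ ∈ A := by
    have : (27 : Kb)⁻¹ = (3 : Kb)⁻¹ ^ 3 := by rw [inv_pow]; norm_num
    rw [this]
    exact A.pow_mem h2A 3
  have h64A : (-27 : Kb) ∈ A := A.neg_mem _ (H50.ofNat_mem_valuationSubring A 27)
  have h64I : (-27 : Kb)⁻¹ ∈ A := by rw [inv_neg]; exact A.neg_mem _ h64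
  have h64L : ∀ L : Subfield Kb, (-27 : Kb) ∈ L := fun L =>
    L.neg_mem (ofNat_mem_subfield L 27)
  have hrel := hauptThree_rel n N' hN'
  refine ⟨branch_rat_pair A (-27) h64A h64I h64L
      (H50.ord_eq_one_of_level_three (branchJ_jtop N') two_ne_zero_Kb three_ne_zero_Kb hrel),
    branch_rat_pair A ((-27 : Kb)⁻¹) h64I (by rw [inv_inv]; exact h64A)
      (fun L => L.inv_mem (h64L L))
      (H50.ord_inv_eq_one_of_level_three (branchJ_jtop N') two_ne_zero_Kb three_ne_zero_Kb hrel)⟩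

include hℓN' hA in
/-- The two `branch` fields of `H19.DSetup` for the Hauptmodul of level three and its inverse, over
`A ∩ K₀` for EVERY subfield `K₀` of `ℚ̄` and every `F₀` containing the Hauptmodul. -/
theorem dsetup_branch_haupt_three (K₀ : IntermediateField ℚ Kb)
    (F₀ : IntermediateField K₀ (FN N')) (hx₀ : hauptThree n N' hN' ∈ F₀) :
    letI := H19.algComap (A.comap (algebraMap K₀ Kb)) F₀
    (∃ S₀ : Finset ↥(A.comap (algebraMap K₀ Kb)),
      (∀ a ∈ S₀, ∀ b ∈ S₀, a ≠ b → IsUnit (a - b)) ∧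
      ∀ V : ValuationSubring F₀,
        (∀ a : ↥(A.comap (algebraMap K₀ Kb)), a ≠ 0 →
          (algebraMap ↥(A.comap (algebraMap K₀ Kb)) F₀ a)⁻¹ ∈ V) →
        IsDiscreteValuationRing V → (⟨hauptThree n N' hN', hx₀⟩ : F₀) ∈ V →
        (∀ a ∈ S₀,
          ((⟨hauptThree n N' hN', hx₀⟩ : F₀) - algebraMap ↥(A.comap (algebraMap K₀ Kb)) F₀ a)⁻¹ ∈ V) →
        ∃ g : (↥(A.comap (algebraMap K₀ Kb)))[X],
          aeval (⟨hauptThree n N' hN', hx₀⟩ : F₀) g ∈ V ∧ (aeval (⟨hauptThree n N' hN', hx₀⟩ : F₀) g)⁻¹ ∉ V ∧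
          ∀ t ∈ V, t⁻¹ ∉ V → t / aeval (⟨hauptThree n N' hN', hx₀⟩ : F₀) g ∈ V) ∧
    (∃ S₀ : Finset ↥(A.comap (algebraMap K₀ Kb)),
      (∀ a ∈ S₀, ∀ b ∈ S₀, a ≠ b → IsUnit (a - b)) ∧
      ∀ V : ValuationSubring F₀,
        (∀ a : ↥(A.comap (algebraMap K₀ Kb)), a ≠ 0 →
          (algebraMap ↥(A.comap (algebraMap K₀ Kb)) F₀ a)⁻¹ ∈ V) →
        IsDiscreteValuationRing V → (⟨hauptThree n N' hN', hx₀⟩ : F₀)⁻¹ ∈ V →
        (∀ a ∈ S₀,
          ((⟨hauptThree n N' hN', hx₀⟩ : F₀)⁻¹ - algebraMap ↥(A.comap (algebraMap K₀ Kb)) F₀ a)⁻¹ ∈ V) →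
        ∃ g : (↥(A.comap (algebraMap K₀ Kb)))[X],
          aeval (⟨hauptThree n N' hN', hx₀⟩ : F₀)⁻¹ g ∈ V ∧ (aeval (⟨hauptThree n N' hN', hx₀⟩ : F₀)⁻¹ g)⁻¹ ∉ V ∧
          ∀ t ∈ V, t⁻¹ ∉ V → t / aeval (⟨hauptThree n N' hN', hx₀⟩ : F₀)⁻¹ g ∈ V) := by
  have := H61.isAlgebraic_rat_algebraicClosure
  obtain ⟨-, -, -, hfin, -, -, -⟩ := hauptThree_data n N' hN' hℓN' A hA
  obtain ⟨hb, hb'⟩ := branch_rat_haupt_three n N' hN' hℓN' A hA
  exact dsetup_branch_pair (k := ℚ) A (hauptThree n N' hN') hb hb' K₀ F₀ hx₀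

end Three

end Fermat.Agent.S34.H19
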