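/-
S34 / Program B', leaf (M6c) at the base function `j(q^M)` and at the Hauptmodul charts
(helper19).

* `cusp_not_both_local` : the LOCAL form of helper42's `H42.cusp_not_both`: instead of
  `1 / j₁ ∈ C` and `1 / j₁ ∈ x`, only `1 / j₁ = a / b` with `a ∈ x`, `b ∉ x` (`1 / j₁` lies in
  the maximal ideal of the local ring `C_x`) and `1 / j₁ ∈ V₁`.  Needed for the Hauptmodul charts
  (`q ∈ {2, 3}`), where `1 / j` is not a regular function on the chart at infinity.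
* the facts about `j₀ = jtop M = j(q^M)` in the two Gauss rings of `F_{Mq}` (`H64.TwoGauss`):
  `jFN_mem_gaussO`, `jFN_inv_mem_gaussO`, `alpha_jtop_eq`, `beta_jtop_eq`,
  `evalY_alpha_beta_jtop` (the modular equations), `sep_top₁`, `sep_top₂` (Kronecker),
  `alpha_jtop_inv_mem`, `beta_jtop_inv_mem₂`;
* `cusp_not_both_twoGauss_top_loc`, `cusp_not_both_twoGauss_top` : (M6c) for the two Gauss rings
  through any embedding `ι : F₀ → F_{Mq}`, with `j₁ ↦ α j₀`, `j₂ ↦ β j₀` (local and global form).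
-/
import Fermat.Agent.S34.H42.CuspComp
import Fermat.Agent.S34.H19.RatBasis

set_option autoImplicit false
set_option linter.style.haveILetI false
set_option linter.unusedSectionVars false

open AlgebraicCurve ModularCurve

noncomputable section

namespace Fermat.Agent.S34.H19

open Fermat.Agent.S28 Fermat.Agent.S18 Fermat.Agent.S18.H74 Fermat.Agent.S18.H28
  Fermat.Agent.S34.H42

section Abstract

variable {A₀ F₀ : Type*} [CommRing A₀] [Field F₀] [Algebra A₀ F₀]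

/-- **(M6c), abstract LOCAL form.**  A prime `x` of an integrally closed chart `C` such that
`1 / j₁ = a / b` with `a ∈ x`, `b ∉ x` does not contain both `C ∩ m_{V₁}` and `C ∩ m_{V₂}`. -/
theorem cusp_not_both_local (C : Subalgebra A₀ F₀) [IsIntegrallyClosed ↥C]
    (hfrac : ∀ y : F₀, ∃ a ∈ C, ∃ b ∈ C, b ≠ 0 ∧ y = a / b)
    {q : ℕ} (hq : q.Prime) {Φ : Polynomial (Polynomial ℤ)} (hΦ : IsModPoly q Φ)
    (j₁ j₂ : F₀) (hj₁ : j₁ ≠ 0) (hj₂ : j₂ ≠ 0)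
    (h12 : (evalY j₁ Φ).eval j₂ = 0) (h21 : (evalY j₂ Φ).eval j₁ = 0)
    (V₁ V₂ : ValuationSubring F₀) (hCV₁ : ∀ c ∈ C, c ∈ V₁) (hCV₂ : ∀ c ∈ C, c ∈ V₂)
    (hk₁ : j₂ - j₁ ^ q ∈ V₁.nonunits) (hk₂ : j₁ - j₂ ^ q ∈ V₂.nonunits)
    (hu₁ : j₁⁻¹ ∈ V₁) (hu₂ : j₂⁻¹ ∈ V₂)
    (x : Ideal ↥C) [x.IsPrime] (a b : ↥C) (ha : a ∈ x) (hb : b ∉ x)
    (hab : j₁⁻¹ * (b : F₀) = (a : F₀)) :
    ¬ ((∀ c : ↥C, (c : F₀) ∈ V₁.nonunits → c ∈ x) ∧
      (∀ c : ↥C, (c : F₀) ∈ V₂.nonunits → c ∈ x)) := by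
  rintro ⟨hP₁, hP₂⟩
  haveI hF : IsFractionRing ↥C F₀ := by
    refine IsFractionRing.of_field ↥C F₀ fun z => ?_
    obtain ⟨a, ha, b, hb, -, rfl⟩ := hfrac z
    exact ⟨⟨a, ha⟩, ⟨b, hb⟩, rfl⟩
  -- the local ring at `x`, inside `F₀`
  have hS : x.primeCompl ≤ nonZeroDivisors ↥C := Ideal.primeCompl_le_nonZeroDivisors x
  let R : Subalgebra ↥C F₀ := Localization.subalgebra.ofField F₀ x.primeCompl hS
  haveI hloc : IsLocalization.AtPrime ↥R x :=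
    Localization.subalgebra.isLocalization_ofField F₀ x.primeCompl hS
  haveI hlr : IsLocalRing ↥R := IsLocalization.AtPrime.isLocalRing ↥R x
  haveI hic : IsIntegrallyClosed ↥R := isIntegrallyClosed_of_isLocalization ↥R x.primeCompl hS
  have hmem : ∀ c : ↥C, algebraMap ↥C ↥R c ∈ IsLocalRing.maximalIdeal ↥R ↔ c ∈ x :=
    fun c => IsLocalization.AtPrime.to_map_mem_maximal_iff ↥R x c
  have hcoe : ∀ c : ↥C, ((algebraMap ↥C ↥R c : ↥R) : F₀) = (c : F₀) := fun c => rfl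
  -- membership in the maximal ideal of `R` through a denominator
  have hmax : ∀ (r : ↥R) (V : ValuationSubring F₀), (∀ c ∈ C, c ∈ V) →
      (∀ c : ↥C, (c : F₀) ∈ V.nonunits → c ∈ x) → (r : F₀) ∈ V.nonunits →
      r ∈ IsLocalRing.maximalIdeal ↥R := by
    intro r V hCV hP hr
    obtain ⟨⟨n, d⟩, hnd⟩ := IsLocalization.surj x.primeCompl r
    have hnd' : r * algebraMap ↥C ↥R (d : ↥C) = algebraMap ↥C ↥R n := hnd
    have hdu : IsUnit (algebraMap ↥C ↥R (d : ↥C)) :=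
      (IsLocalization.AtPrime.isUnit_to_map_iff ↥R x (d : ↥C)).2 d.2
    have hn : algebraMap ↥C ↥R n ∈ IsLocalRing.maximalIdeal ↥R := by
      rw [hmem]
      refine hP _ ?_
      have e : (n : F₀) = (r : F₀) * ((d : ↥C) : F₀) := by
        have e1 := congrArg (fun z : ↥R => (z : F₀)) hnd'
        simp only [Subalgebra.coe_mul, hcoe] at e1
        exact e1.symm
      rw [e]
      exact cusp_mul_mem_nonunits V hr (hCV _ (d : ↥C).2)
    rw [← hnd'] at hn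
    exact (Ideal.mul_unit_mem_iff_mem _ hdu).1 hn
  -- `s = 1 / j₁` lies in the maximal ideal of `R`
  have hb0 : (b : F₀) ≠ 0 := by
    intro h0
    apply hb
    have : b = 0 := Subtype.ext h0
    rw [this]
    exact x.zero_mem
  have hbu : IsUnit (algebraMap ↥C ↥R b) :=
    (IsLocalization.AtPrime.isUnit_to_map_iff ↥R x b).2 hb
  obtain ⟨bi, hbi⟩ := hbu.exists_right_inv
  set sR : ↥R := algebraMap ↥C ↥R a * bi with hsR
  have hsR' : (sR : F₀) = j₁⁻¹ := by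
    have e1 := congrArg (fun z : ↥R => (z : F₀)) hbi
    simp only [Subalgebra.coe_mul, hcoe, Subalgebra.coe_one] at e1
    rw [hsR, Subalgebra.coe_mul, hcoe, ← hab, mul_assoc, e1, mul_one]
  have hsRm : sR ∈ IsLocalRing.maximalIdeal ↥R :=
    Ideal.mul_mem_right _ _ ((hmem a).2 ha)
  have hJ : sR ∈ (⊥ : Ideal ↥R).jacobson := by
    rw [IsLocalRing.jacobson_eq_maximalIdeal ⊥ bot_ne_top]
    exact hsRm
  have hsRa : algebraMap ↥R F₀ sR = j₁⁻¹ := hsR'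
  -- `ρ₁ = j₂ / j₁^q ∈ R`
  have hρ₁ : IsIntegral ↥R (j₂ * algebraMap ↥R F₀ sR ^ q) :=
    Fermat.Agent.S34.H59.isIntegral_mul_pow hq hΦ (x := j₂) (y := j₁) sR
      (by rw [hsRa]; exact mul_inv_cancel₀ hj₁) h12
  obtain ⟨r₁, hr₁⟩ := IsIntegrallyClosed.isIntegral_iff.mp hρ₁
  have hr₁' : (r₁ : F₀) = j₂ * j₁⁻¹ ^ q := by
    have : (r₁ : F₀) = j₂ * algebraMap ↥R F₀ sR ^ q := hr₁
    rw [this, hsRa]
  -- `t = 1 / j₂ ∈ R`
  have ht : IsIntegral ↥R j₂⁻¹ :=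
    isIntegral_inv_right hΦ hq.ne_zero (j := j₁) (j' := j₂) sR
      (by rw [hsRa]; exact mul_inv_cancel₀ hj₁) (mul_inv_cancel₀ hj₂) h12 hJ
  obtain ⟨tR, htR⟩ := IsIntegrallyClosed.isIntegral_iff.mp ht
  have htR' : (tR : F₀) = j₂⁻¹ := htR
  -- `ρ₂ = j₁ / j₂^q ∈ R`
  have hρ₂ : IsIntegral ↥R (j₁ * algebraMap ↥R F₀ tR ^ q) :=
    Fermat.Agent.S34.H59.isIntegral_mul_pow hq hΦ (x := j₁) (y := j₂) tR
      (by rw [htR]; exact mul_inv_cancel₀ hj₂) h21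
  obtain ⟨r₂, hr₂⟩ := IsIntegrallyClosed.isIntegral_iff.mp hρ₂
  have hr₂' : (r₂ : F₀) = j₁ * j₂⁻¹ ^ q := by
    have : (r₂ : F₀) = j₁ * algebraMap ↥R F₀ tR ^ q := hr₂
    rw [this, htR]
  -- `ρ₁ ρ₂ = (s t)^(q-1)` lies in the maximal ideal
  have hprod : r₁ * r₂ = (sR * tR) ^ (q - 1) := by
    apply Subtype.ext
    rw [Subalgebra.coe_mul, Subalgebra.coe_pow, Subalgebra.coe_mul, hr₁', hr₂', htR', hsR']
    exact Fermat.Agent.S34.H59.rho_mul_rho q hq.ne_zero j₂ j₁ j₁⁻¹ j₂⁻¹ (mul_inv_cancel₀ hj₂)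
      (mul_inv_cancel₀ hj₁)
  have hprodm : r₁ * r₂ ∈ IsLocalRing.maximalIdeal ↥R := by
    rw [hprod]
    have hq1 : q - 1 ≠ 0 := by have := hq.two_le; omega
    exact Ideal.pow_mem_of_mem _ (Ideal.mul_mem_right _ _ hsRm) _ (Nat.pos_of_ne_zero hq1)
  -- `ρ₁ - 1` and `ρ₂ - 1` lie in the maximal ideal
  have h1 : r₁ - 1 ∈ IsLocalRing.maximalIdeal ↥R := by
    refine hmax _ V₁ hCV₁ hP₁ ?_
    have e2 : ((r₁ - 1 : ↥R) : F₀) = (j₂ - j₁ ^ q) * j₁⁻¹ ^ q := by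
      rw [Subalgebra.coe_sub, Subalgebra.coe_one, hr₁', sub_mul, ← mul_pow, mul_inv_cancel₀ hj₁,
        one_pow]
    rw [e2]
    exact cusp_mul_mem_nonunits V₁ hk₁ (V₁.pow_mem hu₁ q)
  have h2 : r₂ - 1 ∈ IsLocalRing.maximalIdeal ↥R := by
    refine hmax _ V₂ hCV₂ hP₂ ?_
    have e2 : ((r₂ - 1 : ↥R) : F₀) = (j₁ - j₂ ^ q) * j₂⁻¹ ^ q := by
      rw [Subalgebra.coe_sub, Subalgebra.coe_one, hr₂', sub_mul, ← mul_pow, mul_inv_cancel₀ hj₂,
        one_pow]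
    rw [e2]
    exact cusp_mul_mem_nonunits V₂ hk₂ (V₂.pow_mem hu₂ q)
  -- contradiction: `1` lies in the maximal ideal
  have hone : (1 : ↥R) ∈ IsLocalRing.maximalIdeal ↥R := by
    have e : (1 : ↥R) = r₁ * r₂ - (r₁ - 1) * r₂ - (r₂ - 1) := by ring
    rw [e]
    exact Ideal.sub_mem _ (Ideal.sub_mem _ hprodm (Ideal.mul_mem_right _ _ h1)) h2
  exact (Ideal.ne_top_iff_one _).1 (IsLocalRing.maximalIdeal.isMaximal ↥R).ne_top hone

end Abstract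

/-! ### `j(q^d)` in the Gauss ring of good reduction -/

section Gauss

variable (N' : ℕ) [NeZero N'] {ℓ : ℕ} [Fact ℓ.Prime] (hℓN' : ¬ ℓ ∣ N')
  (A : ValuationSubring Kb) (hA : A.LiesOverPrime ℓ)

/-- `j(q^d)` lies in the Gauss ring. -/
theorem jFN_mem_gaussO (d : ℕ) [NeZero d] (hd : d ∣ N') :
    jFN N' d hd ∈ H66.gaussO A N' hA hℓN' := by
  obtain ⟨hO, -⟩ := resPhi_integral N' hℓN' A hA (jA A d) (jFN N' d hd)
    (by rw [coe_jFN, incA_jA])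
  exact hO

/-- `j(q^d)` is a unit of the Gauss ring. -/
theorem jFN_inv_mem_gaussO (d : ℕ) [NeZero d] (hd : d ∣ N') :
    (jFN N' d hd)⁻¹ ∈ H66.gaussO A N' hA hℓN' := by
  obtain ⟨hO, hres⟩ := resPhi_integral N' hℓN' A hA (jA A d) (jFN N' d hd)
    (by rw [coe_jFN, incA_jA])
  by_contra hinv
  have hnu : ¬ IsUnit (⟨jFN N' d hd, hO⟩ : ↥(H66.gaussO A N' hA hℓN')) := by
    intro hu
    apply hinv
    obtain ⟨u, hu'⟩ := hu
    have h1 : ((u⁻¹ : (↥(H66.gaussO A N' hA hℓN'))ˣ) : ↥(H66.gaussO A N' hA hℓN')) *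
        ⟨jFN N' d hd, hO⟩ = 1 := by rw [← hu', Units.inv_mul]
    have h2 : (((u⁻¹ : (↥(H66.gaussO A N' hA hℓN'))ˣ) : ↥(H66.gaussO A N' hA hℓN')) : FN N') *
        jFN N' d hd = 1 := congrArg Subtype.val h1
    have h3 : (jFN N' d hd)⁻¹ =
        (((u⁻¹ : (↥(H66.gaussO A N' hA hℓN'))ˣ) : ↥(H66.gaussO A N' hA hℓN')) : FN N') :=
      (eq_inv_of_mul_eq_one_left h2).symm
    rw [h3]
    exact Subtype.property _
  have h0 := (H66.gaussResO_eq_zero_iff A N' hA hℓN' ⟨jFN N' d hd, hO⟩).mpr hnu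
  have h4 : resPhi N' hℓN' A hA ⟨jFN N' d hd, hO⟩ = 0 := by
    rw [resPhi_apply, h0]
    rfl
  rw [hres, redA_jA] at h4
  have htr := transcendental_jqNModC (kA A) d
  rw [h4] at htr
  exact htr isAlgebraic_zero

end Gauss

/-! ### `j(q^M)` in the two Gauss rings of `F_{Mq}` -/

section Top

open Fermat.Agent.S37.H65 Fermat.Agent.S34.H64

variable {M q : ℕ} [NeZero M] [Fact q.Prime] {hqM : ¬ q ∣ M} {A : ValuationSubring Kb}
  {hA : A.LiesOverPrime q} {O₁ : ValuationSubring ↥(modularFunctionFieldBar (M * q))}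
  {w : ↥(modularFunctionFieldBar (M * q)) ≃+* ↥(modularFunctionFieldBar (M * q))}

/-- The arithmetic Galois action fixes `j(q^d)`. -/
theorem arithmeticRingAut_jFN (N' d : ℕ) [NeZero d] (hd : d ∣ N') (σ : Kb ≃ₐ[ℚ] Kb) :
    arithmeticRingAut (modularFunctionFieldFull N') σ (jFN N' d hd) = jFN N' d hd :=
  Subtype.ext (coeffMap_coeffEmb σ _)

variable (M q) in
theorem neZero_mul_prime : NeZero (M * q) :=
  ⟨Nat.mul_ne_zero (NeZero.ne M) (Fact.out : q.Prime).ne_zero⟩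

variable (M q) in
/-- `α (j(q^M)) = j(q^M)` at level `Mq`. -/
theorem alpha_jtop_eq :
    haveI := neZero_mul_prime M q
    heckeAlphaBar Kb M q (jtop M) = jFN (M * q) M (dvd_mul_right M q) :=
  Subtype.ext rfl

variable (M q) in
/-- `β (j(q^M)) = j(q^{Mq})`. -/
theorem beta_jtop_eq :
    haveI := neZero_mul_prime M q
    heckeBetaBar Kb M q (jtop M) = jFN (M * q) (M * q) dvd_rfl := by
  haveI := neZero_mul_prime M q
  have h1 := Fermat.Agent.S29.H64.heckeBetaBar_jF M q (Fermat.Agent.S24.topDiv M)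
  have h2 : jtop M = Fermat.Agent.S24.jF M (Fermat.Agent.S24.topDiv M) := Subtype.ext rfl
  rw [h2, h1]
  exact Subtype.ext rfl

variable (M q) in
/-- The modular equations between `α j₀` and `β j₀`, `j₀ = j(q^M)`, in `F_{Mq}`. -/
theorem evalY_alpha_beta_jtop {Φ : Polynomial (Polynomial ℤ)} (hΦ : IsModPoly q Φ) :
    (evalY (heckeAlphaBar Kb M q (jtop M)) Φ).eval (heckeBetaBar Kb M q (jtop M)) = 0 ∧
      (evalY (heckeBetaBar Kb M q (jtop M)) Φ).eval (heckeAlphaBar Kb M q (jtop M)) = 0 := by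
  have hq : q.Prime := Fact.out
  haveI := neZero_mul_prime M q
  rw [alpha_jtop_eq M q, beta_jtop_eq M q]
  exact evalY_jFN (M * q) hq M (dvd_mul_right M q) dvd_rfl hΦ

theorem jtop_mem (h : TwoGauss M q hqM A hA O₁ w) : jtop M ∈ H66.gaussO A M hA hqM :=
  jFN_mem_gaussO M hqM A hA M dvd_rfl

theorem jtop_inv_mem (h : TwoGauss M q hqM A hA O₁ w) : (jtop M)⁻¹ ∈ H66.gaussO A M hA hqM :=
  jFN_inv_mem_gaussO M hqM A hA M dvd_rfl

/-- `α j₀` is a unit of the first Gauss ring. -/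
theorem alpha_jtop_inv_mem (h : TwoGauss M q hqM A hA O₁ w) :
    (heckeAlphaBar Kb M q (jtop M))⁻¹ ∈ O₁ := by
  rw [← map_inv₀, h.alpha_mem_iff]
  exact jtop_inv_mem h

/-- `β j₀` is a unit of the second Gauss ring. -/
theorem beta_jtop_inv_mem₂ (h : TwoGauss M q hqM A hA O₁ w) :
    (heckeBetaBar Kb M q (jtop M))⁻¹ ∈ secondGauss O₁ w := by
  rw [← map_inv₀, h.beta_mem_iff₂]
  exact jtop_inv_mem h

/-- Kronecker at `j₀`: `β j₀ ≡ (α j₀)^q` modulo `m_{O₁}`. -/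
theorem sep_top₁ (h : TwoGauss M q hqM A hA O₁ w) :
    heckeBetaBar Kb M q (jtop M) - heckeAlphaBar Kb M q (jtop M) ^ q ∈ O₁.nonunits := by
  obtain ⟨s, hs⟩ := Fermat.Agent.S54.H94.exists_isFrobeniusAt_of_liesOverPrime A
    (Fact.out : q.Prime) hA
  have h1 := h.kronecker s hs _ (jtop_mem h)
  rwa [arithmeticRingAut_jFN] at h1

/-- Kronecker at `j₀` on the second Gauss ring: `α j₀ ≡ (β j₀)^q` modulo `m_{O₂}`. -/
theorem sep_top₂ (h : TwoGauss M q hqM A hA O₁ w) :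
    heckeAlphaBar Kb M q (jtop M) - heckeBetaBar Kb M q (jtop M) ^ q ∈
      (secondGauss O₁ w).nonunits := by
  obtain ⟨s, hs⟩ := Fermat.Agent.S54.H94.exists_isFrobeniusAt_of_liesOverPrime A
    (Fact.out : q.Prime) hA
  have h1 := h.kronecker₂ s hs _ (jtop_mem h)
  rwa [arithmeticRingAut_jFN] at h1

/-- **(M6c) for the two Gauss rings of `F_{Mq}` and `j₀ = j(q^M)`, LOCAL form.**  Let
`ι : F₀ → F_{Mq}` be an embedding with `j₁ ↦ α j₀`, `j₂ ↦ β j₀`, and `C` an integrally closed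
subalgebra with fraction field `F₀` contained in (the preimages of) both Gauss rings.  A prime `x`
of `C` with `1 / j₁ = a / b`, `a ∈ x`, `b ∉ x`, does not contain both `C ∩ m_{O₁}` and
`C ∩ m_{O₂}`. -/
theorem cusp_not_both_twoGauss_top_loc (h : TwoGauss M q hqM A hA O₁ w)
    {A₀ F₀ : Type*} [CommRing A₀] [Field F₀] [Algebra A₀ F₀]
    (ι : F₀ →+* ↥(modularFunctionFieldBar (M * q)))
    (C : Subalgebra A₀ F₀) [IsIntegrallyClosed ↥C]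
    (hfrac : ∀ y : F₀, ∃ a ∈ C, ∃ b ∈ C, b ≠ 0 ∧ y = a / b)
    (j₁ j₂ : F₀) (hι₁ : ι j₁ = heckeAlphaBar Kb M q (jtop M))
    (hι₂ : ι j₂ = heckeBetaBar Kb M q (jtop M))
    (hC₁ : ∀ c ∈ C, ι c ∈ O₁) (hC₂ : ∀ c ∈ C, ι c ∈ secondGauss O₁ w)
    (x : Ideal ↥C) [x.IsPrime] (a b : ↥C) (ha : a ∈ x) (hb : b ∉ x)
    (hab : j₁⁻¹ * (b : F₀) = (a : F₀)) :
    ¬ ((∀ c : ↥C, ι (c : F₀) ∈ O₁.nonunits → c ∈ x) ∧
      (∀ c : ↥C, ι (c : F₀) ∈ (secondGauss O₁ w).nonunits → c ∈ x)) := by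
  have hq : q.Prime := Fact.out
  haveI := neZero_mul_prime M q
  obtain ⟨Φ, hΦ⟩ := Fermat.Agent.S28.hasModPolys q hq
  obtain ⟨hm12, hm21⟩ := evalY_alpha_beta_jtop M q hΦ
  have hα0 : heckeAlphaBar Kb M q (jtop M) ≠ 0 := by
    rw [alpha_jtop_eq M q]
    exact jFN_ne_zero (M * q) M (dvd_mul_right M q)
  have hβ0 : heckeBetaBar Kb M q (jtop M) ≠ 0 := by
    rw [beta_jtop_eq M q]
    exact jFN_ne_zero (M * q) (M * q) dvd_rfl
  have hj₁ : j₁ ≠ 0 := by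
    rintro rfl
    rw [map_zero] at hι₁
    exact hα0 hι₁.symm
  have hj₂ : j₂ ≠ 0 := by
    rintro rfl
    rw [map_zero] at hι₂
    exact hβ0 hι₂.symm
  have h12 : (evalY j₁ Φ).eval j₂ = 0 := by
    apply ι.injective
    rw [map_evalY_eval, hι₁, hι₂, hm12, map_zero]
  have h21 : (evalY j₂ Φ).eval j₁ = 0 := by
    apply ι.injective
    rw [map_evalY_eval, hι₁, hι₂, hm21, map_zero]
  have hn₁ : ∀ f : F₀, f ∈ (O₁.comap ι).nonunits ↔ ι f ∈ O₁.nonunits := fun f =>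
    (mem_nonunits_iff_of_mem_iff ι (O₁.comap ι) O₁ (fun _ => Iff.rfl) f).symm
  have hn₂ : ∀ f : F₀, f ∈ ((secondGauss O₁ w).comap ι).nonunits ↔
      ι f ∈ (secondGauss O₁ w).nonunits := fun f =>
    (mem_nonunits_iff_of_mem_iff ι ((secondGauss O₁ w).comap ι) (secondGauss O₁ w)
      (fun _ => Iff.rfl) f).symm
  have hk₁ : j₂ - j₁ ^ q ∈ (O₁.comap ι).nonunits := by
    rw [hn₁, map_sub, map_pow, hι₁, hι₂]
    exact sep_top₁ h
  have hk₂ : j₁ - j₂ ^ q ∈ ((secondGauss O₁ w).comap ι).nonunits := by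
    rw [hn₂, map_sub, map_pow, hι₁, hι₂]
    exact sep_top₂ h
  have hu₁ : j₁⁻¹ ∈ O₁.comap ι := by
    show ι j₁⁻¹ ∈ O₁
    rw [map_inv₀, hι₁]
    exact alpha_jtop_inv_mem h
  have hu₂ : j₂⁻¹ ∈ (secondGauss O₁ w).comap ι := by
    show ι j₂⁻¹ ∈ secondGauss O₁ w
    rw [map_inv₀, hι₂]
    exact beta_jtop_inv_mem₂ h
  intro hcon
  exact cusp_not_both_local C hfrac hq hΦ j₁ j₂ hj₁ hj₂ h12 h21 (O₁.comap ι)
    ((secondGauss O₁ w).comap ι) hC₁ hC₂ hk₁ hk₂ hu₁ hu₂ x a b ha hb hab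
    ⟨fun c hc => hcon.1 c ((hn₁ _).1 hc), fun c hc => hcon.2 c ((hn₂ _).1 hc)⟩

/-- **(M6c) for the two Gauss rings of `F_{Mq}` and `j₀ = j(q^M)`, global form** (the shape of
`H42.cusp_not_both_twoGauss`, with `jtop M` instead of `jgen M`). -/
theorem cusp_not_both_twoGauss_top (h : TwoGauss M q hqM A hA O₁ w)
    {A₀ F₀ : Type*} [CommRing A₀] [Field F₀] [Algebra A₀ F₀]
    (ι : F₀ →+* ↥(modularFunctionFieldBar (M * q)))
    (C : Subalgebra A₀ F₀) [IsIntegrallyClosed ↥C]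
    (hfrac : ∀ y : F₀, ∃ a ∈ C, ∃ b ∈ C, b ≠ 0 ∧ y = a / b)
    (j₁ j₂ : F₀) (hι₁ : ι j₁ = heckeAlphaBar Kb M q (jtop M))
    (hι₂ : ι j₂ = heckeBetaBar Kb M q (jtop M))
    (hs : j₁⁻¹ ∈ C)
    (hC₁ : ∀ c ∈ C, ι c ∈ O₁) (hC₂ : ∀ c ∈ C, ι c ∈ secondGauss O₁ w)
    (x : Ideal ↥C) [x.IsPrime] (hsx : (⟨j₁⁻¹, hs⟩ : ↥C) ∈ x) :
    ¬ ((∀ c : ↥C, ι (c : F₀) ∈ O₁.nonunits → c ∈ x) ∧
      (∀ c : ↥C, ι (c : F₀) ∈ (secondGauss O₁ w).nonunits → c ∈ x)) :=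
  cusp_not_both_twoGauss_top_loc h ι C hfrac j₁ j₂ hι₁ hι₂ hC₁ hC₂ x ⟨j₁⁻¹, hs⟩ 1 hsx
    (fun h1 => (Ideal.ne_top_iff_one x).1 (Ideal.IsPrime.ne_top inferInstance) h1)
    (by rw [Subalgebra.coe_one, mul_one])

end Top

end Fermat.Agent.S34.H19
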