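/-
S34 / Program B', L6 for `q ∈ {2, 3}` (helper19): the descended setup of the smooth model of
`X₀(N')` over EVERY constant field for the HAUPTMODUL charts, in the exact shape of
`Fermat.Agent.S34.H78.l6_top` (which needs `ℓ ≥ 5` for the base function `j(q^{N'})`).

* `l6_haupt_two`   : level `N' = 2n`, `ℓ ∤ N'` (so `ℓ ≠ 2`; used for `ℓ = 3`), base function
  `x = hauptTwo n N' hN'` (Hauptmodul of `X₀(2)` in the variable `qⁿ`);
* `l6_haupt_three` : level `N' = 3n`, `ℓ ∤ N'` (so `ℓ ≠ 3`; used for `ℓ = 2`), base function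
  `x = hauptThree n N' hN'`.

ONE basis `θ` of rational functions such that for every intermediate field `K₀` of `ℚ̄ / ℚ` the
`K₀(x)`-span `F₀` of `θ` is a field containing all rational functions and
`(A ∩ K₀, gaussO ∩ F₀, x)`, `(A ∩ K₀, gaussO ∩ F₀, x⁻¹)` are descended setups
(`S18.H19.DSetup`).  Then `H78.l6_chart` applies unchanged.

* `hauptTwo_rel_poly`, `hauptThree_rel_poly` : the relation between `j(q^{N'})` and the
  Hauptmodul in polynomial form `j₀ · D(x) = N(x)` with `N, D ∈ ℤ[X]`, `N` monic, `D = X`.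
-/
import Fermat.Agent.S34.H19.RatHaupt
import Fermat.Agent.S34.H78.L6Generic
import Fermat.Agent.S34.H78.L6

set_option autoImplicit false
set_option linter.style.haveILetI false
set_option linter.unusedSectionVars false

open AlgebraicCurve IntermediateField ModularCurve Polynomial

noncomputable section

namespace Fermat.Agent.S34.H19

open Fermat.Agent.S18.H74 Fermat.Agent.S18.H28 Fermat.Agent.S18 Fermat.Agent.S18.H19
  Fermat.Agent.S18.H8 Fermat.Agent.S34.H78

section Two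

variable (n N' : ℕ) [NeZero n] [NeZero N'] (hN' : N' = n * 2)
  {ℓ : ℕ} [Fact ℓ.Prime] (hℓN' : ¬ ℓ ∣ N') (A : ValuationSubring Kb) (hA : A.LiesOverPrime ℓ)

/-- **L6 for the Hauptmodul chart of level two** (`ℓ ≠ 2`), in the shape of `H78.l6_top`. -/
theorem l6_haupt_two :
    ∃ θ : Fin (Module.finrank Kb⟮hauptTwo n N' hN'⟯ (FN N')) → FN N',
      (∀ i, θ i ∈ Set.range (ratEmb N')) ∧
      ∀ K₀ : IntermediateField ℚ Kb,
        ∃ (F₀ : IntermediateField K₀ (FN N')) (hG : GoodPair (hauptTwo n N' hN') K₀ F₀ θ),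
          (∀ f : FN N', f ∈ F₀ ↔
            f ∈ Submodule.span K₀⟮hauptTwo n N' hN'⟯ (Set.range θ)) ∧
          (∀ f : ↥(modularFunctionFieldFull N'), ratEmb N' f ∈ F₀) ∧
          (letI := algComap (A.comap (algebraMap K₀ Kb)) F₀
           DSetup ↥(A.comap (algebraMap K₀ Kb))
            ((H66.gaussO A N' hA hℓN').comap (algebraMap F₀ (FN N')))
            (⟨hauptTwo n N' hN', hG.x_mem⟩ : F₀)) ∧
          (letI := algComap (A.comap (algebraMap K₀ Kb)) F₀
           DSetup ↥(A.comap (algebraMap K₀ Kb))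
            ((H66.gaussO A N' hA hℓN').comap (algebraMap F₀ (FN N')))
            (⟨hauptTwo n N' hN', hG.x_mem⟩ : F₀)⁻¹) := by
  have hAtop : A ≠ ⊤ := ne_top_of_liesOverPrime A hA
  have hS := setup_haupt_two n N' hN' hℓN' A hA
  obtain ⟨θ, horth, hgram, hrat, hspan, h1, hmul⟩ :=
    exists_rat_basis_haupt_two n N' hN' hℓN' A hA
  refine ⟨θ, hrat, fun K₀ => ?_⟩
  obtain ⟨F₀, hG, hF₀, hD, hD'⟩ := l6_generic A hAtop (H66.gaussO A N' hA hℓN')
    (hauptTwo n N' hN') hS θ horth hgram h1 hmul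
    (fun K₀ F₀ hx => dsetup_branch_haupt_two n N' hN' hℓN' A hA K₀ F₀ hx) K₀
  exact ⟨F₀, hG, hF₀, fun f => (hF₀ _).2 (hspan K₀ f), hD, hD'⟩

/-- The relation `j(q^{N'}) · x = (x + 16)³` in polynomial form. -/
theorem hauptTwo_rel_poly :
    jtop N' * aeval (hauptTwo n N' hN') (X : ℤ[X]) =
      aeval (hauptTwo n N' hN') ((X + C 16) ^ 3 : ℤ[X]) := by
  rw [aeval_X, map_pow, map_add, aeval_X, aeval_C]
  simpa using hauptTwo_rel n N' hN'

end Two

section Three

variable (n N' : ℕ) [NeZero n] [NeZero N'] (hN' : N' = n * 3)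
  {ℓ : ℕ} [Fact ℓ.Prime] (hℓN' : ¬ ℓ ∣ N') (A : ValuationSubring Kb) (hA : A.LiesOverPrime ℓ)

/-- **L6 for the Hauptmodul chart of level three** (`ℓ ≠ 3`), in the shape of `H78.l6_top`. -/
theorem l6_haupt_three :
    ∃ θ : Fin (Module.finrank Kb⟮hauptThree n N' hN'⟯ (FN N')) → FN N',
      (∀ i, θ i ∈ Set.range (ratEmb N')) ∧
      ∀ K₀ : IntermediateField ℚ Kb,
        ∃ (F₀ : IntermediateField K₀ (FN N')) (hG : GoodPair (hauptThree n N' hN') K₀ F₀ θ),
          (∀ f : FN N', f ∈ F₀ ↔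
            f ∈ Submodule.span K₀⟮hauptThree n N' hN'⟯ (Set.range θ)) ∧
          (∀ f : ↥(modularFunctionFieldFull N'), ratEmb N' f ∈ F₀) ∧
          (letI := algComap (A.comap (algebraMap K₀ Kb)) F₀
           DSetup ↥(A.comap (algebraMap K₀ Kb))
            ((H66.gaussO A N' hA hℓN').comap (algebraMap F₀ (FN N')))
            (⟨hauptThree n N' hN', hG.x_mem⟩ : F₀)) ∧
          (letI := algComap (A.comap (algebraMap K₀ Kb)) F₀
           DSetup ↥(A.comap (algebraMap K₀ Kb))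
            ((H66.gaussO A N' hA hℓN').comap (algebraMap F₀ (FN N')))
            (⟨hauptThree n N' hN', hG.x_mem⟩ : F₀)⁻¹) := by
  have hAtop : A ≠ ⊤ := ne_top_of_liesOverPrime A hA
  have hS := setup_haupt_three n N' hN' hℓN' A hA
  obtain ⟨θ, horth, hgram, hrat, hspan, h1, hmul⟩ :=
    exists_rat_basis_haupt_three n N' hN' hℓN' A hA
  refine ⟨θ, hrat, fun K₀ => ?_⟩
  obtain ⟨F₀, hG, hF₀, hD, hD'⟩ := l6_generic A hAtop (H66.gaussO A N' hA hℓN')
    (hauptThree n N' hN') hS θ horth hgram h1 hmul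
    (fun K₀ F₀ hx => dsetup_branch_haupt_three n N' hN' hℓN' A hA K₀ F₀ hx) K₀
  exact ⟨F₀, hG, hF₀, fun f => (hF₀ _).2 (hspan K₀ f), hD, hD'⟩

/-- The relation `j(q^{N'}) · x = (x + 27)(x + 3)³` in polynomial form. -/
theorem hauptThree_rel_poly :
    jtop N' * aeval (hauptThree n N' hN') (X : ℤ[X]) =
      aeval (hauptThree n N' hN') ((X + C 27) * (X + C 3) ^ 3 : ℤ[X]) := by
  rw [aeval_X, map_mul, map_pow, map_add, map_add, aeval_X, aeval_C, aeval_C]
  simpa using hauptThree_rel n N' hN'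

end Three

end Fermat.Agent.S34.H19
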