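/-
S34 / Program B', `q ∈ {2, 3}` (helper19): the relation between `j(q^{N'})` and the Hauptmodul
base functions, packaged over `ℤ[X]` for the cusp / one-component / crossing-point leaves.

For `x = hauptTwo n N' hN'` (level `N' = 2n`):   `j₀ · D(x) = N(x)` with `N = (X + 16)³`, `D = X`,
for `x = hauptThree n N' hN'` (level `N' = 3n`): `N = (X + 27)(X + 3)³`, `D = X`,
for `x = jtop N'`:                               `N = X`, `D = 1`;
in each case `N` is monic, `deg D < deg N`, and `a N + b D = r` for explicit `a, b ∈ ℤ[X]` and an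
integer `r` (`2¹²`, `3⁶`, `1`) prime to the residue characteristic in which the chart is used.

* `haupt_two_bezout`, `haupt_three_bezout` : the Bezout identities;
* `jrel_haupt_two`, `jrel_haupt_three`, `jrel_top` : the packaged existence statements.
-/
import Fermat.Agent.S34.H19.L6Haupt

set_option autoImplicit false

open AlgebraicCurve IntermediateField ModularCurve Polynomial

noncomputable section

namespace Fermat.Agent.S34.H19

open Fermat.Agent.S18.H74 Fermat.Agent.S18.H28 Fermat.Agent.S18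

/-- `(X + 16)³ - (X² + 48 X + 768) · X = 2¹²`. -/
theorem haupt_two_bezout :
    (1 : ℤ[X]) * (X + C 16) ^ 3 + (-(X ^ 2 + C 48 * X + C 768)) * X = C 4096 := by
  have h16 : (C (16 : ℤ) : ℤ[X]) = 16 := rfl
  have h48 : (C (48 : ℤ) : ℤ[X]) = 48 := rfl
  have h768 : (C (768 : ℤ) : ℤ[X]) = 768 := rfl
  have h4096 : (C (4096 : ℤ) : ℤ[X]) = 4096 := rfl
  rw [h16, h48, h768, h4096]
  ring

/-- `(X + 27)(X + 3)³ - (X³ + 36 X² + 270 X + 756) · X = 3⁶`. -/
theorem haupt_three_bezout :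
    (1 : ℤ[X]) * ((X + C 27) * (X + C 3) ^ 3) +
      (-(X ^ 3 + C 36 * X ^ 2 + C 270 * X + C 756)) * X = C 729 := by
  have h27 : (C (27 : ℤ) : ℤ[X]) = 27 := rfl
  have h3 : (C (3 : ℤ) : ℤ[X]) = 3 := rfl
  have h36 : (C (36 : ℤ) : ℤ[X]) = 36 := rfl
  have h270 : (C (270 : ℤ) : ℤ[X]) = 270 := rfl
  have h756 : (C (756 : ℤ) : ℤ[X]) = 756 := rfl
  have h729 : (C (729 : ℤ) : ℤ[X]) = 729 := rfl
  rw [h27, h3, h36, h270, h756, h729]
  ring

theorem monic_haupt_two_num : ((X + C 16) ^ 3 : ℤ[X]).Monic := (monic_X_add_C 16).pow 3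

theorem natDegree_haupt_two_num : ((X + C 16) ^ 3 : ℤ[X]).natDegree = 3 := by
  rw [(monic_X_add_C (16 : ℤ)).natDegree_pow, natDegree_X_add_C]

theorem monic_haupt_three_num : ((X + C 27) * (X + C 3) ^ 3 : ℤ[X]).Monic :=
  (monic_X_add_C 27).mul ((monic_X_add_C 3).pow 3)

theorem natDegree_haupt_three_num : ((X + C 27) * (X + C 3) ^ 3 : ℤ[X]).natDegree = 4 := by
  rw [((monic_X_add_C (27 : ℤ))).natDegree_mul ((monic_X_add_C (3 : ℤ)).pow 3),
    (monic_X_add_C (3 : ℤ)).natDegree_pow, natDegree_X_add_C, natDegree_X_add_C]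

/-- A prime `q ≠ 2` does not divide `2¹²`. -/
theorem not_dvd_4096 {q : ℕ} (hq : q.Prime) (hq2 : q ≠ 2) : ¬ (q : ℤ) ∣ 4096 := by
  intro h
  have h1 : q ∣ 2 ^ 12 := by
    have h2 : ((q : ℕ) : ℤ) ∣ ((2 ^ 12 : ℕ) : ℤ) := by
      have h3 : ((2 ^ 12 : ℕ) : ℤ) = 4096 := by norm_num
      rw [h3]
      exact h
    exact Int.natCast_dvd_natCast.mp h2
  exact hq2 ((Nat.prime_dvd_prime_iff_eq hq Nat.prime_two).mp (hq.dvd_of_dvd_pow h1))

/-- A prime `q ≠ 3` does not divide `3⁶`. -/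
theorem not_dvd_729 {q : ℕ} (hq : q.Prime) (hq3 : q ≠ 3) : ¬ (q : ℤ) ∣ 729 := by
  intro h
  have h1 : q ∣ 3 ^ 6 := by
    have h2 : ((q : ℕ) : ℤ) ∣ ((3 ^ 6 : ℕ) : ℤ) := by
      have h3 : ((3 ^ 6 : ℕ) : ℤ) = 729 := by norm_num
      rw [h3]
      exact h
    exact Int.natCast_dvd_natCast.mp h2
  exact hq3 ((Nat.prime_dvd_prime_iff_eq hq Nat.prime_three).mp (hq.dvd_of_dvd_pow h1))

/-- **The `j`-relation of the Hauptmodul of level two**, packaged: `N` monic, `deg D < deg N`,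
`j₀ · D(x) = N(x)`, and a Bezout identity with a constant prime to `q ≠ 2`. -/
theorem jrel_haupt_two (n N' : ℕ) [NeZero n] [NeZero N'] (hN' : N' = n * 2) {q : ℕ}
    (hq : q.Prime) (hq2 : q ≠ 2) :
    ∃ N D : ℤ[X], N.Monic ∧ D.natDegree < N.natDegree ∧
      jtop N' * aeval (hauptTwo n N' hN') D = aeval (hauptTwo n N' hN') N ∧
      ∃ (a b : ℤ[X]) (r : ℤ), ¬ (q : ℤ) ∣ r ∧ a * N + b * D = C r :=
  ⟨(X + C 16) ^ 3, X, monic_haupt_two_num, by rw [natDegree_haupt_two_num, natDegree_X]; norm_num,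
    hauptTwo_rel_poly n N' hN', 1, -(X ^ 2 + C 48 * X + C 768), 4096, not_dvd_4096 hq hq2,
    haupt_two_bezout⟩

/-- **The `j`-relation of the Hauptmodul of level three**, packaged. -/
theorem jrel_haupt_three (n N' : ℕ) [NeZero n] [NeZero N'] (hN' : N' = n * 3) {q : ℕ}
    (hq : q.Prime) (hq3 : q ≠ 3) :
    ∃ N D : ℤ[X], N.Monic ∧ D.natDegree < N.natDegree ∧
      jtop N' * aeval (hauptThree n N' hN') D = aeval (hauptThree n N' hN') N ∧
      ∃ (a b : ℤ[X]) (r : ℤ), ¬ (q : ℤ) ∣ r ∧ a * N + b * D = C r :=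
  ⟨(X + C 27) * (X + C 3) ^ 3, X, monic_haupt_three_num,
    by rw [natDegree_haupt_three_num, natDegree_X]; norm_num,
    hauptThree_rel_poly n N' hN', 1, -(X ^ 3 + C 36 * X ^ 2 + C 270 * X + C 756), 729,
    not_dvd_729 hq hq3, haupt_three_bezout⟩

/-- The trivial `j`-relation of the base function `j(q^{N'})` itself. -/
theorem jrel_top (N' : ℕ) [NeZero N'] (q : ℕ) (hq : q.Prime) :
    ∃ N D : ℤ[X], N.Monic ∧ D.natDegree < N.natDegree ∧
      jtop N' * aeval (jtop N') D = aeval (jtop N') N ∧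
      ∃ (a b : ℤ[X]) (r : ℤ), ¬ (q : ℤ) ∣ r ∧ a * N + b * D = C r := by
  refine ⟨X, 1, monic_X, by rw [natDegree_one, natDegree_X]; norm_num, ?_, 0, 1, 1, ?_, ?_⟩
  · rw [aeval_one, aeval_X, mul_one]
  · intro h
    have h1 : q ∣ 1 := Int.natCast_dvd_natCast.mp (by simpa using h)
    exact hq.one_lt.ne' (Nat.dvd_one.mp h1)
  · simp

end Fermat.Agent.S34.H19
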