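/-
S34 / Program B', L6 for `q ∈ {2, 3}` restated on `H61.ratForm` (helper19).

`dsetup_ratForm_of_l6` : any statement of the shape of `H78.l6_top` (base function `x` rational)
gives, for EVERY intermediate field `K₀` of `ℚ̄ / ℚ`, the descended setups
`DSetup (A ∩ K₀) (gaussO ∩ ratForm N' K₀) x` and `… x⁻¹` on helper61's field `ratForm N' K₀`
(the `K₀(x)`-span of the rational basis is `ratForm N' K₀`: `H61.eq_ratForm_of_span`).
`dsetup_ratForm_haupt_two`, `dsetup_ratForm_haupt_three` : the Hauptmodul charts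
(`ℓ = 3` resp. `ℓ = 2`); `dsetup_ratForm_top` : the `j`-chart (`ℓ ≥ 5`).
-/
import Fermat.Agent.S34.H19.L6Haupt
import Fermat.Agent.S34.H61.TauDescent

set_option autoImplicit false
set_option linter.style.haveILetI false
set_option linter.unusedSectionVars false

open AlgebraicCurve IntermediateField ModularCurve Polynomial

noncomputable section

namespace Fermat.Agent.S34.H19

open Fermat.Agent.S18.H74 Fermat.Agent.S18.H28 Fermat.Agent.S18 Fermat.Agent.S18.H19
  Fermat.Agent.S18.H8 Fermat.Agent.S34.H78 Fermat.Agent.S34.H61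

section Generic

variable (N' : ℕ) [NeZero N'] {ℓ : ℕ} [Fact ℓ.Prime] (hℓN' : ¬ ℓ ∣ N')
  (A : ValuationSubring Kb) (hA : A.LiesOverPrime ℓ)

/-- From the L6 statement for a rational base function `x` to the descended setups on
`ratForm N' K₀`, for every `K₀`. -/
theorem dsetup_ratForm_of_l6 (x : FN N') (hx : x ∈ Set.range (ratEmb N'))
    (h : ∃ θ : Fin (Module.finrank Kb⟮x⟯ (FN N')) → FN N',
      (∀ i, θ i ∈ Set.range (ratEmb N')) ∧
      ∀ K₀ : IntermediateField ℚ Kb,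
        ∃ (F₀ : IntermediateField K₀ (FN N')) (hG : GoodPair x K₀ F₀ θ),
          (∀ f : FN N', f ∈ F₀ ↔ f ∈ Submodule.span K₀⟮x⟯ (Set.range θ)) ∧
          (∀ f : ↥(modularFunctionFieldFull N'), ratEmb N' f ∈ F₀) ∧
          (letI := algComap (A.comap (algebraMap K₀ Kb)) F₀
           DSetup ↥(A.comap (algebraMap K₀ Kb))
            ((H66.gaussO A N' hA hℓN').comap (algebraMap F₀ (FN N')))
            (⟨x, hG.x_mem⟩ : F₀)) ∧
          (letI := algComap (A.comap (algebraMap K₀ Kb)) F₀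
           DSetup ↥(A.comap (algebraMap K₀ Kb))
            ((H66.gaussO A N' hA hℓN').comap (algebraMap F₀ (FN N')))
            (⟨x, hG.x_mem⟩ : F₀)⁻¹))
    (K₀ : IntermediateField ℚ Kb) :
    ∃ hx₀ : x ∈ ratForm N' K₀,
      (letI := algComap (A.comap (algebraMap K₀ Kb)) (ratForm N' K₀)
       DSetup ↥(A.comap (algebraMap K₀ Kb))
        ((H66.gaussO A N' hA hℓN').comap (algebraMap (ratForm N' K₀) (FN N')))
        (⟨x, hx₀⟩ : ratForm N' K₀)) ∧
      (letI := algComap (A.comap (algebraMap K₀ Kb)) (ratForm N' K₀)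
       DSetup ↥(A.comap (algebraMap K₀ Kb))
        ((H66.gaussO A N' hA hℓN').comap (algebraMap (ratForm N' K₀) (FN N')))
        (⟨x, hx₀⟩ : ratForm N' K₀)⁻¹) := by
  obtain ⟨θ, hrat, hθ⟩ := h
  obtain ⟨F₀, hG, hF₀, hmem, hD, hD'⟩ := hθ K₀
  have hEq : F₀ = ratForm N' K₀ :=
    eq_ratForm_of_span N' K₀ x hx θ hrat (fun f => (hF₀ _).1 (hmem f)) F₀ hF₀
  subst hEq
  exact ⟨hG.x_mem, hD, hD'⟩

/-- The descended setups of the `j`-chart on `ratForm N' K₀` (`ℓ ≥ 5`). -/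
theorem dsetup_ratForm_top (h2 : ℓ ≠ 2) (h3 : ℓ ≠ 3) (K₀ : IntermediateField ℚ Kb) :
    ∃ hx₀ : jtop N' ∈ ratForm N' K₀,
      (letI := algComap (A.comap (algebraMap K₀ Kb)) (ratForm N' K₀)
       DSetup ↥(A.comap (algebraMap K₀ Kb))
        ((H66.gaussO A N' hA hℓN').comap (algebraMap (ratForm N' K₀) (FN N')))
        (⟨jtop N', hx₀⟩ : ratForm N' K₀)) ∧
      (letI := algComap (A.comap (algebraMap K₀ Kb)) (ratForm N' K₀)
       DSetup ↥(A.comap (algebraMap K₀ Kb))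
        ((H66.gaussO A N' hA hℓN').comap (algebraMap (ratForm N' K₀) (FN N')))
        (⟨jtop N', hx₀⟩ : ratForm N' K₀)⁻¹) :=
  dsetup_ratForm_of_l6 N' hℓN' A hA (jtop N') ⟨jqNFull N', ratEmb_jqNFull N'⟩
    (l6_top N' hℓN' A hA h2 h3) K₀

end Generic

section Two

variable (n N' : ℕ) [NeZero n] [NeZero N'] (hN' : N' = n * 2)
  {ℓ : ℕ} [Fact ℓ.Prime] (hℓN' : ¬ ℓ ∣ N') (A : ValuationSubring Kb) (hA : A.LiesOverPrime ℓ)

/-- The descended setups of the Hauptmodul chart of level two on `ratForm N' K₀` (`ℓ ≠ 2`). -/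
theorem dsetup_ratForm_haupt_two (K₀ : IntermediateField ℚ Kb) :
    ∃ hx₀ : hauptTwo n N' hN' ∈ ratForm N' K₀,
      (letI := algComap (A.comap (algebraMap K₀ Kb)) (ratForm N' K₀)
       DSetup ↥(A.comap (algebraMap K₀ Kb))
        ((H66.gaussO A N' hA hℓN').comap (algebraMap (ratForm N' K₀) (FN N')))
        (⟨hauptTwo n N' hN', hx₀⟩ : ratForm N' K₀)) ∧
      (letI := algComap (A.comap (algebraMap K₀ Kb)) (ratForm N' K₀)
       DSetup ↥(A.comap (algebraMap K₀ Kb))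
        ((H66.gaussO A N' hA hℓN').comap (algebraMap (ratForm N' K₀) (FN N')))
        (⟨hauptTwo n N' hN', hx₀⟩ : ratForm N' K₀)⁻¹) :=
  dsetup_ratForm_of_l6 N' hℓN' A hA (hauptTwo n N' hN') ⟨hauptTwoRat n N' hN', rfl⟩
    (l6_haupt_two n N' hN' hℓN' A hA) K₀

end Two

section Three

variable (n N' : ℕ) [NeZero n] [NeZero N'] (hN' : N' = n * 3)
  {ℓ : ℕ} [Fact ℓ.Prime] (hℓN' : ¬ ℓ ∣ N') (A : ValuationSubring Kb) (hA : A.LiesOverPrime ℓ)

/-- The descended setups of the Hauptmodul chart of level three on `ratForm N' K₀` (`ℓ ≠ 3`). -/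
theorem dsetup_ratForm_haupt_three (K₀ : IntermediateField ℚ Kb) :
    ∃ hx₀ : hauptThree n N' hN' ∈ ratForm N' K₀,
      (letI := algComap (A.comap (algebraMap K₀ Kb)) (ratForm N' K₀)
       DSetup ↥(A.comap (algebraMap K₀ Kb))
        ((H66.gaussO A N' hA hℓN').comap (algebraMap (ratForm N' K₀) (FN N')))
        (⟨hauptThree n N' hN', hx₀⟩ : ratForm N' K₀)) ∧
      (letI := algComap (A.comap (algebraMap K₀ Kb)) (ratForm N' K₀)
       DSetup ↥(A.comap (algebraMap K₀ Kb))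
        ((H66.gaussO A N' hA hℓN').comap (algebraMap (ratForm N' K₀) (FN N')))
        (⟨hauptThree n N' hN', hx₀⟩ : ratForm N' K₀)⁻¹) :=
  dsetup_ratForm_of_l6 N' hℓN' A hA (hauptThree n N' hN') ⟨hauptThreeRat n N' hN', rfl⟩
    (l6_haupt_three n N' hN' hℓN' A hA) K₀

end Three

end Fermat.Agent.S34.H19
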