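/-
S34 / Program B' (helper19, backup of tasks 600): **leaf 1 (`BaseLeaf`, L6) of
`S34/H30/Leaves.lean`, verbatim.**

At every good level `M` (`q ∤ M`, `2 ∣ M` unless `q = 2`, `3 ∣ M` unless `q = 3`) there is a
rational base function `x₀` carrying the descended setup over every constant field, for itself
and its inverse, on helper61's field `ratForm M K₀`:
* `q ≥ 5` : `x₀ = j(q^M)`                          (`dsetup_ratForm_top`);
* `q = 3` : `x₀ =` Hauptmodul of level two, `M = 2n`   (`dsetup_ratForm_haupt_two`);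
* `q = 2` : `x₀ =` Hauptmodul of level three, `M = 3n` (`dsetup_ratForm_haupt_three`).
-/
import Fermat.Agent.S34.H30.Leaves
import Fermat.Agent.S34.H19.L6HauptForm

set_option autoImplicit false
set_option linter.style.haveILetI false

open AlgebraicCurve ModularCurve

noncomputable section

namespace Fermat.Agent.S34.H19

open Fermat.Agent.S18 Fermat.Agent.S18.H74 Fermat.Agent.S18.H28 Fermat.Agent.S18.H19
  Fermat.Agent.S34.H61 Fermat.Agent.S34.H30

/-- **Leaf (L6)** of `S34/H30/Leaves.lean`: an admissible base function exists at every good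
level. -/
theorem baseLeaf : BaseLeaf := by
  intro M q _ _ hqM h2 h3 A hA
  by_cases hq2 : q = 2
  · -- `q = 2`: `3 ∣ M`, Hauptmodul of level three
    have hq3 : q ≠ 3 := by rw [hq2]; norm_num
    obtain ⟨n, hn⟩ := h3 hq3
    have hN' : M = n * 3 := by rw [hn, Nat.mul_comm]
    haveI : NeZero n := ⟨by rintro rfl; exact NeZero.ne M (by rw [hN', Nat.zero_mul])⟩
    refine ⟨hauptThree n M hN', ⟨hauptThreeRat n M hN', rfl⟩, fun K₀ hx => ?_⟩
    obtain ⟨_, hD, hD'⟩ := dsetup_ratForm_haupt_three n M hN' hqM A hA K₀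
    exact ⟨hD, hD'⟩
  by_cases hq3 : q = 3
  · -- `q = 3`: `2 ∣ M`, Hauptmodul of level two
    obtain ⟨n, hn⟩ := h2 hq2
    have hN' : M = n * 2 := by rw [hn, Nat.mul_comm]
    haveI : NeZero n := ⟨by rintro rfl; exact NeZero.ne M (by rw [hN', Nat.zero_mul])⟩
    refine ⟨hauptTwo n M hN', ⟨hauptTwoRat n M hN', rfl⟩, fun K₀ hx => ?_⟩
    obtain ⟨_, hD, hD'⟩ := dsetup_ratForm_haupt_two n M hN' hqM A hA K₀
    exact ⟨hD, hD'⟩
  · -- `q ≥ 5`: the top function `j(q^M)`
    refine ⟨jtop M, ⟨jqNFull M, ratEmb_jqNFull M⟩, fun K₀ hx => ?_⟩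
    obtain ⟨_, hD, hD'⟩ := dsetup_ratForm_top M hqM A hA hq2 hq3 K₀
    exact ⟨hD, hD'⟩

end Fermat.Agent.S34.H19
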