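/-
S34 / Program B', leaf (M6c) for the concrete model `H30.stdV` (helper19).

`cusp_stdV_of_rel` : for ANY admissible base function `x₀` of the good level `M` which satisfies a
`j`-relation `j(q^M) · D(x₀) = N(x₀)` with `N, D ∈ ℤ[X]`, `N` monic, `deg D < deg N`, the concrete
model `stdV M q A hAtop O₁ w K₀ ϖ j σ` (`j = α x₀`) has the property `VData.Cusp`: a closed point
of the chart at infinity on the divisor `j = ∞` is not on both components of the special fibre.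

The three instances of the relation are in `S34/H19/HauptRel.lean`:
`x₀ = jtop M` (`N = X`, `D = 1`), `x₀ = hauptTwo` (`N = (X + 16)³`, `D = X`),
`x₀ = hauptThree` (`N = (X + 27)(X + 3)³`, `D = X`).
-/
import Fermat.Agent.S34.H19.CuspTop
import Fermat.Agent.S34.H19.RatLD
import Fermat.Agent.S34.H42.CuspHaupt
import Fermat.Agent.S34.H30.ChartClose
import Fermat.Agent.S18.H72.ChartConst

set_option autoImplicit false
set_option linter.style.haveILetI false
set_option linter.unusedSectionVars false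

open AlgebraicCurve ModularCurve

noncomputable section

namespace Fermat.Agent.S34.H19

open Fermat.Agent.S34.H27 Fermat.Agent.S34.H10 Fermat.Agent.S34.H7
  Fermat.Agent.S18 Fermat.Agent.S18.H74 Fermat.Agent.S18.H19 Fermat.Agent.S18.H28
  Fermat.Agent.S34.H61 Fermat.Agent.S34.H64 Fermat.Agent.S34.H30 Fermat.Agent.S34.H42

/-- **(M6c) for the concrete model, any base function with a `j`-relation.** -/
theorem cusp_stdV_of_rel {M q : ℕ} [NeZero M] [Fact q.Prime] {hqM : ¬ q ∣ M}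
    {A : ValuationSubring Kb} {hA : A.LiesOverPrime q} (hAtop : A ≠ ⊤)
    {O₁ : ValuationSubring (FN (M * q))} {w : FN (M * q) ≃+* FN (M * q)}
    (hTG : TwoGauss M q hqM A hA O₁ w) (x₀ : FN M) (hx₀ : IsBase M q hqM A hA x₀)
    (N D : Polynomial ℤ) (hN : N.Monic) (hdeg : D.natDegree < N.natDegree)
    (hrel : jtop M * Polynomial.aeval x₀ D = Polynomial.aeval x₀ N)
    (K₀ : IntermediateField ℚ Kb) [FiniteDimensional ℚ K₀] [Normal ℚ K₀]
    (ϖ : ↥(A.comap (algebraMap K₀ Kb))) (j : ↥(ratForm (M * q) K₀))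
    (hj : (j : FN (M * q)) = heckeAlphaBar Kb M q x₀) (σ : Kb ≃ₐ[ℚ] Kb) :
    (stdV M q A hAtop O₁ w K₀ ϖ j σ).Cusp := by
  letI := algComap (A.comap (algebraMap K₀ Kb)) (ratForm (M * q) K₀)
  haveI := Fermat.Agent.S34.H78.isDVR_comap hAtop K₀
  haveI := Fermat.Agent.S34.H78.faithfulSMul_comap A K₀ (ratForm (M * q) K₀)
  haveI := neZero_mul_prime M q
  have hchart := chartLeaf M q hqM A hA x₀ hx₀ K₀ j hj
  have hCG := Fermat.Agent.S34.H44.chartsGood j hchart.1 hchart.2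
  haveI := hCG.icl₂
  have hj0 : j ≠ 0 := hCG.j_ne
  -- the inverse of the base function lies in the Gauss ring of level `M`
  have hx₀inv : x₀⁻¹ ∈ H66.gaussO A M hA hqM := by
    obtain ⟨g, rfl⟩ := hx₀.1
    have hS := (hx₀.2 K₀ (ratEmb_mem_ratForm M K₀ g)).1
    exact (Fermat.Agent.S18.H72.self_mem_of_dsetup hS).2
  -- the chart at infinity lies in both Gauss rings
  have hC₁ : ∀ c ∈ chart ↥(A.comap (algebraMap K₀ Kb)) j⁻¹,
      algebraMap ↥(ratForm (M * q) K₀) (FN (M * q)) c ∈ O₁ := by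
    refine Fermat.Agent.S18.H72.chart_subset_valuationSubring
      (O₁.comap (algebraMap ↥(ratForm (M * q) K₀) (FN (M * q)))) (fun a => ?_) ?_
    · exact (hTG.algebraMap_mem_iff ((a : K₀) : Kb)).2 a.2
    · show algebraMap ↥(ratForm (M * q) K₀) (FN (M * q)) j⁻¹ ∈ O₁
      rw [map_inv₀]
      show (j : FN (M * q))⁻¹ ∈ O₁
      rw [hj, ← map_inv₀, hTG.alpha_mem_iff]
      exact hx₀inv
  have hC₂ : ∀ c ∈ chart ↥(A.comap (algebraMap K₀ Kb)) j⁻¹,
      algebraMap ↥(ratForm (M * q) K₀) (FN (M * q)) c ∈ secondGauss O₁ w := by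
    refine Fermat.Agent.S18.H72.chart_subset_valuationSubring
      ((secondGauss O₁ w).comap (algebraMap ↥(ratForm (M * q) K₀) (FN (M * q)))) (fun a => ?_) ?_
    · show w (algebraMap Kb (FN (M * q)) ((a : K₀) : Kb)) ∈ O₁
      rw [hTG.w_algebraMap]
      exact (hTG.algebraMap_mem_iff ((a : K₀) : Kb)).2 a.2
    · show w (algebraMap ↥(ratForm (M * q) K₀) (FN (M * q)) j⁻¹) ∈ O₁
      rw [map_inv₀]
      show w ((j : FN (M * q))⁻¹) ∈ O₁
      rw [hj, ← map_inv₀, hTG.w_alpha, hTG.beta_mem_iff]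
      exact hx₀inv
  -- `α j₀` and `β j₀` in the `K₀`-form
  let j₁ : ↥(ratForm (M * q) K₀) :=
    ⟨jFN (M * q) M (dvd_mul_right M q), by
      rw [jFN_eq_ratEmb]
      exact ratEmb_mem_ratForm (M * q) K₀ _⟩
  let j₂ : ↥(ratForm (M * q) K₀) :=
    ⟨jFN (M * q) (M * q) dvd_rfl, by
      rw [jFN_eq_ratEmb]
      exact ratEmb_mem_ratForm (M * q) K₀ _⟩
  have hι₁ : algebraMap ↥(ratForm (M * q) K₀) (FN (M * q)) j₁ =
      heckeAlphaBar Kb M q (jtop M) := (alpha_jtop_eq M q).symm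
  have hι₂ : algebraMap ↥(ratForm (M * q) K₀) (FN (M * q)) j₂ =
      heckeBetaBar Kb M q (jtop M) := (beta_jtop_eq M q).symm
  -- the relation in the `K₀`-form
  have hrel' : j₁ * Polynomial.aeval j (D.map (algebraMap ℤ ↥(A.comap (algebraMap K₀ Kb)))) =
      Polynomial.aeval j (N.map (algebraMap ℤ ↥(A.comap (algebraMap K₀ Kb)))) := by
    rw [Polynomial.aeval_map_algebraMap, Polynomial.aeval_map_algebraMap]
    apply (algebraMap ↥(ratForm (M * q) K₀) (FN (M * q))).injective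
    have hcomp : ∀ P : Polynomial ℤ,
        algebraMap ↥(ratForm (M * q) K₀) (FN (M * q)) (Polynomial.aeval j P) =
          heckeAlphaBar Kb M q (Polynomial.aeval x₀ P) := by
      intro P
      rw [ringHom_aeval_of_comp (algebraMap ↥(ratForm (M * q) K₀) (FN (M * q)))
        (RingHom.ext_int _ _) j P]
      have h1 : algebraMap ↥(ratForm (M * q) K₀) (FN (M * q)) j = heckeAlphaBar Kb M q x₀ := hj
      rw [h1]
      exact (ringHom_aeval_of_comp (heckeAlphaBar Kb M q : FN M →+* FN (M * q))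
        (RingHom.ext_int _ _) x₀ P).symm
    rw [map_mul, hcomp, hcomp, hι₁, ← map_mul, hrel]
  intro x hx _ hcx hboth
  haveI := hx.isPrime
  obtain ⟨c, hcx, hc⟩ := hcx
  have hjx : (⟨j⁻¹, self_mem_chart ↥(A.comap (algebraMap K₀ Kb)) j⁻¹⟩ :
      ↥(chart ↥(A.comap (algebraMap K₀ Kb)) j⁻¹)) ∈ x := by
    have : (⟨j⁻¹, self_mem_chart ↥(A.comap (algebraMap K₀ Kb)) j⁻¹⟩ :
        ↥(chart ↥(A.comap (algebraMap K₀ Kb)) j⁻¹)) = c := Subtype.ext hc.symm
    rw [this]
    exact hcx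
  obtain ⟨a, b, ha, hb, hab⟩ := inMax_inv_of_inMax_inv
    (chart ↥(A.comap (algebraMap K₀ Kb)) j⁻¹) hCG.frac₂ x
    (N.map (algebraMap ℤ ↥(A.comap (algebraMap K₀ Kb))))
    (D.map (algebraMap ℤ ↥(A.comap (algebraMap K₀ Kb)))) (hN.map _)
    (by
      rw [hN.natDegree_map]
      exact lt_of_le_of_lt Polynomial.natDegree_map_le hdeg)
    j j₁ hj0 hrel'
    (inMax_of_mem _ x (self_mem_chart ↥(A.comap (algebraMap K₀ Kb)) j⁻¹) hjx)
  have hn₁ : ∀ f : ↥(ratForm (M * q) K₀),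
      f ∈ (O₁.comap (algebraMap ↥(ratForm (M * q) K₀) (FN (M * q)))).nonunits ↔
        algebraMap ↥(ratForm (M * q) K₀) (FN (M * q)) f ∈ O₁.nonunits := fun f =>
    (mem_nonunits_iff_of_mem_iff (algebraMap ↥(ratForm (M * q) K₀) (FN (M * q)))
      (O₁.comap (algebraMap ↥(ratForm (M * q) K₀) (FN (M * q)))) O₁ (fun _ => Iff.rfl) f).symm
  have hn₂ : ∀ f : ↥(ratForm (M * q) K₀),
      f ∈ ((secondGauss O₁ w).comap (algebraMap ↥(ratForm (M * q) K₀) (FN (M * q)))).nonunits ↔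
        algebraMap ↥(ratForm (M * q) K₀) (FN (M * q)) f ∈ (secondGauss O₁ w).nonunits := fun f =>
    (mem_nonunits_iff_of_mem_iff (algebraMap ↥(ratForm (M * q) K₀) (FN (M * q)))
      ((secondGauss O₁ w).comap (algebraMap ↥(ratForm (M * q) K₀) (FN (M * q))))
      (secondGauss O₁ w) (fun _ => Iff.rfl) f).symm
  exact cusp_not_both_twoGauss_top_loc hTG (algebraMap ↥(ratForm (M * q) K₀) (FN (M * q)))
    (chart ↥(A.comap (algebraMap K₀ Kb)) j⁻¹) hCG.frac₂ j₁ j₂ hι₁ hι₂ hC₁ hC₂ x a b ha hb hab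
    ⟨fun c hc => hboth.1 c ((hn₁ _).2 hc), fun c hc => hboth.2 c ((hn₂ _).2 hc)⟩

end Fermat.Agent.S34.H19
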