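/-
S34 / Program B', leaf M1, clauses (DIV) and (RAT) at ANY level `N` (helper19).

`F_N = ℚ̄(X₀(N))`, `K₀ ⊆ ℚ̄` any intermediate field, and the `K₀`-form
`ratF N K₀ = K₀ · F_{N,ℚ}` of `F_N` (the field generated over `K₀` by the functions with rational
`q`-expansion; definitionally `IntermediateField.adjoin K₀ (Set.range (ratEmb N))`).

* `arith_fix` : the arithmetic Galois action of `σ ∈ Aut(ℚ̄/K₀)` fixes `ratF N K₀` pointwise;
* `ratF_closure_eq_top` : `F_N = ratF N K₀ · ℚ̄`;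
* `exists_finset_mem_ratF` : every function lies in `ratF N K₀` as soon as `K₀` contains a finite
  set of constants;
* `div_ratF` **(DIV)**, for EVERY `K₀`: if `m ∣ ord_P u` at every place of `F_N`, then `u` is an
  `m`-th power up to a unit in every valuation ring `V ≠ ⊤` of `ratF N K₀` over `K₀`;
* `rat_ratF` **(RAT)**: there is a finite set `Z ⊆ ℚ̄` (depending on `u ≠ 0`) such that for every
  `K₀ ⊇ Z`: `u ∈ ratF N K₀`, and every valuation ring `V ≠ ⊤` of `ratF N K₀` over `K₀` at which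
  `u` is not a unit has residue field `K₀`.

Proof of (RAT): the support of `u` is finite; separate its members pairwise by functions `h_PQ`
(regular at `P`, not at `Q`) and let `Z` collect constants making `u` and the `h_PQ` lie in
`ratF N K₀`.  For `σ ∈ Aut(ℚ̄/K₀)` the arithmetic automorphism `g` fixes `ratF N K₀` pointwise,
hence permutes the support of `u` and cannot move any of its members.  If `P` lies above `V` and
`y ∈ V` has value `a ∈ ℚ̄` at `P`, then `y - σ a = g (y - a)` vanishes at `g P = P`, so `σ a = a`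
for all `σ`, i.e. `a ∈ K₀`.
-/
import Mathlib
import Fermat.Prelude.Def_ModularCurve_ArithmeticGalois
import Fermat.Agent.S34.H19.RatBasis
import Fermat.Agent.S18.H61.DescPlaces
import Fermat.Agent.S18.H61.DescSmall
import Fermat.Agent.S34.H60.ConstUnram
import Fermat.Agent.S18.H42.FiniteOrd
import Fermat.Agent.S18.H7.TameBound
import Fermat.Agent.S18.H55.DegJ
import Fermat.Agent.S18.H60.DegreeJ

set_option autoImplicit false

open AlgebraicCurve IntermediateField ModularCurve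

noncomputable section

namespace Fermat.Agent.S34.H19

open Fermat.Agent.S18.H74

/-! ### Abstract part: semilinear automorphisms and places -/

section Abstract

open scoped Pointwise

variable {k K : Type*} [Field k] [Field K] [Algebra k K] (K₀ : IntermediateField k K)
  {F : Type*} [Field F] [Algebra K F] (F₀ : IntermediateField K₀ F)

/-- A semilinear automorphism `g` with `g • P` in a set `S` of places fixes `P` as soon as `P`
is separated from every other member of `S` by a function fixed by `g`. -/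
theorem smul_place_eq_of_sep (S : Set (Place K F)) (g : SemilinearAut K F) (P : Place K F)
    (hS : g • P ∈ S)
    (hsep : ∀ Q ∈ S, Q ≠ P → ∃ h : F, g • h = h ∧ h ∈ P.toValuationSubring ∧
      h ∉ Q.toValuationSubring) : g • P = P := by
  by_contra hne
  obtain ⟨h, hg, hP, hQ⟩ := hsep (g • P) hS hne
  apply hQ
  have h1 : g • h ∈ g • P.toValuationSubring :=
    ValuationSubring.smul_mem_pointwise_smul g h _ hP
  rw [hg] at h1
  exact h1

/-- **Rational values.**  If every `σ ∈ Aut(K/K₀)` is the base automorphism of a semilinear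
automorphism of `F` which fixes `F₀` pointwise and fixes the place `P`, then the value at `P` of
a function of `F₀` regular at `P` lies in `K₀`. -/
theorem exists_const_of_fixed [IsAlgClosed K] [Algebra.IsAlgebraic K₀ K] [CharZero K]
    (x : F) [Algebra.IsAlgebraic K⟮x⟯ F] (P : Place K F)
    (hfix : ∀ σ : K ≃ₐ[K₀] K, ∃ g : SemilinearAut K F,
      (∀ a : K, SemilinearAut.baseAut g a = σ a) ∧ (∀ f ∈ F₀, g • f = f) ∧ g • P = P)
    (y : F) (hy₀ : y ∈ F₀) (hy : y ∈ P.toValuationSubring) :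
    ∃ c : K₀, y - algebraMap K F (c : K) ∈ P.toValuationSubring.nonunits := by
  obtain ⟨a, ha⟩ := Fermat.Agent.S18.H7.exists_value (x := x) P hy
  have : IsAlgClosure K₀ K := ⟨inferInstance, inferInstance⟩
  have hfixa : ∀ σ : K ≃ₐ[K₀] K, σ a = a := by
    intro σ
    obtain ⟨g, hg1, hg2, hg3⟩ := hfix σ
    have h1 : g • (y - algebraMap K F a) = y - algebraMap K F (σ a) := by
      rw [smul_sub, hg2 y hy₀, SemilinearAut.smul_algebraMap, hg1]
    have h2 : y - algebraMap K F (σ a) ∈ P.toValuationSubring.nonunits := by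
      rw [Fermat.Agent.S18.H7.van_iff] at ha ⊢
      rcases ha with h0 | hpos
      · left
        rw [← h1, h0, smul_zero]
      · right
        have h3 := SemilinearAut.ord_smul g P (y - algebraMap K F a)
        rw [hg3, h1] at h3
        rw [h3]
        exact hpos
    have h4 : algebraMap K F (σ a - a) ∈ P.toValuationSubring.nonunits := by
      have h5 := P.toValuationSubring.nonunits.sub_mem ha h2
      have h6 : y - algebraMap K F a - (y - algebraMap K F (σ a)) = algebraMap K F (σ a - a) := by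
        rw [map_sub]
        ring
      rw [h6] at h5
      exact h5
    exact sub_eq_zero.mp (Fermat.Agent.S18.H7.const_eq_zero_of_van P h4)
  obtain ⟨c, hc⟩ := (InfiniteGalois.mem_range_algebraMap_iff_fixed (k := K₀) a).mpr hfixa
  refine ⟨c, ?_⟩
  have h7 : ((c : K₀) : K) = a := hc
  rw [h7]
  exact ha

end Abstract

/-! ### The `K₀`-form of the modular function field -/

section Concrete

/-- The `K₀`-form `K₀ · F_{N,ℚ}` of the function field of level `N`. -/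
abbrev ratF (N : ℕ) (K₀ : IntermediateField ℚ Kb) : IntermediateField K₀ (FN N) :=
  IntermediateField.adjoin K₀ (Set.range (ratEmb N))

theorem ratEmb_mem_ratF (N : ℕ) (K₀ : IntermediateField ℚ Kb)
    (f : ↥(modularFunctionFieldFull N)) : ratEmb N f ∈ ratF N K₀ :=
  IntermediateField.subset_adjoin K₀ _ ⟨f, rfl⟩

theorem algebraMap_mem_ratF (N : ℕ) (K₀ : IntermediateField ℚ Kb) {c : Kb} (hc : c ∈ K₀) :
    algebraMap Kb (FN N) c ∈ ratF N K₀ :=
  (ratF N K₀).algebraMap_mem (⟨c, hc⟩ : K₀)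

/-- **(FIX)** The arithmetic automorphism attached to `σ ∈ Aut(ℚ̄/K₀)` fixes `ratF N K₀`
pointwise. -/
theorem arith_fix (N : ℕ) (K₀ : IntermediateField ℚ Kb) (σ : Kb ≃ₐ[ℚ] Kb)
    (hσ : ∀ c ∈ K₀, σ c = c) {f : FN N} (hf : f ∈ ratF N K₀) :
    arithmeticRingAut (modularFunctionFieldFull N) σ f = f := by
  induction hf using IntermediateField.adjoin_induction with
  | mem y hy =>
    obtain ⟨f₀, rfl⟩ := hy
    apply Subtype.ext
    rw [coe_arithmeticRingAut_apply, coe_ratEmb, coeffMap_coeffEmb]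
  | algebraMap c =>
    have h1 : algebraMap K₀ (FN N) c = algebraMap Kb (FN N) (c : Kb) := rfl
    rw [h1, arithmeticRingAut_algebraMap, hσ c c.2]
  | add y z _ _ hy hz => rw [map_add, hy, hz]
  | inv y _ hy => rw [map_inv₀, hy]
  | mul y z _ _ hy hz => rw [map_mul, hy, hz]

/-- **(MEM)** Every function of level `N` lies in `ratF N K₀` as soon as `K₀` contains a finite
set of constants. -/
theorem exists_finset_mem_ratF (N : ℕ) (f : FN N) :
    ∃ Z : Finset Kb, ∀ K₀ : IntermediateField ℚ Kb, (∀ z ∈ Z, z ∈ K₀) → f ∈ ratF N K₀ := by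
  classical
  have hf : (f : LaurentSeries Kb) ∈ IntermediateField.adjoin Kb
      (⇑(coeffEmb Kb) '' ((modularFunctionFieldFull N : IntermediateField ℚ (LaurentSeries ℚ)) :
        Set (LaurentSeries ℚ))) := f.2
  have key : ∀ (y : LaurentSeries Kb), y ∈ IntermediateField.adjoin Kb
      (⇑(coeffEmb Kb) '' ((modularFunctionFieldFull N : IntermediateField ℚ (LaurentSeries ℚ)) :
        Set (LaurentSeries ℚ))) →
      ∃ Z : Finset Kb, ∀ K₀ : IntermediateField ℚ Kb, (∀ z ∈ Z, z ∈ K₀) →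
        ∃ g : FN N, g ∈ ratF N K₀ ∧ (g : LaurentSeries Kb) = y := by
    intro y hy
    induction hy using IntermediateField.adjoin_induction with
    | mem y hy =>
      obtain ⟨z, hz, rfl⟩ := hy
      exact ⟨∅, fun K₀ _ => ⟨ratEmb N ⟨z, hz⟩, ratEmb_mem_ratF N K₀ ⟨z, hz⟩, rfl⟩⟩
    | algebraMap c =>
      refine ⟨{c}, fun K₀ hK₀ => ⟨algebraMap Kb (FN N) c, ?_, rfl⟩⟩
      exact algebraMap_mem_ratF N K₀ (hK₀ c (Finset.mem_singleton_self c))
    | add y z _ _ h₁ h₂ =>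
      obtain ⟨Z₁, hZ₁⟩ := h₁
      obtain ⟨Z₂, hZ₂⟩ := h₂
      refine ⟨Z₁ ∪ Z₂, fun K₀ hK₀ => ?_⟩
      obtain ⟨g₁, hg₁, rfl⟩ := hZ₁ K₀ fun z hz => hK₀ z (Finset.mem_union_left _ hz)
      obtain ⟨g₂, hg₂, rfl⟩ := hZ₂ K₀ fun z hz => hK₀ z (Finset.mem_union_right _ hz)
      exact ⟨g₁ + g₂, (ratF N K₀).add_mem hg₁ hg₂, rfl⟩
    | inv y _ h₁ =>
      obtain ⟨Z₁, hZ₁⟩ := h₁
      refine ⟨Z₁, fun K₀ hK₀ => ?_⟩
      obtain ⟨g₁, hg₁, rfl⟩ := hZ₁ K₀ hK₀
      exact ⟨g₁⁻¹, (ratF N K₀).inv_mem hg₁, rfl⟩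
    | mul y z _ _ h₁ h₂ =>
      obtain ⟨Z₁, hZ₁⟩ := h₁
      obtain ⟨Z₂, hZ₂⟩ := h₂
      refine ⟨Z₁ ∪ Z₂, fun K₀ hK₀ => ?_⟩
      obtain ⟨g₁, hg₁, rfl⟩ := hZ₁ K₀ fun z hz => hK₀ z (Finset.mem_union_left _ hz)
      obtain ⟨g₂, hg₂, rfl⟩ := hZ₂ K₀ fun z hz => hK₀ z (Finset.mem_union_right _ hz)
      exact ⟨g₁ * g₂, (ratF N K₀).mul_mem hg₁ hg₂, rfl⟩
  obtain ⟨Z, hZ⟩ := key f.1 hf
  refine ⟨Z, fun K₀ hK₀ => ?_⟩
  obtain ⟨g, hg, hgf⟩ := hZ K₀ hK₀
  have hgf' : g = f := Subtype.ext hgf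
  rw [← hgf']
  exact hg

/-- **(TOP)** `F_N = ratF N K₀ · ℚ̄`. -/
theorem ratF_closure_eq_top (N : ℕ) (K₀ : IntermediateField ℚ Kb) :
    Subfield.closure ((ratF N K₀ : Set (FN N)) ∪ Set.range (algebraMap Kb (FN N))) = ⊤ := by
  classical
  rw [eq_top_iff]
  rintro f -
  obtain ⟨Z, hZ⟩ := exists_finset_mem_ratF N f
  -- `f ∈ ratF N (ℚ(Z))`, and `ratF N (ℚ(Z))` is generated by `ratF N K₀` and constants
  have h1 := hZ (IntermediateField.adjoin ℚ (Z : Set Kb))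
    (fun z hz => IntermediateField.subset_adjoin ℚ _ hz)
  clear hZ
  set E : Subfield (FN N) :=
    Subfield.closure ((ratF N K₀ : Set (FN N)) ∪ Set.range (algebraMap Kb (FN N))) with hE
  induction h1 using IntermediateField.adjoin_induction with
  | mem y hy =>
    obtain ⟨f₀, rfl⟩ := hy
    exact Subfield.subset_closure (Or.inl (ratEmb_mem_ratF N K₀ f₀))
  | algebraMap c => exact Subfield.subset_closure (Or.inr ⟨(c : Kb), rfl⟩)
  | add y z _ _ hy hz => exact E.add_mem hy hz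
  | inv y _ hy => exact E.inv_mem hy
  | mul y z _ _ hy hz => exact E.mul_mem hy hz

end Concrete

/-! ### (DIV) and (RAT) -/

section Main

/-- `ℚ̄` is algebraic over each of its subfields. -/
theorem isAlgebraic_Kb_over (K₀ : IntermediateField ℚ Kb) : Algebra.IsAlgebraic K₀ Kb := by
  have := Fermat.Agent.S18.H61.isAlgebraic_rat_algebraicClosure
  exact Algebra.IsAlgebraic.tower_top (K := ℚ) K₀

variable (N : ℕ) [NeZero N]

/-- **(DIV)**, for EVERY constant field `K₀ ⊆ ℚ̄`: if `m` divides the order of `u₀` at every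
place of `F_N`, then `u₀` is an `m`-th power up to a unit in every valuation ring `V ≠ ⊤` of
`ratF N K₀` containing `K₀`. -/
theorem div_ratF (K₀ : IntermediateField ℚ Kb) (m : ℕ) (u₀ : ↥(ratF N K₀))
    (hord : ∀ P : Place Kb (FN N), (m : ℤ) ∣ P.ord (u₀ : FN N))
    (V : ValuationSubring ↥(ratF N K₀)) (hK : ∀ c : K₀, algebraMap K₀ ↥(ratF N K₀) c ∈ V)
    (hV : V ≠ ⊤) :
    ∃ t : ↥(ratF N K₀), t ≠ 0 ∧ u₀ / t ^ m ∈ V ∧ (u₀ / t ^ m)⁻¹ ∈ V := by
  have hfinJ : FiniteDimensional Kb⟮Fermat.Agent.S24.jgen N⟯ (FN N) :=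
    Fermat.Agent.S18.H55.finiteDimensional_jgen N
  have halg := isAlgebraic_Kb_over K₀
  exact Fermat.Agent.S18.H61.hdiv_descent K₀ (ratF N K₀) (Fermat.Agent.S24.jgen N)
    (Fermat.Agent.S34.H60.exists_ord_eq_one_of_closure_eq_top K₀ (ratF N K₀)
      (ratF_closure_eq_top N K₀)) m u₀ hord V hK hV

/-- **(RAT)**: for `K₀` containing a finite set of constants depending only on `u ≠ 0`, the
function `u` lies in `ratF N K₀` and every valuation ring `V ≠ ⊤` of `ratF N K₀` over `K₀` at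
which `u` is not a unit has residue field `K₀`. -/
theorem rat_ratF (u : FN N) (hu : u ≠ 0) :
    ∃ Z : Finset Kb, ∀ K₀ : IntermediateField ℚ Kb, (∀ z ∈ Z, z ∈ K₀) → u ∈ ratF N K₀ ∧
      ∀ V : ValuationSubring ↥(ratF N K₀), (∀ c : K₀, algebraMap K₀ ↥(ratF N K₀) c ∈ V) →
        V ≠ ⊤ → (∀ u₀ : ↥(ratF N K₀), (u₀ : FN N) = u → ¬ (u₀ ∈ V ∧ u₀⁻¹ ∈ V)) →
        ∀ y ∈ V, ∃ c : K₀, y - algebraMap K₀ ↥(ratF N K₀) c ∈ V.nonunits := by
  classical
  have hfinJ : FiniteDimensional Kb⟮Fermat.Agent.S24.jgen N⟯ (FN N) :=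
    Fermat.Agent.S18.H55.finiteDimensional_jgen N
  have htr : Transcendental Kb (Fermat.Agent.S24.jgen N) :=
    Fermat.Agent.S18.H60.transcendental_jgen N
  have hfin : {P : Place Kb (FN N) | P.ord u ≠ 0}.Finite :=
    Fermat.Agent.S18.H42.finite_ord_ne_zero (Fermat.Agent.S24.jgen N) htr hu
  have hsepex : ∀ P Q : Place Kb (FN N), ∃ h : FN N, Q ≠ P →
      h ∈ P.toValuationSubring ∧ h ∉ Q.toValuationSubring := by
    intro P Q
    by_cases hPQ : Q = P
    · exact ⟨0, fun h => absurd hPQ h⟩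
    · obtain ⟨h, h1, h2⟩ := Fermat.Agent.S18.H7.exists_reg_not_reg (v := P) (w := Q)
        (fun h => hPQ h.symm)
      exact ⟨h, fun _ => ⟨h1, h2⟩⟩
  choose h hh using hsepex
  choose Zf hZf using exists_finset_mem_ratF N
  refine ⟨Zf u ∪ (hfin.toFinset ×ˢ hfin.toFinset).biUnion (fun pq => Zf (h pq.1 pq.2)),
    fun K₀ hK₀ => ?_⟩
  have hu₀ : u ∈ ratF N K₀ := hZf u K₀ (fun z hz => hK₀ z (Finset.mem_union_left _ hz))
  have hh₀ : ∀ P Q : Place Kb (FN N), P.ord u ≠ 0 → Q.ord u ≠ 0 → h P Q ∈ ratF N K₀ := by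
    intro P Q hP hQ
    refine hZf _ K₀ (fun z hz => hK₀ z (Finset.mem_union_right _ ?_))
    rw [Finset.mem_biUnion]
    exact ⟨(P, Q), Finset.mem_product.mpr
      ⟨hfin.mem_toFinset.mpr hP, hfin.mem_toFinset.mpr hQ⟩, hz⟩
  refine ⟨hu₀, fun V hK hV hnu y hy => ?_⟩
  have halg := isAlgebraic_Kb_over K₀
  obtain ⟨P, hP⟩ := Fermat.Agent.S18.H61.exists_place_above K₀ (ratF N K₀)
    (Fermat.Agent.S24.jgen N) V hK hV
  -- `P` lies in the support of `u`
  have hPu : P.ord u ≠ 0 := by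
    intro h0
    apply hnu ⟨u, hu₀⟩ rfl
    constructor
    · rw [hP]
      exact (Fermat.Agent.S18.H7.reg_iff P u).mpr (by rw [h0])
    · rw [hP]
      show u⁻¹ ∈ P.toValuationSubring
      rw [Fermat.Agent.S18.H7.reg_iff, Place.ord_inv, h0, neg_zero]
  -- the arithmetic automorphisms over `K₀` fix `P`
  have hfix : ∀ σ : Kb ≃ₐ[K₀] Kb, ∃ g : SemilinearAut Kb (FN N),
      (∀ a : Kb, SemilinearAut.baseAut g a = σ a) ∧ (∀ f ∈ ratF N K₀, g • f = f) ∧
        g • P = P := by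
    intro σ
    have hgfix : ∀ f ∈ ratF N K₀,
        arithmeticGalois (modularFunctionFieldFull N) (σ.restrictScalars ℚ) • f = f :=
      fun f hf => arith_fix N K₀ (σ.restrictScalars ℚ) (fun c hc => σ.commutes ⟨c, hc⟩) hf
    refine ⟨arithmeticGalois (modularFunctionFieldFull N) (σ.restrictScalars ℚ),
      fun a => rfl, hgfix, ?_⟩
    refine smul_place_eq_of_sep {P : Place Kb (FN N) | P.ord u ≠ 0} _ P ?_ ?_
    · show (arithmeticGalois (modularFunctionFieldFull N) (σ.restrictScalars ℚ) • P).ord u ≠ 0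
      have h1 := SemilinearAut.ord_smul
        (arithmeticGalois (modularFunctionFieldFull N) (σ.restrictScalars ℚ)) P u
      rw [hgfix u hu₀] at h1
      rw [h1]
      exact hPu
    · intro Q hQ hQP
      exact ⟨h P Q, hgfix _ (hh₀ P Q hPu hQ), (hh P Q hQP).1, (hh P Q hQP).2⟩
  have halgJ : Algebra.IsAlgebraic Kb⟮Fermat.Agent.S24.jgen N⟯ (FN N) :=
    Fermat.Agent.S18.H55.isAlgebraic_jgen N
  obtain ⟨c, hc⟩ := exists_const_of_fixed K₀ (ratF N K₀) (Fermat.Agent.S24.jgen N) P hfix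
    (y : FN N) y.2 ((hP y).mp hy)
  refine ⟨c, ?_⟩
  have h1 : ∀ z : ↥(ratF N K₀), z ∈ V.nonunits ↔ (z : FN N) ∈ P.toValuationSubring.nonunits := by
    intro z
    rw [ValuationSubring.mem_nonunits_iff_or, ValuationSubring.mem_nonunits_iff_or, hP]
    constructor
    · rintro (h | h)
      · left
        rw [h]
        rfl
      · right
        exact h
    · rintro (h | h)
      · left
        exact Subtype.ext h
      · right
        exact h
  rw [h1]
  exact hc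

end Main

/-! ### Adapters: the base ring `A₀ ⊆ K₀` -/

section Adapters

variable {K₀ F₀ : Type*} [Field K₀] [Field F₀] [Algebra K₀ F₀] (A₀ : ValuationSubring K₀)
  [Algebra A₀ F₀] (hcompat : ∀ a : A₀, algebraMap A₀ F₀ a = algebraMap K₀ F₀ (a : K₀))

include hcompat in
/-- A valuation ring of `F₀` containing the inverses of the nonzero elements of `A₀` contains
`K₀`. -/
theorem algebraMap_mem_of_inv_mem (V : ValuationSubring F₀)
    (hinv : ∀ a : A₀, a ≠ 0 → (algebraMap A₀ F₀ a)⁻¹ ∈ V) (c : K₀) : algebraMap K₀ F₀ c ∈ V :=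
  Fermat.Agent.S18.H61.algebraMap_mem_of_forall_inv_mem A₀ V
    (fun a ha => by rw [← hcompat]; exact hinv a ha) c

include hcompat in
/-- Every constant of `K₀` is a quotient of two elements of the valuation ring `A₀`. -/
theorem exists_div_eq_algebraMap (c : K₀) :
    ∃ a a' : A₀, a' ≠ 0 ∧ algebraMap K₀ F₀ c = algebraMap A₀ F₀ a / algebraMap A₀ F₀ a' := by
  rcases A₀.mem_or_inv_mem c with hc | hc
  · refine ⟨⟨c, hc⟩, 1, one_ne_zero, ?_⟩
    rw [map_one, div_one, hcompat]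
  · by_cases hc0 : c = 0
    · exact ⟨0, 1, one_ne_zero, by rw [hc0, map_zero, map_zero, zero_div]⟩
    · refine ⟨1, ⟨c⁻¹, hc⟩, ?_, ?_⟩
      · intro h
        apply hc0
        have h1 : c⁻¹ = 0 := congrArg Subtype.val h
        exact inv_eq_zero.mp h1
      · rw [map_one, one_div, hcompat, map_inv₀, inv_inv]

omit [Algebra K₀ F₀] in
/-- With a uniformiser `ϖ` of the discrete valuation ring `A₀`: a valuation ring of `F₀`
containing `A₀` and `ϖ⁻¹` contains the inverses of the nonzero elements of `A₀`. -/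
theorem inv_mem_of_unif [IsDiscreteValuationRing A₀] (ϖ : A₀) (hϖ : Irreducible ϖ)
    (V : ValuationSubring F₀) (hϖV : (algebraMap A₀ F₀ ϖ)⁻¹ ∈ V)
    (hAV : ∀ a : A₀, algebraMap A₀ F₀ a ∈ V) (a : A₀) (ha : a ≠ 0) :
    (algebraMap A₀ F₀ a)⁻¹ ∈ V := by
  obtain ⟨n, e, rfl⟩ := IsDiscreteValuationRing.eq_unit_mul_pow_irreducible ha hϖ
  have h1 : (algebraMap A₀ F₀ (e : A₀))⁻¹ = algebraMap A₀ F₀ ((e⁻¹ : A₀ˣ) : A₀) := by
    apply inv_eq_of_mul_eq_one_right
    rw [← map_mul, Units.mul_inv, map_one]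
  rw [map_mul, map_pow, mul_inv, ← inv_pow, h1]
  exact V.mul_mem _ _ (hAV _) (V.pow_mem hϖV n)

end Adapters

/-! ### The same statements for any field `F₀` equal to `ratF N K₀`

(e.g. `Fermat.Agent.S34.H61.ratForm N K₀`, with `hF₀ := rfl`): all instances are then found for
`F₀` itself. -/

section Forms

variable (N : ℕ) [NeZero N]

/-- **(DIV)** for a field `F₀ = ratF N K₀`. -/
theorem div_form (K₀ : IntermediateField ℚ Kb) (F₀ : IntermediateField K₀ (FN N))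
    (hF₀ : F₀ = ratF N K₀) (m : ℕ) (u₀ : F₀)
    (hord : ∀ P : Place Kb (FN N), (m : ℤ) ∣ P.ord (u₀ : FN N))
    (V : ValuationSubring F₀) (hK : ∀ c : K₀, algebraMap K₀ F₀ c ∈ V) (hV : V ≠ ⊤) :
    ∃ t : F₀, t ≠ 0 ∧ u₀ / t ^ m ∈ V ∧ (u₀ / t ^ m)⁻¹ ∈ V := by
  subst hF₀
  exact div_ratF N K₀ m u₀ hord V hK hV

/-- **(DIV)** for a field `F₀ = ratF N K₀`, in the shape of `H77.hLoc_of_node_val` (`hdiv`). -/
theorem div_form_of_inv (K₀ : IntermediateField ℚ Kb) (F₀ : IntermediateField K₀ (FN N))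
    (hF₀ : F₀ = ratF N K₀) (A₀ : ValuationSubring K₀) [Algebra A₀ F₀]
    (hcompat : ∀ a : A₀, algebraMap A₀ F₀ a = algebraMap K₀ F₀ (a : K₀))
    (m : ℕ) (u₀ : F₀) (hord : ∀ P : Place Kb (FN N), (m : ℤ) ∣ P.ord (u₀ : FN N))
    (V : ValuationSubring F₀) (hinv : ∀ a : A₀, a ≠ 0 → (algebraMap A₀ F₀ a)⁻¹ ∈ V)
    (hV : IsDiscreteValuationRing V) :
    ∃ t : F₀, t ≠ 0 ∧ u₀ / t ^ m ∈ V ∧ (u₀ / t ^ m)⁻¹ ∈ V :=
  div_form N K₀ F₀ hF₀ m u₀ hord V (algebraMap_mem_of_inv_mem A₀ hcompat V hinv)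
    (Fermat.Agent.S18.H61.ne_top_of_isDiscreteValuationRing V)

/-- **(DIV)** for a field `F₀ = ratF N K₀`, in the shape of `H30.VData.Div` /
`H30.ChartData.Div`. -/
theorem div_form_of_unif (K₀ : IntermediateField ℚ Kb) (F₀ : IntermediateField K₀ (FN N))
    (hF₀ : F₀ = ratF N K₀) (A₀ : ValuationSubring K₀) [IsDiscreteValuationRing A₀]
    [Algebra A₀ F₀] (hcompat : ∀ a : A₀, algebraMap A₀ F₀ a = algebraMap K₀ F₀ (a : K₀))
    (ϖ : A₀) (hϖ : Irreducible ϖ) (m : ℕ) (u₀ : F₀)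
    (hord : ∀ P : Place Kb (FN N), (m : ℤ) ∣ P.ord (u₀ : FN N))
    (V : ValuationSubring F₀) (hϖV : (algebraMap A₀ F₀ ϖ)⁻¹ ∈ V)
    (hAV : ∀ a : A₀, algebraMap A₀ F₀ a ∈ V) (hV : IsDiscreteValuationRing V) :
    ∃ t : F₀, t ≠ 0 ∧ u₀ / t ^ m ∈ V ∧ (u₀ / t ^ m)⁻¹ ∈ V :=
  div_form_of_inv N K₀ F₀ hF₀ A₀ hcompat m u₀ hord V (inv_mem_of_unif A₀ ϖ hϖ V hϖV hAV) hV

/-- **(RAT)** for fields `F₀ = ratF N K₀`. -/
theorem rat_form (u : FN N) (hu : u ≠ 0) :
    ∃ Z : Finset Kb, ∀ K₀ : IntermediateField ℚ Kb, (∀ z ∈ Z, z ∈ K₀) →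
      ∀ F₀ : IntermediateField K₀ (FN N), F₀ = ratF N K₀ → u ∈ F₀ ∧
        ∀ u₀ : F₀, (u₀ : FN N) = u → ∀ V : ValuationSubring F₀,
          (∀ c : K₀, algebraMap K₀ F₀ c ∈ V) → V ≠ ⊤ → ¬ (u₀ ∈ V ∧ u₀⁻¹ ∈ V) →
          ∀ y ∈ V, ∃ c : K₀, y - algebraMap K₀ F₀ c ∈ V.nonunits := by
  obtain ⟨Z, hZ⟩ := rat_ratF N u hu
  refine ⟨Z, fun K₀ hK₀ F₀ hF₀ => ?_⟩
  subst hF₀
  refine ⟨(hZ K₀ hK₀).1, fun u₀ hu₀ V hK hV hnu y hy => ?_⟩
  refine (hZ K₀ hK₀).2 V hK hV (fun u₁ hu₁ => ?_) y hy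
  have h1 : u₁ = u₀ := Subtype.ext (hu₁.trans hu₀.symm)
  rw [h1]
  exact hnu

/-- **(RAT)** for fields `F₀ = ratF N K₀`, in the shape of `H77.hLoc_of_node_val` (`hrat`). -/
theorem rat_form_of_inv (u : FN N) (hu : u ≠ 0) :
    ∃ Z : Finset Kb, ∀ K₀ : IntermediateField ℚ Kb, (∀ z ∈ Z, z ∈ K₀) →
      ∀ F₀ : IntermediateField K₀ (FN N), F₀ = ratF N K₀ → u ∈ F₀ ∧
        ∀ (A₀ : ValuationSubring K₀) [Algebra A₀ F₀],
          (∀ a : A₀, algebraMap A₀ F₀ a = algebraMap K₀ F₀ (a : K₀)) →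
          ∀ u₀ : F₀, (u₀ : FN N) = u → ∀ V : ValuationSubring F₀,
            (∀ a : A₀, a ≠ 0 → (algebraMap A₀ F₀ a)⁻¹ ∈ V) →
            IsDiscreteValuationRing V → ¬ (u₀ ∈ V ∧ u₀⁻¹ ∈ V) →
            ∀ y ∈ V, ∃ a a' : A₀, a' ≠ 0 ∧
              y - algebraMap A₀ F₀ a / algebraMap A₀ F₀ a' ∈ V.nonunits := by
  obtain ⟨Z, hZ⟩ := rat_form N u hu
  refine ⟨Z, fun K₀ hK₀ F₀ hF₀ => ⟨(hZ K₀ hK₀ F₀ hF₀).1, ?_⟩⟩
  intro A₀ _ hcompat u₀ hu₀ V hinv hV hnu y hy
  obtain ⟨c, hc⟩ := (hZ K₀ hK₀ F₀ hF₀).2 u₀ hu₀ V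
    (algebraMap_mem_of_inv_mem A₀ hcompat V hinv)
    (Fermat.Agent.S18.H61.ne_top_of_isDiscreteValuationRing V) hnu y hy
  obtain ⟨a, a', ha', hca⟩ := exists_div_eq_algebraMap A₀ hcompat c
  refine ⟨a, a', ha', ?_⟩
  rw [← hca]
  exact hc

end Forms

end Fermat.Agent.S34.H19
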